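import Fermat.Agent.S20.Defs
import Fermat.Agent.S23.TN
import Fermat.Agent.S23.QNice
import Fermat.Prelude.Thm_ModularForm_sturm_bound_Gamma0

/-!
# S20 piece (A): basic API for `MF`, `CF`, `cj`, `trP`
-/

set_option autoImplicit false
set_option linter.unusedSectionVars false

namespace Fermat.Agent.S20

open UpperHalfPlane ModularForm CongruenceSubgroup SlashInvariantForm Module
open scoped MatrixGroups Manifold

section Basic

variable {Γ : Subgroup (GL (Fin 2) ℝ)} [Γ.HasDetOne] {a b w : ℤ} {f g : ℍ → ℂ}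

theorem MF_congr {w' : ℤ} (h : w = w') (hf : f ∈ MF Γ w) : f ∈ MF Γ w' := h ▸ hf
theorem CF_congr {w' : ℤ} (h : w = w') (hf : f ∈ CF Γ w) : f ∈ CF Γ w' := h ▸ hf

theorem MF_mul (hf : f ∈ MF Γ a) (hg : g ∈ MF Γ b) : f * g ∈ MF Γ (a + b) := by
  obtain ⟨F, rfl⟩ := hf
  obtain ⟨G, rfl⟩ := hg
  exact ⟨F.mul G, rfl⟩

theorem MF_one : (1 : ℍ → ℂ) ∈ MF Γ 0 := ⟨1, rfl⟩

theorem MF_pow (hf : f ∈ MF Γ a) (n : ℕ) : f ^ n ∈ MF Γ (n * a) := by
  induction n with
  | zero => simpa using (MF_one : (1 : ℍ → ℂ) ∈ MF Γ 0)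
  | succ n ih =>
    rw [pow_succ]
    exact MF_congr (by push_cast; ring) (MF_mul ih hf)

/-- A cusp form as a modular form. -/
noncomputable def basicCuspToMod (F : CuspForm Γ w) : ModularForm Γ w where
  toSlashInvariantForm := F.toSlashInvariantForm
  holo' := F.holo'
  bdd_at_cusps' hc γ hγ := (F.zero_at_cusps' hc γ hγ).boundedAtFilter

theorem CF_le_MF : CF Γ w ≤ MF Γ w := by
  rintro _ ⟨F, rfl⟩
  exact ⟨basicCuspToMod F, rfl⟩

theorem CF_mul_MF (hf : f ∈ CF Γ a) (hg : g ∈ MF Γ b) : f * g ∈ CF Γ (a + b) := by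
  obtain ⟨F, rfl⟩ := hf
  obtain ⟨G, rfl⟩ := hg
  exact ⟨F.mulModularForm G, rfl⟩

theorem mdiff_of_mem_MF (hf : f ∈ MF Γ w) : MDiff f := by
  obtain ⟨F, rfl⟩ := hf
  exact F.holo'

theorem mfCoe_injective : Function.Injective (mfCoe Γ w) := fun _ _ h => DFunLike.coe_injective h
theorem cfCoe_injective : Function.Injective (cfCoe Γ w) := fun _ _ h => DFunLike.coe_injective h

theorem finrank_MF_eq_finrank : finrank ℂ (MF Γ w) = finrank ℂ (ModularForm Γ w) :=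
  LinearMap.finrank_range_of_inj mfCoe_injective

theorem finrank_CF_eq_finrank : finrank ℂ (CF Γ w) = finrank ℂ (CuspForm Γ w) :=
  LinearMap.finrank_range_of_inj cfCoe_injective

end Basic

section BasicN

variable (N : ℕ) [NeZero N] {a b w : ℤ} {f g : ℍ → ℂ}

omit [NeZero N] in
theorem G0_le : G0 N ≤ 𝒮ℒ := by
  rintro _ ⟨γ, -, rfl⟩
  exact ⟨γ, rfl⟩

/-- Restriction of the level of a cusp form to a smaller subgroup. -/
noncomputable def basicCuspRestrict {Γ Γ' : Subgroup (GL (Fin 2) ℝ)} {k : ℤ} (h : Γ' ≤ Γ)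
    (f : CuspForm Γ k) : CuspForm Γ' k where
  toFun := f
  slash_action_eq' γ hγ := f.slash_action_eq' γ (h hγ)
  holo' := f.holo'
  zero_at_cusps' hc := f.zero_at_cusps' (hc.mono h)

theorem MF_levelOne_le : MF 𝒮ℒ w ≤ MF (G0 N) w := by
  rintro _ ⟨F, rfl⟩
  exact ⟨Fermat.Agent.S23.tN_restrict (G0_le N) F, rfl⟩

theorem CF_levelOne_le : CF 𝒮ℒ w ≤ CF (G0 N) w := by
  rintro _ ⟨F, rfl⟩
  exact ⟨basicCuspRestrict (G0_le N) F, rfl⟩

theorem MF_eq_bot_of_neg (hw : w < 0) : MF (G0 N) w = ⊥ := by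
  rw [eq_bot_iff]
  rintro _ ⟨F, rfl⟩
  rw [ModularForm.isZero_of_neg_weight hw F]
  exact Submodule.zero_mem _

omit [NeZero N] in
theorem neg_one_mem_Gamma0 : (-1 : SL(2, ℤ)) ∈ Gamma0 N := by
  rw [Gamma0_mem]
  simp

theorem MF_eq_bot_of_odd (hw : Odd w) : MF (G0 N) w = ⊥ := by
  rw [eq_bot_iff]
  rintro _ ⟨F, rfl⟩
  rw [Submodule.mem_bot]
  funext z
  have h1 := SlashInvariantForm.slash_action_eqn_SL'' F (neg_one_mem_Gamma0 N) z
  have h2 : ((-1 : SL(2, ℤ)) • z) = z := by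
    simp
  have h3 : denom (-1 : SL(2, ℤ)) z = -1 := by
    simp [denom]
  rw [h2, h3, hw.neg_one_zpow] at h1
  have : (2 : ℂ) * F z = 0 := by linear_combination h1
  show F z = 0
  simpa using this

theorem MF_zero_eq : MF (G0 N) 0 = ℂ ∙ (1 : ℍ → ℂ) := by
  apply le_antisymm
  · rintro _ ⟨F, rfl⟩
    obtain ⟨c, hc⟩ := ModularForm.eq_const_of_weight_zero F
    rw [Submodule.mem_span_singleton]
    refine ⟨c, ?_⟩
    show c • (1 : ℍ → ℂ) = ⇑F
    rw [hc]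
    funext z
    simp
  · rw [Submodule.span_singleton_le_iff_mem]
    exact MF_one

theorem finrank_MF_zero : finrank ℂ (MF (G0 N) 0) = 1 := by
  rw [MF_zero_eq]
  exact finrank_span_singleton (by
    intro h
    have := congrFun h I
    simp at this)

theorem CF_eq_bot_of_nonpos (hw : w ≤ 0) : CF (G0 N) w = ⊥ := by
  rcases lt_or_eq_of_le hw with h | rfl
  · rw [eq_bot_iff, ← MF_eq_bot_of_neg N h]
    exact CF_le_MF
  · rw [eq_bot_iff]
    rintro _ ⟨F, rfl⟩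
    rw [Submodule.mem_bot]
    obtain ⟨c, hc⟩ := ModularForm.eq_const_of_weight_zero (basicCuspToMod F)
    have hc' : (⇑F : ℍ → ℂ) = Function.const ℍ c := hc
    have h0 : IsZeroAtImInfty (⇑F : ℍ → ℂ) := CuspFormClass.zero_at_infty F
    rw [hc'] at h0
    have h1 : c = 0 := by
      have h2 : Filter.Tendsto (Function.const ℍ c) atImInfty (nhds 0) := h0
      have h3 : Filter.Tendsto (Function.const ℍ c) atImInfty (nhds c) := tendsto_const_nhds
      exact tendsto_nhds_unique h3 h2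
    show (⇑F : ℍ → ℂ) = 0
    rw [hc', h1]
    rfl

/-- The first coefficients of the `q`-expansion, as a linear map. -/
noncomputable def sturmMap (B : ℕ) : ModularForm (G0 N) w →ₗ[ℂ] (Fin (B + 1) → ℂ) where
  toFun F := fun n => (qExpansion 1 F).coeff n
  map_add' F G := by
    funext n
    have := (Fermat.Agent.S23.qnice_Gamma0 (N := N) F).qExpansion_add
      (Fermat.Agent.S23.qnice_Gamma0 (N := N) G)
    show (qExpansion 1 (⇑F + ⇑G)).coeff n = _
    rw [this]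
    simp
  map_smul' c F := by
    funext n
    have := (Fermat.Agent.S23.qnice_Gamma0 (N := N) F).qExpansion_smul c
    show (qExpansion 1 (c • ⇑F)).coeff n = _
    rw [this]
    simp

theorem sturmMap_injective :
    Function.Injective (sturmMap N (w := w) ((w * (Gamma0 N).index).toNat / 12)) := by
  rw [← LinearMap.ker_eq_bot, LinearMap.ker_eq_bot']
  intro F hF
  refine ModularForm.sturm_bound_Gamma0 N F fun n hn => ?_
  have := congrFun hF ⟨n, Nat.lt_succ_of_le hn⟩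
  exact this

instance finiteDimensional_modularForm : FiniteDimensional ℂ (ModularForm (G0 N) w) :=
  FiniteDimensional.of_injective _ (sturmMap_injective N)

instance finiteDimensional_MF : FiniteDimensional ℂ (MF (G0 N) w) :=
  Module.Finite.range (mfCoe (G0 N) w)

instance finiteDimensional_CF : FiniteDimensional ℂ (CF (G0 N) w) :=
  Submodule.finiteDimensional_of_le CF_le_MF

/-- Sturm bound as a dimension bound. -/
theorem finrank_MF_le :
    finrank ℂ (MF (G0 N) w) ≤ (w * (Gamma0 N).index).toNat / 12 + 1 := by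
  rw [finrank_MF_eq_finrank]
  have := LinearMap.finrank_le_finrank_of_injective (sturmMap_injective N (w := w))
  simpa using this

/-- Every element of `𝒮ℒ` comes from `SL(2, ℤ)`. -/
theorem exists_SL_eq (x : 𝒮ℒ) : ∃ γ : SL(2, ℤ), (x : GL (Fin 2) ℝ) = Matrix.SpecialLinearGroup.mapGL ℝ γ := by
  obtain ⟨x, ⟨γ, rfl⟩⟩ := x
  exact ⟨γ, rfl⟩

/-- The conjugate along `q` is the slash by an element of `SL(2, ℤ)`. -/
theorem exists_cj_eq (q : QQ N) : ∃ γ : SL(2, ℤ), ∀ (w : ℤ) (f : ℍ → ℂ), cj N w f q = f ∣[w] γ := by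
  obtain ⟨γ, hγ⟩ := exists_SL_eq (Quotient.out q)⁻¹
  refine ⟨γ, fun w f => ?_⟩
  unfold cj
  have : ((Quotient.out q : 𝒮ℒ) : GL (Fin 2) ℝ)⁻¹ = Matrix.SpecialLinearGroup.mapGL ℝ γ := by
    rw [← hγ]; rfl
  rw [this]
  rfl

theorem cj_eq_quotientFunc (g : ModularForm (G0 N) w) (q : QQ N) :
    cj N w ⇑g q = quotientFunc g q := by
  conv_rhs => rw [← Quotient.out_eq q]
  rfl

theorem cj_add (f g : ℍ → ℂ) (q : QQ N) : cj N w (f + g) q = cj N w f q + cj N w g q := by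
  unfold cj
  exact SlashAction.add_slash _ _ _ _

theorem cj_smul (c : ℂ) (f : ℍ → ℂ) (q : QQ N) : cj N w (c • f) q = c • cj N w f q := by
  obtain ⟨γ, hγ⟩ := exists_cj_eq N q
  rw [hγ, hγ]
  exact ModularForm.SL_smul_slash _ _ _ _

theorem cj_mul (f g : ℍ → ℂ) (q : QQ N) :
    cj N (a + b) (f * g) q = cj N a f q * cj N b g q := by
  obtain ⟨γ, hγ⟩ := exists_cj_eq N q
  rw [hγ, hγ, hγ]
  exact ModularForm.mul_slash_SL2 _ _ _ _ _

theorem cj_zero (q : QQ N) : cj N w (0 : ℍ → ℂ) q = 0 := by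
  unfold cj
  exact SlashAction.zero_slash _ _

theorem cj_sum {ι : Type*} (s : Finset ι) (F : ι → ℍ → ℂ) (q : QQ N) :
    cj N w (∑ i ∈ s, F i) q = ∑ i ∈ s, cj N w (F i) q := by
  unfold cj
  exact SlashAction.sum_slash _ _

theorem cj_levelOne (hf : f ∈ MF 𝒮ℒ w) (q : QQ N) : cj N w f q = f := by
  obtain ⟨F, rfl⟩ := hf
  exact F.slash_action_eq' _ (inv_mem (Quotient.out q).2)

theorem cj_slash (hf : f ∈ MF (G0 N) w) (γ : SL(2, ℤ)) (q : QQ N) :
    cj N w f q ∣[w] γ = cj N w f ((Fermat.Agent.S23.slMem γ)⁻¹ • q) := by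
  obtain ⟨F, rfl⟩ := hf
  show cj N w ⇑F q ∣[w] γ = cj N w ⇑F ((Fermat.Agent.S23.slMem γ)⁻¹ • q)
  rw [cj_eq_quotientFunc, cj_eq_quotientFunc]
  exact Fermat.Agent.S23.quotientFunc_slash_SL F q γ

theorem cj_mk (hf : f ∈ MF (G0 N) w) (x : 𝒮ℒ) :
    cj N w f (QuotientGroup.mk x) = f ∣[w] (x : GL (Fin 2) ℝ)⁻¹ := by
  obtain ⟨F, rfl⟩ := hf
  show cj N w ⇑F _ = _
  rw [cj_eq_quotientFunc]
  rfl

theorem cj_one (hf : f ∈ MF (G0 N) w) : cj N w f (QuotientGroup.mk 1) = f := by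
  rw [cj_mk N hf]
  simp

/-- Every `SL(2, ℤ)`-translate of a form is one of its conjugates. -/
theorem slash_eq_cj (hf : f ∈ MF (G0 N) w) (γ : SL(2, ℤ)) :
    f ∣[w] γ = cj N w f (QuotientGroup.mk (Fermat.Agent.S23.slMem γ)⁻¹) := by
  rw [cj_mk N hf]
  simp only [inv_inv, InvMemClass.coe_inv]
  rfl

theorem mdiff_cj (hf : f ∈ MF (G0 N) w) (q : QQ N) : MDiff (cj N w f q) := by
  obtain ⟨F, rfl⟩ := hf
  show MDiff (cj N w ⇑F q)
  rw [cj_eq_quotientFunc]
  exact Fermat.Agent.S23.mdiff_quotientFunc F q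

theorem isBoundedAtImInfty_cj (hf : f ∈ MF (G0 N) w) (q : QQ N) :
    IsBoundedAtImInfty (cj N w f q) := by
  obtain ⟨F, rfl⟩ := hf
  show IsBoundedAtImInfty (cj N w ⇑F q)
  rw [cj_eq_quotientFunc]
  exact Fermat.Agent.S23.isBoundedAtImInfty_quotientFunc F q

theorem trP_mem (hf : f ∈ MF (G0 N) w) : trP N w f ∈ MF 𝒮ℒ w := by
  obtain ⟨F, rfl⟩ := hf
  refine ⟨ModularForm.trace 𝒮ℒ F, ?_⟩
  show ⇑(ModularForm.trace 𝒮ℒ F) = trP N w ⇑F
  rw [ModularForm.coe_trace]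
  unfold trP
  refine Finset.sum_congr (by ext; simp) fun q _ => (cj_eq_quotientFunc N F q).symm

theorem trP_mem_CF (hf : f ∈ CF (G0 N) w) : trP N w f ∈ CF 𝒮ℒ w := by
  obtain ⟨F, rfl⟩ := hf
  refine ⟨CuspForm.trace 𝒮ℒ F, ?_⟩
  show ⇑(CuspForm.trace 𝒮ℒ F) = trP N w ⇑F
  rw [CuspForm.coe_trace]
  unfold trP
  refine Finset.sum_congr (by ext; simp) fun q _ => ?_
  exact (cj_eq_quotientFunc N (basicCuspToMod F) q).symm

/-- Membership can be checked on conjugates: a holomorphic `Γ₀(N)`-invariant function all of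
whose `SL(2, ℤ)`-translates are bounded at infinity is a modular form. -/
theorem mem_MF_of_slash (hf : MDiff f)
    (hinv : ∀ γ : SL(2, ℤ), γ ∈ Gamma0 N → f ∣[w] γ = f)
    (hbdd : ∀ γ : SL(2, ℤ), IsBoundedAtImInfty (f ∣[w] γ)) : f ∈ MF (G0 N) w := by
  refine ⟨{ toFun := f, slash_action_eq' := ?_, holo' := hf, bdd_at_cusps' := ?_ }, rfl⟩
  · rintro _ ⟨γ, hγ, rfl⟩
    exact hinv γ hγ
  · intro c hc
    rw [Subgroup.IsArithmetic.isCusp_iff_isCusp_SL2Z] at hc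
    rw [OnePoint.isBoundedAt_iff_forall_SL2Z hc]
    intro γ _
    exact hbdd γ

theorem mem_CF_of_slash (hf : MDiff f)
    (hinv : ∀ γ : SL(2, ℤ), γ ∈ Gamma0 N → f ∣[w] γ = f)
    (hbdd : ∀ γ : SL(2, ℤ), IsZeroAtImInfty (f ∣[w] γ)) : f ∈ CF (G0 N) w := by
  refine ⟨{ toFun := f, slash_action_eq' := ?_, holo' := hf, zero_at_cusps' := ?_ }, rfl⟩
  · rintro _ ⟨γ, hγ, rfl⟩
    exact hinv γ hγ
  · intro c hc
    rw [Subgroup.IsArithmetic.isCusp_iff_isCusp_SL2Z] at hc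
    rw [OnePoint.isZeroAt_iff_forall_SL2Z hc]
    intro γ _
    exact hbdd γ

theorem mem_CF_iff_cj (hf : f ∈ MF (G0 N) w) :
    f ∈ CF (G0 N) w ↔ ∀ q : QQ N, IsZeroAtImInfty (cj N w f q) := by
  constructor
  · rintro ⟨F, rfl⟩ q
    have h1 : cj N w ⇑F q = quotientFunc F q := cj_eq_quotientFunc N (basicCuspToMod F) q
    show IsZeroAtImInfty (cj N w ⇑F q)
    rw [h1]
    exact Fermat.Agent.S23.isZeroAtImInfty_quotientFunc F q
  · intro h
    have hf' := hf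
    obtain ⟨F, rfl⟩ := hf
    refine mem_CF_of_slash N F.holo' (fun γ hγ => ?_) (fun γ => ?_)
    · exact F.slash_action_eq' _ ⟨γ, hγ, rfl⟩
    · rw [slash_eq_cj N hf' γ]
      exact h _

end BasicN

end Fermat.Agent.S20
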