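import Fermat.Agent.S20.Basic
import Fermat.Agent.S24.JOrder
import Fermat.Agent.S28.LevelOnePoly

/-!
# S20 piece (B): the graded ring of level one forms
-/

set_option autoImplicit false

namespace Fermat.Agent.S20

open UpperHalfPlane ModularForm CongruenceSubgroup SlashInvariantForm Module
open scoped MatrixGroups Manifold

theorem finrank_MF_levelOne (v : ℤ) : finrank ℂ (MF 𝒮ℒ v) = loDim v := by
  rw [finrank_MF_eq_finrank]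
  unfold loDim
  by_cases h : v < 0 ∨ Odd v
  · rw [if_pos h]
    rcases h with h | h
    · exact Module.finrank_eq_zero_of_rank_eq_zero (ModularForm.levelOne_neg_weight_rank_zero h)
    · exact Module.finrank_eq_zero_of_rank_eq_zero (ModularForm.levelOne_odd_weight_rank_zero h)
  · rw [if_neg h]
    push Not at h
    obtain ⟨h0, he⟩ := h
    obtain ⟨n, rfl⟩ : ∃ n : ℕ, v = (n : ℤ) := ⟨v.toNat, (Int.toNat_of_nonneg h0).symm⟩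
    have hn : Even n := by
      rcases Nat.even_or_odd n with hn | hn
      · exact hn
      · exact absurd (by exact_mod_cast hn : Odd (n : ℤ)) he
    have hdim := ModularForm.dimension_level_one n hn
    have hfin : finrank ℂ (ModularForm 𝒮ℒ (n : ℤ)) =
        if n ≡ 2 [MOD 12] then n / 12 else n / 12 + 1 := by
      unfold Module.finrank
      rw [hdim]
      exact Cardinal.toNat_natCast _
    rw [hfin]
    have hiff : (n ≡ 2 [MOD 12]) ↔ ((n : ℤ) % 12 = 2) := by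
      unfold Nat.ModEq
      omega
    by_cases h2 : n ≡ 2 [MOD 12]
    · rw [if_pos h2, if_pos (hiff.mp h2)]
      omega
    · rw [if_neg h2, if_neg (fun h' => h2 (hiff.mpr h'))]
      omega

theorem E4_mem : ⇑E₄ ∈ MF 𝒮ℒ 4 := ⟨E₄, rfl⟩
theorem E6_mem : ⇑E₆ ∈ MF 𝒮ℒ 6 := ⟨E₆, rfl⟩
theorem discriminant_mem_CF : ModularForm.discriminant ∈ CF 𝒮ℒ 12 :=
  ⟨CuspForm.discriminant, CuspForm.coe_discriminant⟩

theorem E4_E6_no_common_zero (z : ℍ) : E₄ z ≠ 0 ∨ E₆ z ≠ 0 := by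
  by_contra h
  push Not at h
  have h1 := ModularForm.discriminant_eq_E₄_cube_sub_E₆_sq z
  rw [h.1, h.2] at h1
  exact ModularForm.discriminant_ne_zero z (by rw [h1]; norm_num)

/-- Level one cusp forms are the multiples of `Δ`. -/
theorem lo_cusp {w : ℤ} {g : ℍ → ℂ} (hg : g ∈ CF 𝒮ℒ w) :
    ∃ g' ∈ MF 𝒮ℒ (w - 12), g = ModularForm.discriminant * g' := by
  obtain ⟨f, rfl⟩ := hg
  exact ⟨⇑(CuspForm.discriminantEquiv f), ⟨CuspForm.discriminantEquiv f, rfl⟩,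
    (ModularForm.discriminant_mul_discriminantEquiv f).symm⟩

/-! ### Limits at infinity -/

open Filter Topology in
theorem lo_tendsto {w : ℤ} {g : ℍ → ℂ} (hg : g ∈ MF 𝒮ℒ w) :
    ∃ c : ℂ, Tendsto g atImInfty (𝓝 c) := by
  obtain ⟨f, rfl⟩ := hg
  exact ⟨_, Fermat.Agent.S28.lop_tendsto f⟩

open Filter Topology in
theorem lo_mem_CF_of_tendsto {w : ℤ} {g : ℍ → ℂ} (hg : g ∈ MF 𝒮ℒ w)
    (h0 : Tendsto g atImInfty (𝓝 0)) : g ∈ CF 𝒮ℒ w := by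
  obtain ⟨f, rfl⟩ := hg
  exact ⟨Fermat.Agent.S28.lop_mkCF w f f.holo' (Fermat.Agent.S28.lop_WtInv.of_modularForm f) h0,
    rfl⟩

open Filter Topology in
theorem lo_E4_tendsto : Tendsto (⇑E₄) atImInfty (𝓝 1) := Fermat.Agent.S28.lop_E4_tendsto

open Filter Topology in
theorem lo_E6_tendsto : Tendsto (⇑E₆) atImInfty (𝓝 1) := by
  have h0 : cuspFunction 1 E₆ 0 = 1 := by
    have := EisensteinSeries.E_qExpansion_coeff_zero (k := 6) (by norm_num) ⟨3, rfl⟩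
    simpa [qExpansion_coeff] using this
  have h := Fermat.Agent.S28.lop_tendsto E₆
  rwa [h0] at h

theorem lo_eq_zero_of_neg {w : ℤ} (hw : w < 0) {g : ℍ → ℂ} (hg : g ∈ MF 𝒮ℒ w) : g = 0 := by
  obtain ⟨f, rfl⟩ := hg
  exact ModularFormClass.levelOne_neg_weight_eq_zero hw f

theorem lo_eq_zero_of_odd {w : ℤ} (hw : Odd w) {g : ℍ → ℂ} (hg : g ∈ MF 𝒮ℒ w) : g = 0 := by
  obtain ⟨f, rfl⟩ := hg
  rw [ModularForm.levelOne_odd_weight_eq_zero hw f]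
  rfl

theorem lo_eq_zero_of_two {g : ℍ → ℂ} (hg : g ∈ MF 𝒮ℒ 2) : g = 0 := by
  obtain ⟨f, rfl⟩ := hg
  have h := rank_zero_iff_forall_zero.mp ModularForm.levelOne_weight_two_rank_zero f
  rw [h]
  rfl

theorem lo_const_of_zero {g : ℍ → ℂ} (hg : g ∈ MF 𝒮ℒ 0) : ∃ c : ℂ, g = c • (1 : ℍ → ℂ) := by
  obtain ⟨f, rfl⟩ := hg
  obtain ⟨c, hc⟩ := ModularFormClass.levelOne_weight_zero_const f
  refine ⟨c, ?_⟩
  change ⇑f = c • (1 : ℍ → ℂ)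
  rw [hc]
  ext z
  simp

open Filter Topology in
/-- A monomial in `E₄`, `E₆` of every even weight `≥ 4`, in the ideal `(E₄, E₆)`, with value `1`
at infinity. -/
theorem lo_exists_monomial (w : ℤ) (hw : 4 ≤ w) (he : Even w) :
    ∃ a₀ b₀ : ℍ → ℂ, a₀ ∈ MF 𝒮ℒ (w - 4) ∧ b₀ ∈ MF 𝒮ℒ (w - 6) ∧
      Tendsto (⇑E₄ * a₀ + ⇑E₆ * b₀) atImInfty (𝓝 1) := by
  obtain ⟨t, ht⟩ := he
  rcases Int.even_or_odd t with ⟨s, hs⟩ | ⟨s, hs⟩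
  · -- w = 4 s, s ≥ 1
    obtain ⟨n, hn⟩ : ∃ n : ℕ, s = (n : ℤ) + 1 := ⟨(s - 1).toNat, by omega⟩
    refine ⟨(⇑E₄) ^ n, 0, MF_congr (by omega) (MF_pow E4_mem n), zero_mem _, ?_⟩
    have h1 : Tendsto ((⇑E₄ : ℍ → ℂ) * (⇑E₄) ^ n + ⇑E₆ * 0) atImInfty (𝓝 (1 * 1 ^ n + 1 * 0)) :=
      (lo_E4_tendsto.mul (lo_E4_tendsto.pow n)).add (lo_E6_tendsto.mul tendsto_const_nhds)
    simpa using h1
  · -- w = 4 s + 2, s ≥ 1
    obtain ⟨n, hn⟩ : ∃ n : ℕ, s = (n : ℤ) + 1 := ⟨(s - 1).toNat, by omega⟩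
    refine ⟨0, (⇑E₄) ^ n, zero_mem _, MF_congr (by omega) (MF_pow E4_mem n), ?_⟩
    have h1 : Tendsto ((⇑E₄ : ℍ → ℂ) * 0 + ⇑E₆ * (⇑E₄) ^ n) atImInfty (𝓝 (1 * 0 + 1 * 1 ^ n)) :=
      (lo_E4_tendsto.mul tendsto_const_nhds).add (lo_E6_tendsto.mul (lo_E4_tendsto.pow n))
    simpa using h1

theorem lo_discriminant_eq :
    (ModularForm.discriminant : ℍ → ℂ) =
      (1 / 1728 : ℂ) • ((⇑E₄) ^ 3 - (⇑E₆) ^ 2) := by
  ext z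
  rw [ModularForm.discriminant_eq_E₄_cube_sub_E₆_sq z]
  simp only [Pi.smul_apply, Pi.sub_apply, Pi.pow_apply, smul_eq_mul]
  ring

open Filter Topology in
/-- Level one forms of nonzero weight lie in the ideal generated by `E₄` and `E₆`. -/
theorem lo_generate (w : ℤ) (hw : w ≠ 0) {g : ℍ → ℂ} (hg : g ∈ MF 𝒮ℒ w) :
    ∃ a b : ℍ → ℂ, a ∈ MF 𝒮ℒ (w - 4) ∧ b ∈ MF 𝒮ℒ (w - 6) ∧ g = ⇑E₄ * a + ⇑E₆ * b := by
  by_cases hneg : w < 0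
  · exact ⟨0, 0, zero_mem _, zero_mem _, by rw [lo_eq_zero_of_neg hneg hg]; simp⟩
  by_cases hodd : Odd w
  · exact ⟨0, 0, zero_mem _, zero_mem _, by rw [lo_eq_zero_of_odd hodd hg]; simp⟩
  by_cases h2 : w = 2
  · subst h2
    exact ⟨0, 0, zero_mem _, zero_mem _, by rw [lo_eq_zero_of_two hg]; simp⟩
  have he : Even w := Int.not_odd_iff_even.mp hodd
  have hw4 : 4 ≤ w := by
    obtain ⟨t, ht⟩ := he
    omega
  obtain ⟨a₀, b₀, ha₀, hb₀, hN⟩ := lo_exists_monomial w hw4 he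
  obtain ⟨c, hc⟩ := lo_tendsto hg
  have hNmem : (⇑E₄ * a₀ + ⇑E₆ * b₀ : ℍ → ℂ) ∈ MF 𝒮ℒ w :=
    add_mem (MF_congr (by ring) (MF_mul E4_mem ha₀)) (MF_congr (by ring) (MF_mul E6_mem hb₀))
  have hdiff : g - c • (⇑E₄ * a₀ + ⇑E₆ * b₀) ∈ CF 𝒮ℒ w := by
    apply lo_mem_CF_of_tendsto (sub_mem hg (Submodule.smul_mem _ c hNmem))
    have h1 : Tendsto (g - c • (⇑E₄ * a₀ + ⇑E₆ * b₀)) atImInfty (𝓝 (c - c • 1)) :=
      hc.sub (hN.const_smul c)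
    simpa using h1
  obtain ⟨g', hg', hgg'⟩ := lo_cusp hdiff
  have hE42 : ((⇑E₄ : ℍ → ℂ) ^ 2 * g') ∈ MF 𝒮ℒ (w - 4) :=
    MF_congr (by push_cast; ring) (MF_mul (MF_pow E4_mem 2) hg')
  have hE6 : ((⇑E₆ : ℍ → ℂ) * g') ∈ MF 𝒮ℒ (w - 6) :=
    MF_congr (by ring) (MF_mul E6_mem hg')
  refine ⟨c • a₀ + (1 / 1728 : ℂ) • ((⇑E₄ : ℍ → ℂ) ^ 2 * g'),
    c • b₀ - (1 / 1728 : ℂ) • ((⇑E₆ : ℍ → ℂ) * g'),
    add_mem (Submodule.smul_mem _ c ha₀) (Submodule.smul_mem _ _ hE42),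
    sub_mem (Submodule.smul_mem _ c hb₀) (Submodule.smul_mem _ _ hE6), ?_⟩
  have hg_eq : g = c • (⇑E₄ * a₀ + ⇑E₆ * b₀) + ModularForm.discriminant * g' := by
    rw [← hgg']
    abel
  rw [hg_eq, lo_discriminant_eq]
  ext z
  simp only [Pi.add_apply, Pi.smul_apply, Pi.mul_apply, Pi.sub_apply, Pi.pow_apply, smul_eq_mul]
  ring

/-! ### Forms without zeros -/

open Filter Topology in
theorem lo_nonvanishing_aux (n : ℕ) : ∀ (w : ℤ), w.toNat = n → ∀ {g : ℍ → ℂ},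
    g ∈ MF 𝒮ℒ w → (∀ z, g z ≠ 0) →
    ∃ (c : ℂ) (e : ℕ), c ≠ 0 ∧ w = 12 * e ∧ g = c • (ModularForm.discriminant) ^ e := by
  induction n using Nat.strong_induction_on with
  | _ n ih =>
  intro w hwn g hg h0
  have hw0 : 0 ≤ w := by
    by_contra hneg
    push Not at hneg
    have := lo_eq_zero_of_neg hneg hg
    exact h0 UpperHalfPlane.I (by rw [this]; rfl)
  obtain ⟨c₀, hc₀⟩ := lo_tendsto hg
  by_cases hc0 : c₀ = 0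
  · subst hc0
    obtain ⟨g', hg', hgg'⟩ := lo_cusp (lo_mem_CF_of_tendsto hg hc₀)
    have h0' : ∀ z, g' z ≠ 0 := by
      intro z hz
      apply h0 z
      rw [hgg']
      simp [hz]
    have hw12 : 0 ≤ w - 12 := by
      by_contra hneg
      push Not at hneg
      have := lo_eq_zero_of_neg hneg hg'
      exact h0' UpperHalfPlane.I (by rw [this]; rfl)
    obtain ⟨c, e, hc, hwe, hge⟩ := ih (w - 12).toNat (by omega) (w - 12) rfl hg' h0'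
    refine ⟨c, e + 1, hc, by push_cast; omega, ?_⟩
    rw [hgg', hge]
    ext z
    simp only [Pi.mul_apply, Pi.smul_apply, Pi.pow_apply, smul_eq_mul]
    ring
  · have hw : w = 0 := by
      by_contra hne
      have hpos : 0 < w := lt_of_le_of_ne hw0 (Ne.symm hne)
      obtain ⟨f, rfl⟩ := hg
      have hinv : Fermat.Agent.S28.lop_WtInv (0 - w) ((1 : ℍ → ℂ) / ⇑f) :=
        Fermat.Agent.S28.lop_WtInv.one.div (Fermat.Agent.S28.lop_WtInv.of_modularForm f)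
      have hmd' : MDiff ((1 : ℍ → ℂ) / ⇑f) :=
        (mdifferentiable_const : MDiff (fun _ : ℍ => (1 : ℂ))).div f.holo' h0
      have hbd : IsBoundedAtImInfty ((1 : ℍ → ℂ) / ⇑f) := by
        have : Tendsto ((1 : ℍ → ℂ) / ⇑f) atImInfty (𝓝 (1 / c₀)) :=
          tendsto_const_nhds.div hc₀ hc0
        exact this.isBigO_one ℝ
      have hz := ModularFormClass.levelOne_neg_weight_eq_zero (by omega : 0 - w < 0)
        (Fermat.Agent.S28.lop_mkMF (0 - w) _ hmd' hinv hbd)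
      have h1 : ((1 : ℍ → ℂ) / ⇑f) UpperHalfPlane.I = 0 := congrFun hz UpperHalfPlane.I
      simp only [Pi.div_apply, Pi.one_apply, one_div, inv_eq_zero] at h1
      exact h0 _ h1
    subst hw
    obtain ⟨c, hc⟩ := lo_const_of_zero hg
    refine ⟨c, 0, ?_, by simp, by simpa using hc⟩
    rintro rfl
    exact h0 UpperHalfPlane.I (by rw [hc]; simp)

/-- A level one form without zeros in `ℍ` is a constant multiple of a power of `Δ`. -/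
theorem lo_nonvanishing (w : ℤ) {g : ℍ → ℂ} (hg : g ∈ MF 𝒮ℒ w) (h0 : ∀ z, g z ≠ 0) :
    ∃ (c : ℂ) (e : ℕ), c ≠ 0 ∧ w = 12 * e ∧ g = c • (ModularForm.discriminant) ^ e :=
  lo_nonvanishing_aux _ w rfl hg h0

/-! ### Local structure at a point -/

/-- Reduction modulo `A`: every level one form is `c • B ^ i` modulo `A`. -/
theorem lo_red (A B : ℍ → ℂ) (α β : ℤ) (hβ : 0 < β)
    (hB : B ∈ MF 𝒮ℒ β)
    (hgen : ∀ (w : ℤ), w ≠ 0 → ∀ g ∈ MF 𝒮ℒ w, ∃ a b : ℍ → ℂ,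
      a ∈ MF 𝒮ℒ (w - α) ∧ b ∈ MF 𝒮ℒ (w - β) ∧ g = A * a + B * b)
    (n : ℕ) : ∀ (w : ℤ), w.toNat = n → ∀ g ∈ MF 𝒮ℒ w, ∃ (c : ℂ) (i : ℕ) (g' : ℍ → ℂ),
      g' ∈ MF 𝒮ℒ (w - α) ∧ (c = 0 ∨ (i : ℤ) * β = w) ∧ g = c • B ^ i + A * g' := by
  induction n using Nat.strong_induction_on with
  | _ n ih =>
  intro w hwn g hg
  by_cases hneg : w < 0
  · exact ⟨0, 0, 0, zero_mem _, Or.inl rfl, by rw [lo_eq_zero_of_neg hneg hg]; simp⟩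
  by_cases hw : w = 0
  · subst hw
    obtain ⟨c, hc⟩ := lo_const_of_zero hg
    exact ⟨c, 0, 0, zero_mem _, Or.inr (by simp), by rw [hc]; simp⟩
  obtain ⟨a, b, ha, hb, hgab⟩ := hgen w hw g hg
  obtain ⟨c, i, b', hb', hci, hbb'⟩ := ih (w - β).toNat (by omega) (w - β) rfl b hb
  refine ⟨c, i + 1, a + B * b', add_mem ha (MF_congr (by ring) (MF_mul hB hb')), ?_, ?_⟩
  · rcases hci with h | h
    · exact Or.inl h
    · right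
      push_cast
      linarith
  · rw [hgab, hbb']
    ext z
    simp only [Pi.add_apply, Pi.mul_apply, Pi.smul_apply, Pi.pow_apply, smul_eq_mul]
    ring

open Filter Topology in
theorem lo_not_isZeroAtImInfty {P : ℍ → ℂ} {L : ℂ} (hP : Tendsto P atImInfty (𝓝 L))
    (hL : L ≠ 0) : ¬ IsZeroAtImInfty P := fun h => hL (tendsto_nhds_unique hP h)

/-- The local structure statement when one of the two generators vanishes at `z₀`. -/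
theorem lo_local_of_red (z₀ : ℍ) (A B : ℍ → ℂ) (α β : ℤ) (hβ : 0 < β)
    (hA : A ∈ MF 𝒮ℒ α) (hB : B ∈ MF 𝒮ℒ β)
    (hgen : ∀ (w : ℤ), w ≠ 0 → ∀ g ∈ MF 𝒮ℒ w, ∃ a b : ℍ → ℂ,
      a ∈ MF 𝒮ℒ (w - α) ∧ b ∈ MF 𝒮ℒ (w - β) ∧ g = A * a + B * b)
    (hAz : A z₀ = 0) (hBz : B z₀ ≠ 0) (hAinf : ¬ IsZeroAtImInfty A)
    (hsimple : ∀ z : ℍ, A z = 0 → deriv (A ∘ ofComplex) z ≠ 0) :
    ∃ (m a : ℤ) (P : ℍ → ℂ), 0 < m ∧ P ∈ MF 𝒮ℒ a ∧ P z₀ = 0 ∧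
    ¬ IsZeroAtImInfty P ∧
    (∀ z : ℍ, P z = 0 → deriv (P ∘ ofComplex) z ≠ 0) ∧
    (∀ (w : ℤ) (g : ℍ → ℂ), g ∈ MF 𝒮ℒ w → g z₀ = 0 → ∃ g' ∈ MF 𝒮ℒ (w - a), g = P * g') ∧
    (∀ (w : ℤ) (g : ℍ → ℂ), g ∈ MF 𝒮ℒ w → ¬ m ∣ w → g z₀ = 0) ∧
    (∃ w₀ : ℤ, ∀ w : ℤ, w₀ ≤ w → m ∣ w → ∃ g ∈ MF 𝒮ℒ w, g z₀ = 1) := by
  refine ⟨β, α, A, hβ, hA, hAz, hAinf, hsimple, ?_, ?_, ?_⟩
  · intro w g hg hgz
    obtain ⟨c, i, g', hg', hci, hgg'⟩ := lo_red A B α β hβ hB hgen _ w rfl g hg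
    have hc : c = 0 := by
      have h1 := congrFun hgg' z₀
      simp only [Pi.add_apply, Pi.smul_apply, Pi.pow_apply, Pi.mul_apply, smul_eq_mul, hAz,
        zero_mul, add_zero] at h1
      rw [hgz] at h1
      rcases mul_eq_zero.mp h1.symm with h | h
      · exact h
      · exact absurd h (pow_ne_zero i hBz)
    refine ⟨g', hg', ?_⟩
    rw [hgg', hc]
    simp
  · intro w g hg hm
    obtain ⟨c, i, g', hg', hci, hgg'⟩ := lo_red A B α β hβ hB hgen _ w rfl g hg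
    have hc : c = 0 := by
      rcases hci with h | h
      · exact h
      · exact absurd ⟨i, by rw [← h]; ring⟩ hm
    rw [hgg', hc]
    simp [hAz]
  · refine ⟨0, fun w hw hm => ?_⟩
    obtain ⟨k, hk⟩ := hm
    have hk0 : 0 ≤ k := by nlinarith
    obtain ⟨n, rfl⟩ : ∃ n : ℕ, k = n := ⟨k.toNat, (Int.toNat_of_nonneg hk0).symm⟩
    refine ⟨(B z₀ ^ n)⁻¹ • B ^ n,
      Submodule.smul_mem _ _ (MF_congr (by rw [hk]; ring) (MF_pow hB n)), ?_⟩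
    simp [hBz]

/-- Combining two normal forms of the same weight. -/
theorem lo_combine (w : ℤ) (c₁ c₂ : ℂ) (i₁ ε₁ i₂ ε₂ : ℕ) (h1 : ε₁ ≤ 1) (h2 : ε₂ ≤ 1)
    (hc1 : c₁ = 0 ∨ (4 : ℤ) * i₁ + 6 * ε₁ = w) (hc2 : c₂ = 0 ∨ (4 : ℤ) * i₂ + 6 * ε₂ = w) :
    ∃ (c : ℂ) (i ε : ℕ), ε ≤ 1 ∧ (c = 0 ∨ (4 : ℤ) * i + 6 * ε = w) ∧
      c₁ • ((⇑E₄ : ℍ → ℂ) ^ i₁ * (⇑E₆) ^ ε₁) + c₂ • ((⇑E₄ : ℍ → ℂ) ^ i₂ * (⇑E₆) ^ ε₂) =
        c • ((⇑E₄ : ℍ → ℂ) ^ i * (⇑E₆) ^ ε) := by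
  by_cases hz1 : c₁ = 0
  · exact ⟨c₂, i₂, ε₂, h2, hc2, by rw [hz1]; simp⟩
  by_cases hz2 : c₂ = 0
  · exact ⟨c₁, i₁, ε₁, h1, hc1, by rw [hz2]; simp⟩
  have e1 := hc1.resolve_left hz1
  have e2 := hc2.resolve_left hz2
  obtain rfl : ε₁ = ε₂ := by omega
  obtain rfl : i₁ = i₂ := by omega
  exact ⟨c₁ + c₂, i₁, ε₁, h1, Or.inr e1, (add_smul _ _ _).symm⟩

/-- Reduction modulo `P = x₀³ E₆² - y₀² E₄³`: every level one form is a multiple of a monomial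
`E₄ ^ i * E₆ ^ ε` with `ε ≤ 1` modulo `P`. -/
theorem lo_red_gen (x₀ y₀ : ℂ) (hx : x₀ ≠ 0) (n : ℕ) :
    ∀ (w : ℤ), w.toNat = n → ∀ g ∈ MF 𝒮ℒ w, ∃ (c : ℂ) (i ε : ℕ) (g' : ℍ → ℂ),
      g' ∈ MF 𝒮ℒ (w - 12) ∧ ε ≤ 1 ∧ (c = 0 ∨ (4 : ℤ) * i + 6 * ε = w) ∧
      g = c • ((⇑E₄ : ℍ → ℂ) ^ i * (⇑E₆) ^ ε) +
        (x₀ ^ 3 • (⇑E₆ : ℍ → ℂ) ^ 2 - y₀ ^ 2 • (⇑E₄ : ℍ → ℂ) ^ 3) * g' := by
  induction n using Nat.strong_induction_on with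
  | _ n ih =>
  intro w hwn g hg
  by_cases hneg : w < 0
  · exact ⟨0, 0, 0, 0, zero_mem _, le_of_lt one_pos, Or.inl rfl,
      by rw [lo_eq_zero_of_neg hneg hg]; simp⟩
  by_cases hw : w = 0
  · subst hw
    obtain ⟨c, hc⟩ := lo_const_of_zero hg
    exact ⟨c, 0, 0, 0, zero_mem _, le_of_lt one_pos, Or.inr (by simp), by rw [hc]; simp⟩
  obtain ⟨a, b, ha, hb, hgab⟩ := lo_generate w hw hg
  obtain ⟨c₁, i₁, ε₁, a', ha', hε₁, hc₁, haa'⟩ := ih (w - 4).toNat (by omega) (w - 4) rfl a ha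
  obtain ⟨c₂, i₂, ε₂, b', hb', hε₂, hc₂, hbb'⟩ := ih (w - 6).toNat (by omega) (w - 6) rfl b hb
  -- the second term in normal form
  obtain ⟨d₂, k₂, δ₂, t₂, ht₂, hδ₂, hd₂, hterm₂⟩ : ∃ (d₂ : ℂ) (k₂ δ₂ : ℕ) (t₂ : ℍ → ℂ),
      t₂ ∈ MF 𝒮ℒ (w - 12) ∧ δ₂ ≤ 1 ∧ (d₂ = 0 ∨ (4 : ℤ) * k₂ + 6 * δ₂ = w) ∧
      (⇑E₆ : ℍ → ℂ) * (c₂ • ((⇑E₄ : ℍ → ℂ) ^ i₂ * (⇑E₆) ^ ε₂)) =
        d₂ • ((⇑E₄ : ℍ → ℂ) ^ k₂ * (⇑E₆) ^ δ₂) +
          (x₀ ^ 3 • (⇑E₆ : ℍ → ℂ) ^ 2 - y₀ ^ 2 • (⇑E₄ : ℍ → ℂ) ^ 3) * t₂ := by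
    by_cases hz2 : c₂ = 0
    · exact ⟨0, 0, 0, 0, zero_mem _, le_of_lt one_pos, Or.inl rfl, by rw [hz2]; simp⟩
    have e2 := hc₂.resolve_left hz2
    have hε : ε₂ = 0 ∨ ε₂ = 1 := by omega
    rcases hε with rfl | rfl
    · refine ⟨c₂, i₂, 1, 0, zero_mem _, le_refl _, Or.inr (by push_cast at e2 ⊢; omega), ?_⟩
      ext z
      simp only [Pi.add_apply, Pi.mul_apply, Pi.smul_apply, Pi.pow_apply, smul_eq_mul,
        Pi.zero_apply, Pi.sub_apply]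
      ring
    · refine ⟨c₂ * y₀ ^ 2 / x₀ ^ 3, i₂ + 3, 0, (c₂ / x₀ ^ 3) • (⇑E₄ : ℍ → ℂ) ^ i₂,
        Submodule.smul_mem _ _ (MF_congr (by push_cast at e2 ⊢; omega) (MF_pow E4_mem i₂)),
        Nat.zero_le _, Or.inr (by push_cast at e2 ⊢; omega), ?_⟩
      ext z
      simp only [Pi.add_apply, Pi.mul_apply, Pi.smul_apply, Pi.pow_apply, smul_eq_mul,
        Pi.sub_apply]
      field_simp
      ring
  obtain ⟨c, i, ε, hε, hc, hcomb⟩ := lo_combine w c₁ d₂ (i₁ + 1) ε₁ k₂ δ₂ hε₁ hδ₂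
    (by
      rcases hc₁ with h | h
      · exact Or.inl h
      · right
        push_cast
        omega) hd₂
  refine ⟨c, i, ε, ⇑E₄ * a' + t₂ + ⇑E₆ * b',
    add_mem (add_mem (MF_congr (by ring) (MF_mul E4_mem ha')) ht₂)
      (MF_congr (by ring) (MF_mul E6_mem hb')), hε, hc, ?_⟩
  rw [← hcomb, hgab, haa', hbb']
  have key : (⇑E₆ : ℍ → ℂ) * (c₂ • ((⇑E₄ : ℍ → ℂ) ^ i₂ * (⇑E₆) ^ ε₂) +
      (x₀ ^ 3 • (⇑E₆ : ℍ → ℂ) ^ 2 - y₀ ^ 2 • (⇑E₄ : ℍ → ℂ) ^ 3) * b') =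
      d₂ • ((⇑E₄ : ℍ → ℂ) ^ k₂ * (⇑E₆) ^ δ₂) +
          (x₀ ^ 3 • (⇑E₆ : ℍ → ℂ) ^ 2 - y₀ ^ 2 • (⇑E₄ : ℍ → ℂ) ^ 3) * t₂ +
      (x₀ ^ 3 • (⇑E₆ : ℍ → ℂ) ^ 2 - y₀ ^ 2 • (⇑E₄ : ℍ → ℂ) ^ 3) * (⇑E₆ * b') := by
    rw [mul_add, hterm₂]
    ring
  rw [key]
  ext z
  simp only [Pi.add_apply, Pi.mul_apply, Pi.smul_apply, Pi.pow_apply, smul_eq_mul, Pi.sub_apply]
  ring

open Derivative in
/-- The zeros of `x₀³ E₆² - y₀² E₄³` are simple (for `y₀ ≠ 0`). -/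
theorem lo_P_simple (x₀ y₀ : ℂ) (hx : x₀ ≠ 0) (hy : y₀ ≠ 0) (z : ℍ)
    (hPz : (x₀ ^ 3 • (⇑E₆ : ℍ → ℂ) ^ 2 - y₀ ^ 2 • (⇑E₄ : ℍ → ℂ) ^ 3) z = 0) :
    deriv ((x₀ ^ 3 • (⇑E₆ : ℍ → ℂ) ^ 2 - y₀ ^ 2 • (⇑E₄ : ℍ → ℂ) ^ 3) ∘ ofComplex) z ≠ 0 := by
  have h4 : MDiff (⇑E₄ : ℍ → ℂ) := E₄.holo'
  have h6 : MDiff (⇑E₆ : ℍ → ℂ) := E₆.holo'
  have h43 : MDiff ((⇑E₄ : ℍ → ℂ) ^ 3) := mdiff_of_mem_MF (MF_pow E4_mem 3)
  have h62 : MDiff ((⇑E₆ : ℍ → ℂ) ^ 2) := mdiff_of_mem_MF (MF_pow E6_mem 2)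
  have hD : D (x₀ ^ 3 • (⇑E₆ : ℍ → ℂ) ^ 2 - y₀ ^ 2 • (⇑E₄ : ℍ → ℂ) ^ 3) z =
      x₀ ^ 3 * (2 * E₆ z * D (⇑E₆ : ℍ → ℂ) z) - y₀ ^ 2 * (3 * E₄ z ^ 2 * D (⇑E₄ : ℍ → ℂ) z) := by
    rw [normalizedDerivOfComplex_sub _ _ (h62.const_smul _) (h43.const_smul _),
      normalizedDerivOfComplex_smul _ _ h62, normalizedDerivOfComplex_smul _ _ h43,
      normalizedDerivOfComplex_pow _ _ h6, normalizedDerivOfComplex_pow _ _ h4]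
    simp only [Pi.sub_apply, Pi.smul_apply, Pi.mul_apply, Pi.pow_apply, smul_eq_mul,
      Pi.natCast_apply]
    norm_num
  simp only [Pi.sub_apply, Pi.smul_apply, Pi.pow_apply, smul_eq_mul] at hPz
  obtain ⟨c, hc0, hc⟩ := Fermat.Agent.S24.exists_jordW_eq_ne_zero
  have hW : Fermat.Agent.S24.jordW z =
      2 * E₄ z * D (⇑E₆ : ℍ → ℂ) z - 3 * E₆ z * D (⇑E₄ : ℍ → ℂ) z := rfl
  have hkey : E₄ z * D (x₀ ^ 3 • (⇑E₆ : ℍ → ℂ) ^ 2 - y₀ ^ 2 • (⇑E₄ : ℍ → ℂ) ^ 3) z =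
      x₀ ^ 3 * E₆ z * (c * ModularForm.discriminant z) := by
    rw [← hc z, hW, hD]
    linear_combination (3 * D (⇑E₄ : ℍ → ℂ) z) * hPz
  have hy6 : E₆ z ≠ 0 := by
    intro h6z
    rw [h6z] at hPz
    have h4z : E₄ z = 0 := by
      have : y₀ ^ 2 * E₄ z ^ 3 = 0 := by linear_combination -hPz
      rcases mul_eq_zero.mp this with h | h
      · exact absurd ((pow_eq_zero_iff (two_ne_zero)).mp h) hy
      · exact (pow_eq_zero_iff (three_ne_zero)).mp h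
    rcases E4_E6_no_common_zero z with h | h
    · exact h h4z
    · exact h h6z
  have hne : E₄ z * D (x₀ ^ 3 • (⇑E₆ : ℍ → ℂ) ^ 2 - y₀ ^ 2 • (⇑E₄ : ℍ → ℂ) ^ 3) z ≠ 0 := by
    rw [hkey]
    exact mul_ne_zero (mul_ne_zero (pow_ne_zero 3 hx) hy6)
      (mul_ne_zero hc0 (ModularForm.discriminant_ne_zero z))
  exact Fermat.Agent.S24.jord_deriv_ne_zero (right_ne_zero_of_mul hne)

open Filter Topology in
/-- Local structure of the graded ring of level one forms at a point `z₀`: there is a level one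
form `P` vanishing at `z₀`, nonzero at infinity, with only simple zeros, which divides every
level one form vanishing at `z₀`; moreover there is `m > 0` such that the weights of level one
forms not vanishing at `z₀` are multiples of `m`, and every large multiple of `m` occurs.
(`P = E₄, m = 6` if `E₄ z₀ = 0`; `P = E₆, m = 4` if `E₆ z₀ = 0`;
`P = E₄(z₀)³ E₆² - E₆(z₀)² E₄³, m = 2` otherwise.) -/
theorem lo_local (z₀ : ℍ) : ∃ (m a : ℤ) (P : ℍ → ℂ), 0 < m ∧ P ∈ MF 𝒮ℒ a ∧ P z₀ = 0 ∧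
    ¬ IsZeroAtImInfty P ∧
    (∀ z : ℍ, P z = 0 → deriv (P ∘ ofComplex) z ≠ 0) ∧
    (∀ (w : ℤ) (g : ℍ → ℂ), g ∈ MF 𝒮ℒ w → g z₀ = 0 → ∃ g' ∈ MF 𝒮ℒ (w - a), g = P * g') ∧
    (∀ (w : ℤ) (g : ℍ → ℂ), g ∈ MF 𝒮ℒ w → ¬ m ∣ w → g z₀ = 0) ∧
    (∃ w₀ : ℤ, ∀ w : ℤ, w₀ ≤ w → m ∣ w → ∃ g ∈ MF 𝒮ℒ w, g z₀ = 1) := by
  by_cases hx : E₄ z₀ = 0
  · -- `P = E₄`
    have hy : E₆ z₀ ≠ 0 := (E4_E6_no_common_zero z₀).resolve_left (not_not.mpr hx)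
    exact lo_local_of_red z₀ ⇑E₄ ⇑E₆ 4 6 (by norm_num) E4_mem E6_mem
      (fun w hw g hg => lo_generate w hw hg) hx hy
      (lo_not_isZeroAtImInfty lo_E4_tendsto one_ne_zero)
      (fun z hz => Fermat.Agent.S24.jord_deriv_ne_zero (Fermat.Agent.S24.D_E₄_ne_zero hz))
  by_cases hy : E₆ z₀ = 0
  · -- `P = E₆`
    exact lo_local_of_red z₀ ⇑E₆ ⇑E₄ 6 4 (by norm_num) E6_mem E4_mem
      (fun w hw g hg => by
        obtain ⟨a, b, ha, hb, hab⟩ := lo_generate w hw hg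
        exact ⟨b, a, hb, ha, by rw [hab, add_comm]⟩) hy hx
      (lo_not_isZeroAtImInfty lo_E6_tendsto one_ne_zero)
      (fun z hz => Fermat.Agent.S24.jord_deriv_ne_zero (Fermat.Agent.S24.D_E₆_ne_zero hz))
  -- generic case
  set x₀ : ℂ := E₄ z₀ with hx₀
  set y₀ : ℂ := E₆ z₀ with hy₀
  have hP : (x₀ ^ 3 • (⇑E₆ : ℍ → ℂ) ^ 2 - y₀ ^ 2 • (⇑E₄ : ℍ → ℂ) ^ 3) ∈ MF 𝒮ℒ 12 :=
    sub_mem (Submodule.smul_mem _ _ (MF_congr (by norm_num) (MF_pow E6_mem 2)))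
      (Submodule.smul_mem _ _ (MF_congr (by norm_num) (MF_pow E4_mem 3)))
  refine ⟨2, 12, x₀ ^ 3 • (⇑E₆ : ℍ → ℂ) ^ 2 - y₀ ^ 2 • (⇑E₄ : ℍ → ℂ) ^ 3, by norm_num, hP, ?_, ?_,
    fun z hz => lo_P_simple x₀ y₀ hx hy z hz, ?_, ?_, ?_⟩
  · simp only [Pi.sub_apply, Pi.smul_apply, Pi.pow_apply, smul_eq_mul, hx₀, hy₀]
    ring
  · have hlim : Tendsto (x₀ ^ 3 • (⇑E₆ : ℍ → ℂ) ^ 2 - y₀ ^ 2 • (⇑E₄ : ℍ → ℂ) ^ 3) atImInfty
        (𝓝 (x₀ ^ 3 • 1 ^ 2 - y₀ ^ 2 • 1 ^ 3)) :=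
      ((lo_E6_tendsto.pow 2).const_smul _).sub ((lo_E4_tendsto.pow 3).const_smul _)
    refine lo_not_isZeroAtImInfty hlim ?_
    have h1 := ModularForm.discriminant_eq_E₄_cube_sub_E₆_sq z₀
    have h2 := ModularForm.discriminant_ne_zero z₀
    intro h0
    apply h2
    rw [h1]
    simp only [one_pow, smul_eq_mul, mul_one] at h0
    rw [← hx₀, ← hy₀, h0]
    simp
  · intro w g hg hgz
    obtain ⟨c, i, ε, g', hg', hε, hci, hgg'⟩ := lo_red_gen x₀ y₀ hx _ w rfl g hg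
    have hc : c = 0 := by
      have h1 := congrFun hgg' z₀
      simp only [Pi.add_apply, Pi.smul_apply, Pi.pow_apply, Pi.mul_apply, smul_eq_mul,
        Pi.sub_apply] at h1
      rw [hgz, ← hx₀, ← hy₀] at h1
      have h2 : c * (x₀ ^ i * y₀ ^ ε) = 0 := by linear_combination -h1
      rcases mul_eq_zero.mp h2 with h | h
      · exact h
      · exact absurd h (mul_ne_zero (pow_ne_zero i hx) (pow_ne_zero ε hy))
    refine ⟨g', hg', ?_⟩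
    rw [hgg', hc]
    simp
  · intro w g hg hm
    have hodd : Odd w := Int.not_even_iff_odd.mp (fun h => hm (even_iff_two_dvd.mp h))
    rw [lo_eq_zero_of_odd hodd hg]
    rfl
  · refine ⟨4, fun w hw hm => ?_⟩
    obtain ⟨t, ht⟩ := hm
    obtain ⟨i, ε, hiε⟩ : ∃ i ε : ℕ, (i : ℤ) * 4 + (ε : ℤ) * 6 = w := by
      rcases Int.even_or_odd t with ⟨s, hs⟩ | ⟨s, hs⟩
      · exact ⟨s.toNat, 0, by push_cast; omega⟩
      · exact ⟨(s - 1).toNat, 1, by push_cast; omega⟩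
    refine ⟨(x₀ ^ i * y₀ ^ ε)⁻¹ • ((⇑E₄ : ℍ → ℂ) ^ i * (⇑E₆) ^ ε),
      Submodule.smul_mem _ _ (MF_congr hiε (MF_mul (MF_pow E4_mem i) (MF_pow E6_mem ε))), ?_⟩
    simp only [Pi.smul_apply, Pi.mul_apply, Pi.pow_apply, smul_eq_mul, ← hx₀, ← hy₀]
    exact inv_mul_cancel₀ (mul_ne_zero (pow_ne_zero i hx) (pow_ne_zero ε hy))

end Fermat.Agent.S20
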