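import Fermat.Agent.S20.Defs
import Fermat.Agent.S24.Elliptic
import Fermat.Agent.S24.Cusps

/-!
# S20: bridge between the coset space `QQ N = 𝒮ℒ ⧸ Γ₀(N)` (inside `GL(2, ℝ)`) and the counts of
S24 on `SL(2, ℤ) ⧸ Γ₀(N)`

* `card_QQ : Nat.card (QQ N) = dedekindPsi N`
* `fixS_eq : fixS N = nuTwo N`
* `fixU_eq : fixU N = nuThree N`
* `cuspsQ_eq : cuspsQ N = cuspCount N`
-/

set_option autoImplicit false

namespace Fermat.Agent.S20

open UpperHalfPlane ModularForm CongruenceSubgroup ModularCurve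
open scoped MatrixGroups

open Fermat.Agent.S23 (slMem)

/-- `slMem` as a group homomorphism. -/
noncomputable def bridgeHom : SL(2, ℤ) →* 𝒮ℒ :=
  (Matrix.SpecialLinearGroup.mapGL ℝ : SL(2, ℤ) →* GL (Fin 2) ℝ).rangeRestrict

theorem bridgeHom_apply (γ : SL(2, ℤ)) : bridgeHom γ = slMem γ := rfl

theorem bridgeHom_injective : Function.Injective bridgeHom := by
  intro a b h
  have h1 : (Matrix.SpecialLinearGroup.mapGL ℝ : SL(2, ℤ) →* GL (Fin 2) ℝ) a =
      Matrix.SpecialLinearGroup.mapGL ℝ b := congrArg Subtype.val h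
  exact Matrix.SpecialLinearGroup.mapGL_injective h1

theorem bridgeHom_surjective : Function.Surjective bridgeHom :=
  MonoidHom.rangeRestrict_surjective _

theorem bridgeHom_mem_iff (N : ℕ) (γ : SL(2, ℤ)) :
    bridgeHom γ ∈ (G0 N).subgroupOf 𝒮ℒ ↔ γ ∈ Gamma0 N := by
  rw [Subgroup.mem_subgroupOf]
  show (Matrix.SpecialLinearGroup.mapGL ℝ : SL(2, ℤ) →* GL (Fin 2) ℝ) γ ∈
    Subgroup.map (Matrix.SpecialLinearGroup.mapGL ℝ) (Gamma0 N) ↔ _
  exact Subgroup.mem_map_iff_mem Matrix.SpecialLinearGroup.mapGL_injective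

/-- The comparison map `SL(2, ℤ) ⧸ Γ₀(N) → QQ N`. -/
noncomputable def bridgeMap (N : ℕ) : SL(2, ℤ) ⧸ Gamma0 N → QQ N :=
  Quotient.map' (fun γ => bridgeHom γ) (by
    intro a b hab
    rw [QuotientGroup.leftRel_apply] at hab ⊢
    rw [← map_inv, ← map_mul, bridgeHom_mem_iff]
    exact hab)

theorem bridgeMap_mk (N : ℕ) (γ : SL(2, ℤ)) :
    bridgeMap N (QuotientGroup.mk γ) = QuotientGroup.mk (bridgeHom γ) := rfl

theorem bridgeMap_smul (N : ℕ) (δ : SL(2, ℤ)) (y : SL(2, ℤ) ⧸ Gamma0 N) :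
    bridgeMap N (δ • y) = bridgeHom δ • bridgeMap N y := by
  obtain ⟨γ, rfl⟩ := QuotientGroup.mk_surjective y
  show bridgeMap N (QuotientGroup.mk (δ * γ)) = QuotientGroup.mk (bridgeHom δ * bridgeHom γ)
  rw [bridgeMap_mk, map_mul]

theorem bridgeMap_bijective (N : ℕ) : Function.Bijective (bridgeMap N) := by
  constructor
  · intro y y' h
    obtain ⟨γ, rfl⟩ := QuotientGroup.mk_surjective y
    obtain ⟨γ', rfl⟩ := QuotientGroup.mk_surjective y'
    rw [bridgeMap_mk, bridgeMap_mk, QuotientGroup.eq, ← map_inv, ← map_mul,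
      bridgeHom_mem_iff] at h
    exact QuotientGroup.eq.mpr h
  · intro q
    obtain ⟨g, rfl⟩ := QuotientGroup.mk_surjective q
    obtain ⟨γ, rfl⟩ := bridgeHom_surjective g
    exact ⟨QuotientGroup.mk γ, rfl⟩

/-- The comparison bijection. -/
noncomputable def bridgeEquiv (N : ℕ) : SL(2, ℤ) ⧸ Gamma0 N ≃ QQ N :=
  Equiv.ofBijective (bridgeMap N) (bridgeMap_bijective N)

theorem bridgeEquiv_smul (N : ℕ) (δ : SL(2, ℤ)) (y : SL(2, ℤ) ⧸ Gamma0 N) :
    bridgeEquiv N (δ • y) = bridgeHom δ • bridgeEquiv N y := bridgeMap_smul N δ y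

theorem card_QQ (N : ℕ) [NeZero N] : Nat.card (QQ N) = dedekindPsi N := by
  rw [← Fermat.Agent.S24.card_quot_Gamma0 N]
  exact (Nat.card_congr (bridgeEquiv N)).symm

/-- Fixed points correspond. -/
theorem bridge_card_fixed (N : ℕ) (δ : SL(2, ℤ)) :
    Nat.card {q : QQ N // bridgeHom δ • q = q} =
      Nat.card {y : SL(2, ℤ) ⧸ Gamma0 N // δ • y = y} := by
  refine (Nat.card_congr ((bridgeEquiv N).subtypeEquiv (fun y => ?_))).symm
  rw [← bridgeEquiv_smul]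
  exact (bridgeEquiv N).injective.eq_iff.symm

theorem bridge_fixed_S (N : ℕ) [NeZero N] :
    Nat.card {y : SL(2, ℤ) ⧸ Gamma0 N // ModularGroup.S • y = y} = nuTwo N := by
  have hfix := Fermat.Agent.S24.ell_card_fixed N ModularGroup.S 0 (by
    intro γ
    rw [Fermat.Agent.S24.p1_smul_mk, Fermat.Agent.S24.p1_mk_eq_iff,
      Fermat.Agent.S24.p1_S_mul_apply_00, Fermat.Agent.S24.p1_S_mul_apply_10]
    have : -γ 1 0 * γ 1 0 - γ 0 0 * γ 0 0 = -(γ 0 0 ^ 2 + 0 * γ 0 0 * γ 1 0 + γ 1 0 ^ 2) := by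
      ring
    rw [this, dvd_neg])
  have e : Nat.card {x : ZMod N // x ^ 2 + ((0 : ℤ) : ZMod N) * x + 1 = 0}
      = Nat.card {x : ZMod N // x ^ 2 + 1 = 0} :=
    Nat.card_congr (Equiv.subtypeEquivRight (fun x => by simp))
  rw [hfix, e, nuTwo]

theorem bridge_fixed_ST (N : ℕ) [NeZero N] :
    Nat.card {y : SL(2, ℤ) ⧸ Gamma0 N // (ModularGroup.S * ModularGroup.T) • y = y} =
      nuThree N := by
  have hfix := Fermat.Agent.S24.ell_card_fixed N (ModularGroup.S * ModularGroup.T) 1 (by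
    intro γ
    rw [Fermat.Agent.S24.p1_smul_mk, Fermat.Agent.S24.p1_mk_eq_iff,
      Fermat.Agent.S24.p1_ST_mul_apply_00, Fermat.Agent.S24.p1_ST_mul_apply_10]
    have : -γ 1 0 * γ 1 0 - γ 0 0 * (γ 0 0 + γ 1 0)
        = -(γ 0 0 ^ 2 + 1 * γ 0 0 * γ 1 0 + γ 1 0 ^ 2) := by ring
    rw [this, dvd_neg])
  have e : Nat.card {x : ZMod N // x ^ 2 + ((1 : ℤ) : ZMod N) * x + 1 = 0}
      = Nat.card {x : ZMod N // x ^ 2 + x + 1 = 0} :=
    Nat.card_congr (Equiv.subtypeEquivRight (fun x => by simp))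
  rw [hfix, e, nuThree]

theorem fixS_eq (N : ℕ) [NeZero N] : fixS N = nuTwo N := by
  rw [← bridge_fixed_S N, ← bridge_card_fixed N ModularGroup.S]
  rfl

theorem fixU_eq (N : ℕ) [NeZero N] : fixU N = nuThree N := by
  rw [← bridge_fixed_ST N, ← bridge_card_fixed N (ModularGroup.S * ModularGroup.T)]
  rfl

/-- Orbit counts correspond. -/
theorem bridge_card_orbits (N : ℕ) (δ : SL(2, ℤ)) :
    Nat.card (MulAction.orbitRel.Quotient (Subgroup.zpowers (bridgeHom δ)) (QQ N)) =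
      Fermat.Agent.S24.orbCount N δ := by
  unfold Fermat.Agent.S24.orbCount Fermat.Agent.S24.cycOrbits
  symm
  refine Nat.card_congr (Quotient.congr (bridgeEquiv N) (fun a b => ?_))
  rw [MulAction.orbitRel_apply, MulAction.orbitRel_apply, MulAction.mem_orbit_iff,
    MulAction.mem_orbit_iff]
  constructor
  · rintro ⟨⟨g, n, rfl⟩, rfl⟩
    refine ⟨⟨bridgeHom δ ^ n, n, rfl⟩, ?_⟩
    show bridgeHom δ ^ n • bridgeEquiv N b = bridgeEquiv N (δ ^ n • b)
    rw [bridgeEquiv_smul, map_zpow]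
  · rintro ⟨⟨g, n, rfl⟩, h⟩
    refine ⟨⟨δ ^ n, n, rfl⟩, ?_⟩
    apply (bridgeEquiv N).injective
    show bridgeEquiv N (δ ^ n • b) = _
    rw [bridgeEquiv_smul, map_zpow]
    exact h

theorem cuspsQ_eq (N : ℕ) [NeZero N] : cuspsQ N = cuspCount N := by
  rw [← Fermat.Agent.S24.orbCount_T N, ← bridge_card_orbits N ModularGroup.T]
  rfl

end Fermat.Agent.S20
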