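import Fermat.Agent.S20.Dual

/-!
# S20 piece (G3): the dimension of the space of cusp forms from the dual basis

`CF w ≃ ⨁ i, MF 𝒮ℒ (w + k i - 12)` via `(A i) ↦ ∑ i, A i * G i`, where `G i` is the dual basis.
-/

set_option autoImplicit false

namespace Fermat.Agent.S20

open UpperHalfPlane ModularForm CongruenceSubgroup SlashInvariantForm Module
open scoped MatrixGroups Manifold

local notation "Δ" => ModularForm.discriminant

section DualRank

variable {N : ℕ} [NeZero N]

theorem dualRank_trP_add (w : ℤ) (f g : ℍ → ℂ) :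
    trP N w (f + g) = trP N w f + trP N w g := by
  unfold trP
  rw [← Finset.sum_add_distrib]
  exact Finset.sum_congr rfl fun q _ => cj_add N f g q

theorem dualRank_trP_zero (w : ℤ) : trP N w (0 : ℍ → ℂ) = 0 := by
  unfold trP
  exact Finset.sum_eq_zero fun q _ => cj_zero N q

theorem dualRank_trP_sum {ι : Type*} (w : ℤ) (s : Finset ι) (F : ι → ℍ → ℂ) :
    trP N w (∑ i ∈ s, F i) = ∑ i ∈ s, trP N w (F i) := by
  unfold trP
  rw [Finset.sum_comm]
  exact Finset.sum_congr rfl fun q _ => cj_sum N s F q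

theorem dualRank_trP_levelOne_mul {a b c : ℤ} (hc : c = a + b) {A : ℍ → ℂ} (hA : A ∈ MF 𝒮ℒ a)
    (f : ℍ → ℂ) : trP N c (A * f) = A * trP N b f := by
  subst hc
  unfold trP
  rw [Finset.mul_sum]
  exact Finset.sum_congr rfl fun q _ => by rw [cj_mul, cj_levelOne N hA]

omit [NeZero N] in
theorem dualRank_finiteDimensional (v : ℤ) : FiniteDimensional ℂ (MF 𝒮ℒ v) :=
  Submodule.finiteDimensional_of_le (MF_levelOne_le 1 (w := v))

/-- `CF w ≃ ⨁ i, MF 𝒮ℒ (w + k i - 12)` via `g ↦ (trP (F i * g) / Δ) i`, inverse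
`(A i) ↦ ∑ i, A i * G i`. -/
theorem FreeBasis.finrank_CF (B : FreeBasis N) (w : ℤ) :
    finrank ℂ (CF (G0 N) w) = ∑ i, loDim (w + B.k i - 12) := by
  classical
  obtain ⟨G, hG, hGtr⟩ := B.exists_dual
  have hmem : ∀ (A : ∀ i, MF 𝒮ℒ (w + B.k i - 12)),
      ∑ i, (A i : ℍ → ℂ) * G i ∈ CF (G0 N) w := by
    intro A
    refine Submodule.sum_mem _ fun i _ => ?_
    have := CF_mul_MF (hG i) (MF_levelOne_le N (A i).2)
    rw [mul_comm]
    exact CF_congr (by ring) this
  let Ψ : (∀ i, MF 𝒮ℒ (w + B.k i - 12)) →ₗ[ℂ] CF (G0 N) w :=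
    { toFun := fun A => ⟨∑ i, (A i : ℍ → ℂ) * G i, hmem A⟩
      map_add' := fun A A' => by
        apply Subtype.ext
        simp [add_mul, Finset.sum_add_distrib]
      map_smul' := fun c A => by
        apply Subtype.ext
        simp [Finset.smul_sum] }
  have hΨ : ∀ A, ((Ψ A : CF (G0 N) w) : ℍ → ℂ) = ∑ i, (A i : ℍ → ℂ) * G i := fun A => rfl
  have htrace : ∀ (A : ∀ i, MF 𝒮ℒ (w + B.k i - 12)) (j : B.ι),
      trP N (B.k j + w) (B.F j * ∑ i, (A i : ℍ → ℂ) * G i) = (A j : ℍ → ℂ) * Δ := by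
    intro A j
    rw [Finset.mul_sum, dualRank_trP_sum]
    have h1 : ∀ i, trP N (B.k j + w) (B.F j * ((A i : ℍ → ℂ) * G i)) =
        (A i : ℍ → ℂ) * (if i = j then Δ else 0) := by
      intro i
      rw [show B.F j * ((A i : ℍ → ℂ) * G i) = (A i : ℍ → ℂ) * (B.F j * G i) by ring,
        dualRank_trP_levelOne_mul (b := B.k j + (12 - B.k i)) (by ring) (A i).2, hGtr i j]
    rw [Finset.sum_congr rfl fun i _ => h1 i]
    simp
  have hΔ : ∀ X : ℍ → ℂ, X * Δ = 0 → X = 0 := by
    intro X hX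
    funext z
    have := congrFun hX z
    simpa [discriminant_ne_zero z] using this
  have hinj : Function.Injective Ψ := by
    rw [← LinearMap.ker_eq_bot, LinearMap.ker_eq_bot']
    intro A hA
    funext j
    apply Subtype.ext
    have h1 := htrace A j
    have h2 : ∑ i, (A i : ℍ → ℂ) * G i = 0 := by
      rw [← hΨ A, hA]
      rfl
    rw [h2, mul_zero, dualRank_trP_zero] at h1
    exact hΔ _ h1.symm
  have hsurj : Function.Surjective Ψ := by
    rintro ⟨g, hg⟩
    have hC : ∀ j, ∃ Aj ∈ MF 𝒮ℒ (w + B.k j - 12),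
        trP N (B.k j + w) (B.F j * g) = Δ * Aj := by
      intro j
      have h1 : B.F j * g ∈ CF (G0 N) (B.k j + w) := by
        have := CF_mul_MF hg (B.mem j)
        rw [mul_comm]
        exact CF_congr (by ring) this
      obtain ⟨A, hA, hAeq⟩ := lo_cusp (trP_mem_CF N h1)
      exact ⟨A, MF_congr (by ring) hA, hAeq⟩
    choose Af hAf hAfeq using hC
    let A : ∀ i, MF 𝒮ℒ (w + B.k i - 12) := fun i => ⟨Af i, hAf i⟩
    refine ⟨A, Subtype.ext ?_⟩
    show ∑ i, (A i : ℍ → ℂ) * G i = g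
    have hg'mem : ∑ i, (A i : ℍ → ℂ) * G i ∈ CF (G0 N) w := hmem A
    have hD : g - ∑ i, (A i : ℍ → ℂ) * G i ∈ MF (G0 N) w :=
      Submodule.sub_mem _ (CF_le_MF hg) (CF_le_MF hg'mem)
    obtain ⟨C, hC, hCeq⟩ := B.span w _ hD
    have hzero : ∀ j, trP N (B.k j + w) (B.F j * (g - ∑ i, (A i : ℍ → ℂ) * G i)) = 0 := by
      intro j
      have h1 : trP N (B.k j + w) (B.F j * g) =
          trP N (B.k j + w) (B.F j * (g - ∑ i, (A i : ℍ → ℂ) * G i)) +
            trP N (B.k j + w) (B.F j * ∑ i, (A i : ℍ → ℂ) * G i) := by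
        rw [← dualRank_trP_add]
        congr 1
        ring
      rw [hAfeq j, htrace A j] at h1
      have h3 : (A j : ℍ → ℂ) = Af j := rfl
      rw [h3, mul_comm] at h1
      exact add_eq_right.mp h1.symm
    have hCz : ∀ z : ℍ, (fun l => C l z) = 0 := by
      intro z
      apply B.trace_nondegenerate z
      intro j
      have h1 := congrFun (hzero j) z
      rw [hCeq, Finset.mul_sum, dualRank_trP_sum] at h1
      have h2 : ∀ l, trP N (B.k j + w) (B.F j * (C l * B.F l)) =
          C l * trP N (B.k j + B.k l) (B.F j * B.F l) := by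
        intro l
        rw [show B.F j * (C l * B.F l) = C l * (B.F j * B.F l) by ring,
          dualRank_trP_levelOne_mul (b := B.k j + B.k l) (by ring) (hC l)]
      rw [Finset.sum_congr rfl fun l _ => h2 l] at h1
      simpa using h1
    have hD0 : g - ∑ i, (A i : ℍ → ℂ) * G i = 0 := by
      rw [hCeq]
      refine Finset.sum_eq_zero fun l _ => ?_
      have : C l = 0 := by
        funext z
        exact congrFun (hCz z) l
      rw [this, zero_mul]
    exact (sub_eq_zero.mp hD0).symm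
  have e := LinearEquiv.ofBijective Ψ ⟨hinj, hsurj⟩
  have hfd : ∀ i : B.ι, Module.Finite ℂ (MF 𝒮ℒ (w + B.k i - 12)) :=
    fun i => dualRank_finiteDimensional _
  rw [← e.finrank_eq, Module.finrank_pi_fintype]
  exact Finset.sum_congr rfl fun i _ => finrank_MF_levelOne _

end DualRank

end Fermat.Agent.S20
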