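import Fermat.Agent.S20.LevelOne
import Fermat.Agent.S20.Bridge
import Fermat.Prelude.Thm_UpperHalfPlane_qExpansion_coeff_nat_mul

/-!
# S20 piece (F): jets (leading `q_N`-expansion coefficients of all conjugates)

All statements of the skeleton are proved here (helper19).  Extra lemmas are prefixed `jets`
(`jets_periodic`, `jets_analytic`, `jets_hasSum`, `jets_tendsto`, `jets_coeff_unique`, `jet_mul`,
`jets_coeff_trP`, `jetsMap`, `jetsMulDisc`, `jetsEq`, ...).
-/

set_option autoImplicit false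

namespace Fermat.Agent.S20

open UpperHalfPlane ModularForm CongruenceSubgroup SlashInvariantForm Module Filter Function
open scoped MatrixGroups Manifold Topology

section Jets

variable (N : ℕ) [NeZero N] {w w₁ w₂ : ℤ} {f h : ℍ → ℂ}

theorem jets_sT_eq : sT = bridgeHom ModularGroup.T := rfl

/-- `T ^ N` acts trivially on the cosets. -/
theorem sT_pow_smul (q : QQ N) : sT ^ N • q = q := by
  obtain ⟨y, rfl⟩ := (bridgeEquiv N).surjective q
  rw [jets_sT_eq, ← map_pow, ← bridgeEquiv_smul]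
  congr 1
  obtain ⟨γ, rfl⟩ := QuotientGroup.mk_surjective y
  rw [Fermat.Agent.S24.p1_smul_mk, Fermat.Agent.S24.p1_mk_eq_iff]
  have h1 := Fermat.Agent.S24.p1_T_zpow_mul_apply_00 (N : ℤ) γ
  have h2 := Fermat.Agent.S24.p1_T_zpow_mul_apply_10 (N : ℤ) γ
  rw [zpow_natCast] at h1 h2
  rw [h1, h2]
  exact ⟨γ 1 0 * γ 1 0, by ring⟩

theorem jets_N_pos : (0 : ℝ) < (N : ℝ) := Nat.cast_pos.mpr (NeZero.pos N)

/-- slash by `T ^ n` is translation by `n`. -/
theorem jets_slash_T_pow (g : ℍ → ℂ) (k : ℤ) (n : ℕ) (z : ℍ) :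
    (g ∣[k] (ModularGroup.T ^ n : SL(2, ℤ))) z = g ((n : ℝ) +ᵥ z) := by
  rw [SL_slash_apply]
  have h1 : (ModularGroup.T ^ n : SL(2, ℤ)) • z = (n : ℝ) +ᵥ z := by
    apply UpperHalfPlane.ext
    rw [← zpow_natCast, ModularGroup.coe_T_zpow_smul_eq]
    simp [add_comm]
  have h2 : denom (ModularGroup.T ^ n : SL(2, ℤ)) z = 1 := by
    rw [← zpow_natCast, ModularGroup.denom_apply, ModularGroup.coe_T_zpow]
    simp
  rw [h1, h2]
  simp

theorem jets_cj_vadd (hf : f ∈ MF (G0 N) w) (q : QQ N) (n : ℕ) (z : ℍ) :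
    cj N w f q ((n : ℝ) +ᵥ z) = cj N w f ((sT ^ n)⁻¹ • q) z := by
  rw [← jets_slash_T_pow (cj N w f q) w n z, cj_slash N hf]
  show cj N w f ((bridgeHom (ModularGroup.T ^ n))⁻¹ • q) z = _
  rw [map_pow]
  rfl

theorem jets_periodic (hf : f ∈ MF (G0 N) w) (q : QQ N) :
    Periodic (cj N w f q ∘ ofComplex) (N : ℝ) := by
  intro x
  by_cases hx : 0 < x.im
  · have hx' : 0 < (x + (N : ℝ)).im := by simpa using hx
    simp only [comp_apply, ofComplex_apply_of_im_pos hx', ofComplex_apply_of_im_pos hx]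
    have h1 := jets_cj_vadd N hf q N ⟨x, hx⟩
    rw [inv_smul_eq_iff.mpr (sT_pow_smul N q).symm] at h1
    rw [← h1]
    congr 1
    ext
    simp [add_comm]
  · have hx' : (x + (N : ℝ)).im ≤ 0 := by simpa using not_lt.mp hx
    simp only [comp_apply]
    rw [ofComplex_apply_of_im_nonpos hx', ofComplex_apply_of_im_nonpos (not_lt.mp hx)]

theorem jets_analytic (hf : f ∈ MF (G0 N) w) (q : QQ N) :
    AnalyticAt ℂ (cuspFunction (N : ℝ) (cj N w f q)) 0 :=
  analyticAt_cuspFunction_zero (jets_N_pos N) (jets_periodic N hf q) (mdiff_cj N hf q)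
    (isBoundedAtImInfty_cj N hf q)

theorem jets_hasSum (hf : f ∈ MF (G0 N) w) (q : QQ N) (τ : ℍ) :
    HasSum (fun m : ℕ => jet N w f q m • Periodic.qParam (N : ℝ) τ ^ m) (cj N w f q τ) :=
  hasSum_qExpansion (jets_N_pos N) (jets_periodic N hf q) (mdiff_cj N hf q)
    (isBoundedAtImInfty_cj N hf q) τ

theorem jets_coeff_unique {h : ℝ} {g : ℍ → ℂ} {c : ℕ → ℂ} (hh : 0 < h)
    (hper : Periodic (g ∘ ofComplex) h) (hhol : MDiff g) (hbdd : IsBoundedAtImInfty g)
    (hc : ∀ τ : ℍ, HasSum (fun m : ℕ => c m • Periodic.qParam h τ ^ m) (g τ)) (m : ℕ) :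
    c m = (qExpansion h g).coeff m := by
  have ha := analyticAt_cuspFunction_zero hh hper hhol hbdd
  have h1 := (hasFPowerSeriesOnBall_cuspFunction hh ha hc).hasFPowerSeriesAt
  have h2 := (hasFPowerSeriesOnBall_cuspFunction hh ha
    (hasSum_qExpansion hh hper hhol hbdd)).hasFPowerSeriesAt
  simpa using congr_arg (FormalMultilinearSeries.coeff · m) (h1.eq_formalMultilinearSeries h2)

theorem jets_qParam_vadd_one (z : ℍ) :
    Periodic.qParam (N : ℝ) (((1 : ℕ) : ℝ) +ᵥ z : ℍ) =
      Complex.exp (2 * Real.pi * Complex.I / N) * Periodic.qParam (N : ℝ) z := by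
  have hN : (N : ℂ) ≠ 0 := Nat.cast_ne_zero.mpr (NeZero.ne N)
  rw [Periodic.qParam, Periodic.qParam, ← Complex.exp_add]
  congr 1
  simp only [UpperHalfPlane.coe_vadd, Nat.cast_one, Complex.ofReal_one, Complex.ofReal_natCast]
  field_simp

/-- Equivariance of the jets under `T`. -/
theorem jet_sT_inv_smul (hf : f ∈ MF (G0 N) w) (q : QQ N) (n : ℕ) :
    jet N w f (sT⁻¹ • q) n = Complex.exp (2 * Real.pi * Complex.I * n / N) * jet N w f q n := by
  have key : ∀ τ : ℍ, HasSum (fun m : ℕ =>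
      (Complex.exp (2 * Real.pi * Complex.I * m / N) * jet N w f q m) •
        Periodic.qParam (N : ℝ) τ ^ m) (cj N w f (sT⁻¹ • q) τ) := by
    intro τ
    have h1 := jets_cj_vadd N hf q 1 τ
    rw [pow_one] at h1
    rw [← h1]
    have h2 := jets_hasSum N hf q (((1 : ℕ) : ℝ) +ᵥ τ)
    rw [jets_qParam_vadd_one] at h2
    convert h2 using 2 with m
    rw [mul_pow, ← Complex.exp_nat_mul, smul_eq_mul, smul_eq_mul]
    have : (m : ℂ) * (2 * Real.pi * Complex.I / N) = 2 * Real.pi * Complex.I * m / N := by ring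
    rw [this]
    ring
  have h3 := jets_coeff_unique (jets_N_pos N) (jets_periodic N hf (sT⁻¹ • q))
    (mdiff_cj N hf _) (isBoundedAtImInfty_cj N hf _) key n
  exact h3.symm

theorem jets_tendsto (hf : f ∈ MF (G0 N) w) (q : QQ N) :
    Tendsto (cj N w f q) atImInfty (𝓝 (jet N w f q 0)) := by
  have h1 : (cuspFunction (N : ℝ) (cj N w f q) ∘ fun τ : ℍ => Periodic.qParam (N : ℝ) τ) =
      cj N w f q := by
    funext τ
    simpa using eq_cuspFunction τ (jets_N_pos N).ne' (jets_periodic N hf q)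
  have h2 := (jets_analytic N hf q).continuousAt.tendsto.comp
    (qParam_tendsto_atImInfty (jets_N_pos N))
  rw [h1] at h2
  have h3 : jet N w f q 0 = cuspFunction (N : ℝ) (cj N w f q) 0 := by
    simp [jet, qExpansion_coeff]
  rw [h3]
  exact h2

/-- A modular form is a cusp form iff all constant terms of its conjugates vanish. -/
theorem mem_CF_iff_jet (hf : f ∈ MF (G0 N) w) :
    f ∈ CF (G0 N) w ↔ ∀ q : QQ N, jet N w f q 0 = 0 := by
  rw [mem_CF_iff_cj N hf]
  refine forall_congr' fun q => ?_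
  constructor
  · intro hz
    exact tendsto_nhds_unique (jets_tendsto N hf q) hz
  · intro h0
    have := jets_tendsto N hf q
    rw [h0] at this
    exact this

/-- A modular form whose jets of order `< m` vanish decays like `|q_N| ^ m`. -/
theorem isBigO_of_jet_eq_zero (hf : f ∈ MF (G0 N) w) (q : QQ N) (m : ℕ)
    (h0 : ∀ n < m, jet N w f q n = 0) :
    (cj N w f q) =O[atImInfty] (fun z : ℍ => Real.exp (-2 * Real.pi * m * z.im / N)) := by
  have hps := (hasFPowerSeriesOnBall_cuspFunction (jets_N_pos N) (jets_analytic N hf q)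
    (jets_hasSum N hf q)).hasFPowerSeriesAt
  have hO := hps.isBigO_sub_partialSum_pow m
  have hpart : ∀ y : ℂ, (FormalMultilinearSeries.ofScalars ℂ
      (fun m : ℕ => jet N w f q m)).partialSum m y = 0 := by
    intro y
    rw [FormalMultilinearSeries.partialSum]
    refine Finset.sum_eq_zero fun k hk => ?_
    rw [FormalMultilinearSeries.ofScalars_apply_eq, h0 k (Finset.mem_range.mp hk)]
    simp
  simp only [hpart, sub_zero, zero_add] at hO
  have hO2 := hO.comp_tendsto (qParam_tendsto_atImInfty (jets_N_pos N))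
  have h1 : (cuspFunction (N : ℝ) (cj N w f q) ∘ fun τ : ℍ => Periodic.qParam (N : ℝ) τ) =
      cj N w f q := by
    funext τ
    simpa using eq_cuspFunction τ (jets_N_pos N).ne' (jets_periodic N hf q)
  rw [h1] at hO2
  refine hO2.trans (Asymptotics.IsBigO.of_bound 1 (Filter.Eventually.of_forall fun z => ?_))
  simp only [Function.comp_apply, Periodic.norm_qParam, one_mul, norm_pow, Real.norm_eq_abs,
    abs_of_pos (Real.exp_pos _), UpperHalfPlane.coe_im]
  rw [← Real.exp_nat_mul]
  apply le_of_eq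
  congr 1
  ring

/-- `1 / Δ` grows at most like `|q|⁻¹`. -/
theorem isBigO_inv_discriminant :
    (fun z : ℍ => (ModularForm.discriminant z)⁻¹) =O[atImInfty]
      (fun z : ℍ => Real.exp (2 * Real.pi * z.im)) := by
  have h := ModularForm.exp_isBigO_discriminant
  have h2 := h.inv_rev (Filter.Eventually.of_forall fun z hz => absurd hz (Real.exp_pos _).ne')
  refine h2.congr_right fun z => ?_
  rw [← Real.exp_neg]
  congr 1
  ring

/-- Jets are linear. -/
theorem jet_add (hf : f ∈ MF (G0 N) w) (hh : h ∈ MF (G0 N) w) (q : QQ N) (n : ℕ) :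
    jet N w (f + h) q n = jet N w f q n + jet N w h q n := by
  unfold jet
  rw [cj_add, qExpansion_add (jets_analytic N hf q) (jets_analytic N hh q), map_add]

theorem jet_smul (c : ℂ) (hf : f ∈ MF (G0 N) w) (q : QQ N) (n : ℕ) :
    jet N w (c • f) q n = c * jet N w f q n := by
  unfold jet
  rw [cj_smul, qExpansion_smul (jets_analytic N hf q), PowerSeries.coeff_smul, smul_eq_mul]

theorem jets_discriminant_slash (γ : SL(2, ℤ)) :
    (ModularForm.discriminant : ℍ → ℂ) ∣[(12 : ℤ)] γ = ModularForm.discriminant := by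
  have h := SlashInvariantFormClass.slash_action_eq CuspForm.discriminant
    (Matrix.SpecialLinearGroup.mapGL ℝ γ) ⟨γ, rfl⟩
  exact h

theorem jets_slash_of_mem_Gamma0 (hf : f ∈ MF (G0 N) w) (γ : SL(2, ℤ)) (hγ : γ ∈ Gamma0 N) :
    f ∣[w] γ = f := by
  obtain ⟨F, rfl⟩ := hf
  exact SlashInvariantFormClass.slash_action_eq F (Matrix.SpecialLinearGroup.mapGL ℝ γ)
    (Subgroup.mem_map_of_mem _ hγ)

/-- Forms all of whose jets of order `< N` vanish are divisible by `Δ`. -/
theorem exists_eq_discriminant_mul (hf : f ∈ MF (G0 N) w)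
    (h0 : ∀ (q : QQ N) (n : ℕ), n < N → jet N w f q n = 0) :
    ∃ g ∈ MF (G0 N) (w - 12), f = ModularForm.discriminant * g := by
  have hΔ : ∀ z : ℍ, ModularForm.discriminant z ≠ 0 := ModularForm.discriminant_ne_zero
  have hfg : f = ModularForm.discriminant * (f / ModularForm.discriminant) := by
    funext z
    simp only [Pi.mul_apply, Pi.div_apply]
    rw [mul_div_cancel₀ _ (hΔ z)]
  have hgslash : ∀ γ : SL(2, ℤ), (f / ModularForm.discriminant) ∣[w - 12] γ =
      (f ∣[w] γ) / ModularForm.discriminant := by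
    intro γ
    rw [div_slash_SL2, jets_discriminant_slash]
  refine ⟨f / ModularForm.discriminant, mem_MF_of_slash N ?_ ?_ ?_, hfg⟩
  · exact (mdiff_of_mem_MF hf).div CuspForm.discriminant.holo' hΔ
  · intro γ hγ
    rw [hgslash, jets_slash_of_mem_Gamma0 N hf γ hγ]
  · intro γ
    rw [hgslash, slash_eq_cj N hf γ]
    have h1 := isBigO_of_jet_eq_zero N hf (QuotientGroup.mk (Fermat.Agent.S23.slMem γ)⁻¹) N
      (fun n hn => h0 _ n hn)
    have h2 := h1.mul isBigO_inv_discriminant
    have h3 : (cj N w f (QuotientGroup.mk (Fermat.Agent.S23.slMem γ)⁻¹) /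
        ModularForm.discriminant) =O[atImInfty] (fun z : ℍ =>
          Real.exp (-2 * Real.pi * N * z.im / N) * Real.exp (2 * Real.pi * z.im)) :=
      h2.congr_left (fun z => by simp only [Pi.div_apply, div_eq_mul_inv])
    show _ =O[atImInfty] (1 : ℍ → ℝ)
    refine h3.trans (Asymptotics.IsBigO.of_bound 1 (Filter.Eventually.of_forall fun z => ?_))
    have hN : (N : ℝ) ≠ 0 := (jets_N_pos N).ne'
    have e : -2 * Real.pi * N * z.im / N = -(2 * Real.pi * z.im) := by
      field_simp
    rw [e, ← Real.exp_add, neg_add_cancel, Real.exp_zero]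
    simp

theorem jet_mul (hf : f ∈ MF (G0 N) w₁) (hh : h ∈ MF (G0 N) w₂) (q : QQ N) (m : ℕ) :
    jet N (w₁ + w₂) (f * h) q m =
      ∑ n ∈ Finset.range (m + 1), jet N w₁ f q n * jet N w₂ h q (m - n) := by
  unfold jet
  rw [cj_mul, qExpansion_mul (jets_analytic N hf q) (jets_analytic N hh q), PowerSeries.coeff_mul,
    Finset.Nat.sum_antidiagonal_eq_sum_range_succ
      (fun i j => (PowerSeries.coeff i) (qExpansion (N : ℝ) (cj N w₁ f q)) *
        (PowerSeries.coeff j) (qExpansion (N : ℝ) (cj N w₂ h q)))]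

theorem jets_coeff_trP (hf : f ∈ MF (G0 N) w) (d : ℕ) :
    (qExpansion 1 (trP N w f)).coeff d = ∑ q : QQ N, jet N w f q (d * N) := by
  obtain ⟨Fm, hFm⟩ := trP_mem N hf
  have hper1 : Periodic (trP N w f ∘ ofComplex) (1 : ℝ) := by
    rw [← hFm]
    exact SlashInvariantFormClass.periodic_comp_ofComplex Fm (by simp)
  have hhol : MDiff (trP N w f) := by
    rw [← hFm]; exact ModularFormClass.holo Fm
  have hbdd : IsBoundedAtImInfty (trP N w f) := by
    rw [← hFm]; exact ModularFormClass.bdd_at_infty Fm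
  have key := UpperHalfPlane.qExpansion_coeff_nat_mul one_pos hper1 hhol hbdd (NeZero.pos N) (d * N)
  rw [if_pos (dvd_mul_left N d), Nat.mul_div_cancel _ (NeZero.pos N), mul_one] at key
  rw [← key]
  have hperN : Periodic (trP N w f ∘ ofComplex) (N : ℝ) := by
    simpa using hper1.nat_mul N
  have hsum : ∀ τ : ℍ, HasSum (fun m : ℕ => (∑ q : QQ N, jet N w f q m) •
      Periodic.qParam (N : ℝ) τ ^ m) (trP N w f τ) := by
    intro τ
    have hFτ : trP N w f τ = ∑ q : QQ N, cj N w f q τ := by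
      simp [trP, Finset.sum_apply]
    rw [hFτ]
    have := hasSum_sum (s := (Finset.univ : Finset (QQ N))) (fun q _ => jets_hasSum N hf q τ)
    convert this using 2 with m
    rw [Finset.sum_smul]
  exact (jets_coeff_unique (jets_N_pos N) hperN hhol hbdd hsum (d * N)).symm

/-- The `q`-expansion of the trace of a product in terms of jets. -/
theorem coeff_trP_mul (hf : f ∈ MF (G0 N) w₁) (hh : h ∈ MF (G0 N) w₂) (d : ℕ) :
    (qExpansion 1 (trP N (w₁ + w₂) (f * h))).coeff d =
      ∑ q : QQ N, ∑ n ∈ Finset.range (d * N + 1),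
        jet N w₁ f q n * jet N w₂ h q (d * N - n) := by
  rw [jets_coeff_trP N (MF_mul hf hh) d]
  exact Finset.sum_congr rfl fun q _ => jet_mul N hf hh q (d * N)

theorem jets_discriminant_mem_CF : (ModularForm.discriminant : ℍ → ℂ) ∈ CF 𝒮ℒ 12 :=
  ⟨CuspForm.discriminant, rfl⟩

/-- Multiplication by `Δ`. -/
noncomputable def jetsMulDisc (w : ℤ) : MF (G0 N) (w - 12) →ₗ[ℂ] MF (G0 N) w where
  toFun g := ⟨ModularForm.discriminant * (g : ℍ → ℂ), by
    have h1 : (ModularForm.discriminant : ℍ → ℂ) ∈ MF (G0 N) 12 :=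
      MF_levelOne_le N (CF_le_MF jets_discriminant_mem_CF)
    exact MF_congr (by ring) (MF_mul h1 g.2)⟩
  map_add' a b := by
    apply Subtype.ext
    show ModularForm.discriminant * ((a : ℍ → ℂ) + (b : ℍ → ℂ)) = _
    rw [mul_add]
    rfl
  map_smul' c a := by
    apply Subtype.ext
    show ModularForm.discriminant * (c • (a : ℍ → ℂ)) = c • (ModularForm.discriminant * (a : ℍ → ℂ))
    rw [mul_smul_comm]

/-- The jet map. -/
noncomputable def jetsMap (w : ℤ) : MF (G0 N) w →ₗ[ℂ] (QQ N × Fin N → ℂ) where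
  toFun f := fun p => jet N w (f : ℍ → ℂ) p.1 p.2
  map_add' a b := by
    funext p
    exact jet_add N a.2 b.2 p.1 p.2
  map_smul' c a := by
    funext p
    exact jet_smul N c a.2 p.1 p.2

/-- The space of `T`-equivariant jets. -/
def jetsEq : Submodule ℂ (QQ N × Fin N → ℂ) where
  carrier := {a | ∀ (q : QQ N) (n : Fin N),
    a (sT⁻¹ • q, n) = Complex.exp (2 * Real.pi * Complex.I * (n : ℕ) / N) * a (q, n)}
  add_mem' := by
    intro a b ha hb q n
    simp only [Pi.add_apply]
    rw [ha, hb, mul_add]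
  zero_mem' := by
    intro q n
    simp
  smul_mem' := by
    intro c a ha q n
    simp only [Pi.smul_apply, smul_eq_mul]
    rw [ha]
    ring

theorem jets_range_le (w : ℤ) : LinearMap.range (jetsMap N w) ≤ jetsEq N := by
  rintro _ ⟨f, rfl⟩ q n
  exact jet_sT_inv_smul N f.2 q n

theorem jets_ker_le (w : ℤ) : LinearMap.ker (jetsMap N w) ≤ LinearMap.range (jetsMulDisc N w) := by
  intro f hf
  rw [LinearMap.mem_ker] at hf
  obtain ⟨g, hg, hfg⟩ := exists_eq_discriminant_mul N f.2 (fun q n hn => by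
    have := congrFun hf (q, ⟨n, hn⟩)
    exact this)
  exact ⟨⟨g, hg⟩, Subtype.ext hfg.symm⟩

theorem jets_pow_smul (a : QQ N × Fin N → ℂ) (ha : a ∈ jetsEq N) (k : ℕ) (q : QQ N) (n : Fin N) :
    a ((sT⁻¹) ^ k • q, n) = Complex.exp (2 * Real.pi * Complex.I * (n : ℕ) / N) ^ k * a (q, n) := by
  induction k with
  | zero => simp
  | succ k ih => rw [pow_succ', mul_smul, ha, ih, pow_succ']; ring

theorem jets_finrank_eq_le : finrank ℂ (jetsEq N) ≤ Fintype.card (QQ N) := by
  let L : jetsEq N →ₗ[ℂ] (QQ N → ℂ) :=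
    { toFun := fun a q => ∑ n : Fin N, (a : QQ N × Fin N → ℂ) (q, n)
      map_add' := by
        intro a b
        funext q
        simp [Finset.sum_add_distrib]
      map_smul' := by
        intro c a
        funext q
        simp [Finset.mul_sum] }
  have hL : Function.Injective L := by
    rw [← LinearMap.ker_eq_bot, LinearMap.ker_eq_bot']
    intro a ha
    apply Subtype.ext
    funext p
    obtain ⟨q, n⟩ := p
    have hN : (N : ℂ) ≠ 0 := Nat.cast_ne_zero.mpr (NeZero.ne N)
    have hprim := Complex.isPrimitiveRoot_exp N (NeZero.ne N)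
    have hinj : Function.Injective (fun n : Fin N =>
        Complex.exp (2 * Real.pi * Complex.I * (n : ℕ) / N)) := by
      intro i j hij
      have e : ∀ m : ℕ, Complex.exp (2 * Real.pi * Complex.I * (m : ℕ) / N) =
          Complex.exp (2 * Real.pi * Complex.I / N) ^ m := by
        intro m
        rw [← Complex.exp_nat_mul]
        congr 1
        ring
      simp only [e] at hij
      exact Fin.ext (hprim.pow_inj i.2 j.2 hij)
    have hv : (fun n : Fin N => (a : QQ N × Fin N → ℂ) (q, n)) = 0 := by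
      apply Matrix.eq_zero_of_forall_pow_sum_mul_pow_eq_zero hinj
      intro i
      have h1 := congrFun ha ((sT⁻¹) ^ (i : ℕ) • q)
      have h2 : ∑ n : Fin N, (a : QQ N × Fin N → ℂ) ((sT⁻¹) ^ (i : ℕ) • q, n) = 0 := h1
      rw [← h2]
      refine Finset.sum_congr rfl fun j _ => ?_
      rw [jets_pow_smul N a a.2 (i : ℕ) q j, mul_comm]
    exact congrFun hv n
  have h := LinearMap.finrank_le_finrank_of_injective hL
  rwa [Module.finrank_fintype_fun_eq_card] at h

/-- Surjectivity of the jet map (onto `T`-equivariant jets) in weights where the dimension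
jumps by the index.  (Kernel of the jet map is `Δ * MF (w - 12)`; the space of equivariant
jets has dimension `card (QQ N)` by finite Fourier inversion.) -/
theorem jets_surjective (hdim : finrank ℂ (MF (G0 N) w) =
      finrank ℂ (MF (G0 N) (w - 12)) + Fintype.card (QQ N))
    (a : QQ N → ℕ → ℂ)
    (ha : ∀ (q : QQ N) (n : ℕ),
      a (sT⁻¹ • q) n = Complex.exp (2 * Real.pi * Complex.I * n / N) * a q n) :
    ∃ f ∈ MF (G0 N) w, ∀ (q : QQ N) (n : ℕ), n < N → jet N w f q n = a q n := by
  have h1 := LinearMap.finrank_range_add_finrank_ker (jetsMap N w)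
  have h2 : finrank ℂ (LinearMap.ker (jetsMap N w)) ≤ finrank ℂ (MF (G0 N) (w - 12)) :=
    (Submodule.finrank_mono (jets_ker_le N w)).trans (LinearMap.finrank_range_le _)
  have h3 := jets_finrank_eq_le N
  have h4 : finrank ℂ (jetsEq N) ≤ finrank ℂ (LinearMap.range (jetsMap N w)) := by omega
  have h5 : LinearMap.range (jetsMap N w) = jetsEq N :=
    Submodule.eq_of_le_of_finrank_le (jets_range_le N w) h4
  have h6 : (fun p : QQ N × Fin N => a p.1 p.2) ∈ jetsEq N := fun q n => ha q n
  rw [← h5] at h6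
  obtain ⟨f, hf⟩ := h6
  refine ⟨f, f.2, fun q n hn => ?_⟩
  exact congrFun hf (q, ⟨n, hn⟩)

end Jets
end Fermat.Agent.S20
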