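import Fermat.Agent.S20.Det
import Fermat.Agent.S20.Jets

/-!
# S20 piece (H): in large weight, `dim M - dim S = number of cusps`

The constant term map `f ↦ (jet f q 0)_q` has kernel `CF` (`mem_CF_iff_jet`) and, for large
weight `12 W`, image the `T`-invariant functions on `QQ N` (`jets_surjective`, whose dimension
hypothesis follows from `FreeBasis.finrank_MF` and `FreeBasis.card_eq`).
-/

set_option autoImplicit false

namespace Fermat.Agent.S20

open UpperHalfPlane ModularForm CongruenceSubgroup SlashInvariantForm Module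
open scoped MatrixGroups Manifold

section Eis

variable {N : ℕ} [NeZero N]

/-- The level one dimension jumps by one when the (even) weight increases by `12`. -/
theorem eis_loDim_succ (v : ℤ) (h12 : 12 ≤ v) (hev : Even v) :
    loDim v = loDim (v - 12) + 1 := by
  have h2 : v % 2 = 0 := Int.even_iff.mp hev
  have hno : ¬ Odd v := by rw [Int.not_odd_iff_even]; exact hev
  have hno' : ¬ Odd (v - 12) := by rw [Int.odd_iff]; omega
  have hc : ¬ (v < 0 ∨ Odd v) := by
    rintro (h | h)
    · omega
    · exact hno h
  have hc' : ¬ (v - 12 < 0 ∨ Odd (v - 12)) := by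
    rintro (h | h)
    · omega
    · exact hno' h
  unfold loDim
  rw [if_neg hc, if_neg hc']
  split_ifs <;> omega

/-- In large even weight the dimension of `MF (G0 N)` jumps by the index when the weight
increases by `12`. -/
theorem FreeBasis.eis_finrank_MF_succ (B : FreeBasis N) (w : ℤ) (hw : ∀ i, B.k i + 12 ≤ w)
    (hev : Even w) :
    finrank ℂ (MF (G0 N) w) = finrank ℂ (MF (G0 N) (w - 12)) + Fintype.card (QQ N) := by
  rw [B.finrank_MF, B.finrank_MF, ← B.card_eq]
  have key : ∀ i, loDim (w - B.k i) = loDim (w - 12 - B.k i) + 1 := by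
    intro i
    have h := eis_loDim_succ (w - B.k i) (by linarith [hw i]) (hev.sub (B.k_even i))
    rw [h]
    congr 2
    ring
  simp only [key, Finset.sum_add_distrib, Finset.sum_const, Finset.card_univ, smul_eq_mul,
    mul_one]

/-- The constant term map (constant terms of all conjugates). -/
noncomputable def eisConst (N : ℕ) [NeZero N] (w : ℤ) : ↥(MF (G0 N) w) →ₗ[ℂ] (QQ N → ℂ) where
  toFun f q := jet N w f.1 q 0
  map_add' f g := by
    funext q
    exact jet_add N f.2 g.2 q 0
  map_smul' c f := by
    funext q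
    simpa using jet_smul N c f.2 q 0

theorem eisConst_apply (w : ℤ) (f : ↥(MF (G0 N) w)) (q : QQ N) :
    eisConst N w f q = jet N w f.1 q 0 := rfl

/-- Pull-back of functions along the projection onto the `T`-orbits. -/
noncomputable def eisPull (N : ℕ) :
    (MulAction.orbitRel.Quotient (Subgroup.zpowers sT) (QQ N) → ℂ) →ₗ[ℂ] (QQ N → ℂ) where
  toFun b q := b (Quotient.mk'' q)
  map_add' _ _ := rfl
  map_smul' _ _ := rfl

omit [NeZero N] in
theorem eisPull_apply (b : MulAction.orbitRel.Quotient (Subgroup.zpowers sT) (QQ N) → ℂ)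
    (q : QQ N) : eisPull N b q = b (Quotient.mk'' q) := rfl

omit [NeZero N] in
theorem eisPull_injective : Function.Injective (eisPull N) := by
  intro b c h
  funext x
  induction x using Quotient.inductionOn' with
  | h q => exact congrFun h q

/-- The kernel of the constant term map is the space of cusp forms. -/
theorem eis_ker_eisConst (w : ℤ) :
    LinearMap.ker (eisConst N w) = Submodule.comap (MF (G0 N) w).subtype (CF (G0 N) w) := by
  ext f
  rw [LinearMap.mem_ker, Submodule.mem_comap, Submodule.subtype_apply, mem_CF_iff_jet N f.2]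
  constructor
  · intro h q
    exact congrFun h q
  · intro h
    funext q
    exact h q

omit [NeZero N] in
/-- A function invariant under `T⁻¹` is invariant under all powers of `T`. -/
theorem eis_invariant_zpow (a : QQ N → ℂ) (ha : ∀ q, a (sT⁻¹ • q) = a q) (n : ℤ) (q : QQ N) :
    a (sT ^ n • q) = a q := by
  have ha' : ∀ q, a (sT • q) = a q := by
    intro q
    have := ha (sT • q)
    rw [inv_smul_smul] at this
    exact this.symm
  induction n using Int.induction_on generalizing q with
  | zero => simp
  | succ n ih =>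
    rw [zpow_add, zpow_one, mul_smul, ih, ha']
  | pred n ih =>
    rw [zpow_sub, zpow_one, mul_smul, ih, ha]

/-- The constant terms of a modular form are constant on `T`-orbits. -/
theorem eis_range_le (w : ℤ) : LinearMap.range (eisConst N w) ≤ LinearMap.range (eisPull N) := by
  rintro _ ⟨f, rfl⟩
  have hinv : ∀ q, eisConst N w f (sT⁻¹ • q) = eisConst N w f q := by
    intro q
    rw [eisConst_apply, eisConst_apply, jet_sT_inv_smul N f.2 q 0]
    simp
  refine ⟨Quotient.lift (eisConst N w f) ?_, ?_⟩
  · intro q q' h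
    have h' : q ∈ MulAction.orbit (Subgroup.zpowers sT) q' := h
    obtain ⟨⟨g, n, rfl⟩, rfl⟩ := h'
    exact eis_invariant_zpow _ hinv n q'
  · funext q
    rfl

/-- In weights where the dimension jumps by the index, every `T`-invariant function on the
cosets is the family of constant terms of a modular form. -/
theorem eis_le_range (w : ℤ) (hdim : finrank ℂ (MF (G0 N) w) =
      finrank ℂ (MF (G0 N) (w - 12)) + Fintype.card (QQ N)) :
    LinearMap.range (eisPull N) ≤ LinearMap.range (eisConst N w) := by
  rintro _ ⟨b, rfl⟩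
  obtain ⟨f, hf, hjet⟩ := jets_surjective N hdim
    (fun q n => if n = 0 then b (Quotient.mk'' q) else 0) (by
      intro q n
      by_cases hn : n = 0
      · subst hn
        have hq : (Quotient.mk'' (sT⁻¹ • q) :
            MulAction.orbitRel.Quotient (Subgroup.zpowers sT) (QQ N)) = Quotient.mk'' q := by
          apply Quotient.sound'
          exact ⟨⟨sT⁻¹, Subgroup.inv_mem _ (Subgroup.mem_zpowers sT)⟩, rfl⟩
        simp [hq]
      · simp [hn])
  refine ⟨⟨f, hf⟩, ?_⟩
  funext q
  rw [eisConst_apply, eisPull_apply, hjet q 0 (Nat.pos_of_ne_zero (NeZero.ne N))]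
  simp

theorem eis_finrank_range_eisPull :
    finrank ℂ (LinearMap.range (eisPull N)) = cuspsQ N := by
  rw [LinearMap.finrank_range_of_inj eisPull_injective]
  have : Fintype (MulAction.orbitRel.Quotient (Subgroup.zpowers sT) (QQ N)) :=
    Fintype.ofFinite _
  rw [Module.finrank_fintype_fun_eq_card, cuspsQ, Nat.card_eq_fintype_card]

theorem FreeBasis.finrank_MF_eq_CF_add (B : FreeBasis N) : ∃ W₀ : ℕ, ∀ W : ℕ, W₀ ≤ W →
    finrank ℂ (MF (G0 N) (12 * W)) = finrank ℂ (CF (G0 N) (12 * W)) + cuspsQ N := by
  refine ⟨(∑ i, (B.k i).toNat) + 1, fun W hW => ?_⟩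
  have hk : ∀ i, B.k i + 12 ≤ 12 * (W : ℤ) := by
    intro i
    have h1 : (B.k i).toNat ≤ ∑ j, (B.k j).toNat :=
      Finset.single_le_sum (f := fun j => (B.k j).toNat) (fun _ _ => Nat.zero_le _)
        (Finset.mem_univ i)
    have h2 : B.k i ≤ ((B.k i).toNat : ℤ) := Int.self_le_toNat _
    have h3 : ((∑ j, (B.k j).toNat : ℕ) : ℤ) + 1 ≤ (W : ℤ) := by exact_mod_cast hW
    have h4 : ((B.k i).toNat : ℤ) ≤ ((∑ j, (B.k j).toNat : ℕ) : ℤ) := by exact_mod_cast h1
    have h5 : (0 : ℤ) ≤ ((B.k i).toNat : ℤ) := Int.natCast_nonneg _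
    linarith
  have hev : Even (12 * (W : ℤ)) := by
    exact Even.mul_right (by decide) _
  have hdim := B.eis_finrank_MF_succ (12 * (W : ℤ)) hk hev
  have hrange : LinearMap.range (eisConst N (12 * (W : ℤ))) = LinearMap.range (eisPull N) :=
    le_antisymm (eis_range_le _) (eis_le_range _ hdim)
  have hrk := LinearMap.finrank_range_add_finrank_ker (eisConst N (12 * (W : ℤ)))
  rw [hrange, eis_finrank_range_eisPull, eis_ker_eisConst,
    (Submodule.comapSubtypeEquivOfLe (CF_le_MF (Γ := G0 N) (w := 12 * (W : ℤ)))).finrank_eq]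
    at hrk
  omega

end Eis

end Fermat.Agent.S20
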