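import Fermat.Agent.S20.Defs

/-!
# S20 piece (E), core: class counts of the weights of a free basis at the elliptic points
(explicit-hypothesis versions; the skeleton statements are in `Elliptic.lean`)

For a free basis `B` of the forms of level `Γ₀(N)` over the level one forms whose evaluation
vectors `q ↦ (F_i ∣ γ_q⁻¹)(z₀)` are linearly independent at a fixed point `z₀` of
`γ ∈ SL(2, ℤ)`, the permutation operator of `γ` on `ℂ^(QQ N)` is diagonal in the basis of
evaluation vectors, with eigenvalues `denom γ z₀ ^ (-k_i)`.  Comparing traces at `z₀ = i`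
(`γ = S`) and at a fixed point of `S * T` gives the class counts of the weights modulo `4`
and modulo `6`.
-/

set_option autoImplicit false

namespace Fermat.Agent.S20

open UpperHalfPlane ModularForm CongruenceSubgroup SlashInvariantForm
open scoped MatrixGroups Manifold

open Fermat.Agent.S23 (slMem)

/-! ### Conjugates and the slash action -/

theorem ell_slash_eq_of_mem {N : ℕ} {w : ℤ} {f : ℍ → ℂ} (hf : f ∈ MF (G0 N) w)
    {g : GL (Fin 2) ℝ} (hg : g ∈ G0 N) : f ∣[w] g = f := by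
  obtain ⟨F, rfl⟩ := hf
  exact SlashInvariantFormClass.slash_action_eq F g hg

theorem ell_cj_mk {N : ℕ} {w : ℤ} {f : ℍ → ℂ} (hf : f ∈ MF (G0 N) w) (h : 𝒮ℒ) :
    cj N w f (QuotientGroup.mk h) = f ∣[w] (h : GL (Fin 2) ℝ)⁻¹ := by
  obtain ⟨g, hg⟩ := QuotientGroup.mk_out_eq_mul ((G0 N).subgroupOf 𝒮ℒ) h
  have hg' : ((g : 𝒮ℒ) : GL (Fin 2) ℝ)⁻¹ ∈ G0 N := inv_mem (Subgroup.mem_subgroupOf.mp g.2)
  have h1 : cj N w f (QuotientGroup.mk h) =
      f ∣[w] (((QuotientGroup.mk h : QQ N).out : 𝒮ℒ) : GL (Fin 2) ℝ)⁻¹ := rfl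
  rw [h1, hg]
  have h2 : (((h * (g : 𝒮ℒ) : 𝒮ℒ) : GL (Fin 2) ℝ))⁻¹ =
      ((g : 𝒮ℒ) : GL (Fin 2) ℝ)⁻¹ * (h : GL (Fin 2) ℝ)⁻¹ := by
    rw [Subgroup.coe_mul, mul_inv_rev]
  rw [h2, SlashAction.slash_mul, ell_slash_eq_of_mem hf hg']

theorem ell_cj_slash {N : ℕ} {w : ℤ} {f : ℍ → ℂ} (hf : f ∈ MF (G0 N) w) (s : 𝒮ℒ) (q : QQ N) :
    cj N w f q ∣[w] (s : GL (Fin 2) ℝ) = cj N w f (s⁻¹ • q) := by
  obtain ⟨h, rfl⟩ := QuotientGroup.mk_surjective q
  have h1 : s⁻¹ • (QuotientGroup.mk h : QQ N) = QuotientGroup.mk (s⁻¹ * h) := rfl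
  rw [h1, ell_cj_mk hf, ell_cj_mk hf, ← SlashAction.slash_mul]
  congr 1

/-- The value of a conjugate at a fixed point of `γ`. -/
theorem ell_cj_fixed {N : ℕ} {w : ℤ} {f : ℍ → ℂ} (hf : f ∈ MF (G0 N) w) (γ : SL(2, ℤ))
    (z₀ : ℍ) (hz₀ : γ • z₀ = z₀) (q : QQ N) :
    cj N w f ((slMem γ)⁻¹ • q) z₀ = denom γ z₀ ^ (-w) * cj N w f q z₀ := by
  rw [← ell_cj_slash hf (slMem γ) q]
  have h1 : cj N w f q ∣[w] ((slMem γ : 𝒮ℒ) : GL (Fin 2) ℝ) = cj N w f q ∣[w] γ := rfl
  rw [h1, SL_slash_apply, hz₀, mul_comm]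

/-! ### Traces -/

theorem ell_trace_funLeft {X : Type*} [Fintype X] [DecidableEq X] (σ : X → X) :
    LinearMap.trace ℂ (X → ℂ) (LinearMap.funLeft ℂ ℂ σ) =
      (Fintype.card {x : X // σ x = x} : ℂ) := by
  rw [LinearMap.trace_eq_matrix_trace ℂ (Pi.basisFun ℂ X), Matrix.trace,
    Fintype.card_subtype, Finset.card_filter]
  push_cast
  refine Finset.sum_congr rfl fun x _ => ?_
  rw [Matrix.diag_apply, LinearMap.toMatrix_apply, Pi.basisFun_apply, Pi.basisFun_repr,
    LinearMap.funLeft_apply, Pi.single_apply]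

theorem ell_trace_eigenbasis {V ι : Type*} [AddCommGroup V] [Module ℂ V] [Fintype ι]
    [DecidableEq ι] (b : Module.Basis ι ℂ V) (P : V →ₗ[ℂ] V) (c : ι → ℂ)
    (h : ∀ i, P (b i) = c i • b i) : LinearMap.trace ℂ V P = ∑ i, c i := by
  rw [LinearMap.trace_eq_matrix_trace ℂ b, Matrix.trace]
  refine Finset.sum_congr rfl fun i _ => ?_
  rw [Matrix.diag_apply, LinearMap.toMatrix_apply, h i, map_smul, Module.Basis.repr_self]
  simp

/-- The trace identity at a fixed point `z₀` of `γ`. -/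
theorem ell_trace_identity (N : ℕ) [NeZero N] (B : FreeBasis N) (γ : SL(2, ℤ)) (z₀ : ℍ)
    (hz₀ : γ • z₀ = z₀)
    (hli : LinearIndependent ℂ (fun i : B.ι => fun q : QQ N => cj N (B.k i) (B.F i) q z₀))
    (hcard : Fintype.card B.ι = Nat.card (QQ N)) :
    ∑ i : B.ι, denom γ z₀ ^ (-B.k i) = (Nat.card {q : QQ N // (slMem γ)⁻¹ • q = q} : ℂ) := by
  classical
  have hcard' : Fintype.card B.ι = Module.finrank ℂ (QQ N → ℂ) := by
    rw [hcard, Module.finrank_fintype_fun_eq_card, Nat.card_eq_fintype_card]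
  have hne : Nonempty B.ι := by
    have h0 : 0 < Fintype.card B.ι := by
      rw [hcard, Nat.card_eq_fintype_card]
      exact Fintype.card_pos
    exact Fintype.card_pos_iff.mp h0
  let b := basisOfLinearIndependentOfCardEqFinrank hli hcard'
  have hb : ∀ i, b i = fun q : QQ N => cj N (B.k i) (B.F i) q z₀ := fun i => by
    rw [coe_basisOfLinearIndependentOfCardEqFinrank]
  have key := ell_trace_eigenbasis b
    (LinearMap.funLeft ℂ ℂ (fun q : QQ N => (slMem γ)⁻¹ • q))
    (fun i => denom γ z₀ ^ (-B.k i)) (fun i => by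
      rw [hb i]
      funext q
      rw [LinearMap.funLeft_apply, Pi.smul_apply, smul_eq_mul]
      exact ell_cj_fixed (B.mem i) γ z₀ hz₀ q)
  rw [← key, ell_trace_funLeft, Nat.card_eq_fintype_card]

/-! ### Parity of the weights -/

theorem ell_neg_one_mem (N : ℕ) : (-1 : GL (Fin 2) ℝ) ∈ G0 N := by
  refine ⟨-1, ?_, by ext; simp⟩
  rw [SetLike.mem_coe, Gamma0_mem]
  simp

theorem ell_cj_zero (N : ℕ) (w : ℤ) (q : QQ N) : cj N w 0 q = 0 := by
  unfold cj
  exact SlashAction.zero_slash _ _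

theorem ell_even (N : ℕ) [NeZero N] (B : FreeBasis N) (z₀ : ℍ)
    (hli : LinearIndependent ℂ (fun i : B.ι => fun q : QQ N => cj N (B.k i) (B.F i) q z₀))
    (i : B.ι) : Even (B.k i) := by
  by_contra hodd
  rw [Int.not_even_iff_odd] at hodd
  obtain ⟨F, hF⟩ := B.mem i
  have hF0 : F = 0 := ModularForm.eq_zero_of_neg_one_mem (ell_neg_one_mem N) hodd F
  have h0 : B.F i = 0 := by
    rw [← hF, hF0]
    rfl
  apply hli.ne_zero i
  funext q
  show cj N (B.k i) (B.F i) q z₀ = 0
  rw [h0, ell_cj_zero]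
  rfl

/-! ### The count at `i` -/

theorem ell_I_zpow (k : ℤ) (hk : Even k) :
    (Complex.I) ^ (-k) = if (4 : ℤ) ∣ k then 1 else -1 := by
  obtain ⟨m, rfl⟩ := hk
  have h1 : (Complex.I) ^ (-(m + m)) = ((-1 : ℂ) ^ m)⁻¹ := by
    rw [zpow_neg, ← two_mul, zpow_mul, zpow_ofNat, Complex.I_sq]
  rw [h1]
  rcases Int.even_or_odd m with hm | hm
  · have h4 : (4 : ℤ) ∣ m + m := by
      obtain ⟨r, rfl⟩ := hm
      exact ⟨r, by ring⟩
    rw [if_pos h4, hm.neg_one_zpow, inv_one]
  · have h4 : ¬ (4 : ℤ) ∣ m + m := by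
      obtain ⟨r, rfl⟩ := hm
      omega
    rw [if_neg h4, hm.neg_one_zpow]
    norm_num

/-- Class count modulo `4` from the fixed point `i` of `S`. -/
theorem elliptic_count_S (N : ℕ) [NeZero N] (B : FreeBasis N)
    (hli : LinearIndependent ℂ
      (fun i : B.ι => fun q : QQ N => cj N (B.k i) (B.F i) q UpperHalfPlane.I))
    (hcard : Fintype.card B.ι = Nat.card (QQ N)) :
    2 * Fintype.card {i : B.ι // (4 : ℤ) ∣ B.k i} = Nat.card (QQ N) + fixS N := by
  classical
  have hfix : ModularGroup.S • UpperHalfPlane.I = UpperHalfPlane.I := by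
    apply UpperHalfPlane.ext
    rw [UpperHalfPlane.modular_S_smul]
    simp
  have key := ell_trace_identity N B ModularGroup.S UpperHalfPlane.I hfix hli hcard
  have hden : denom ModularGroup.S UpperHalfPlane.I = Complex.I := by
    rw [ModularGroup.denom_S]
    rfl
  have hfixS : Nat.card {q : QQ N // (slMem ModularGroup.S)⁻¹ • q = q} = fixS N := by
    unfold fixS sS
    exact Nat.card_congr (Equiv.subtypeEquivRight (fun q => inv_smul_eq_iff.trans eq_comm))
  rw [hfixS, hden] at key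
  have hterm : ∀ i : B.ι, (Complex.I) ^ (-B.k i) =
      2 * (if (4 : ℤ) ∣ B.k i then (1 : ℂ) else 0) - 1 := by
    intro i
    rw [ell_I_zpow _ (ell_even N B _ hli i)]
    split_ifs <;> norm_num
  rw [Finset.sum_congr rfl (fun i _ => hterm i), Finset.sum_sub_distrib, ← Finset.mul_sum,
    Finset.sum_boole, Finset.sum_const, Finset.card_univ, hcard, nsmul_eq_mul, mul_one] at key
  rw [Fintype.card_subtype]
  have key' : (2 * ((Finset.univ.filter (fun i : B.ι => (4 : ℤ) ∣ B.k i)).card : ℂ)) =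
      ((Nat.card (QQ N) + fixS N : ℕ) : ℂ) := by
    push_cast
    linear_combination key
  exact_mod_cast key'

/-! ### The count at a fixed point of `S * T` -/

theorem ell_omega_zpow (ω : ℂ) (hω : ω ^ 2 - ω + 1 = 0) (k : ℤ) (hk : Even k) :
    ω ^ (-k) = if k % 6 = 0 then 1 else if k % 6 = 2 then -ω else ω - 1 := by
  have hω0 : ω ≠ 0 := by
    rintro rfl
    norm_num at hω
  have h3 : ω ^ 3 = -1 := by linear_combination (ω + 1) * hω
  have h6 : ω ^ (6 : ℤ) = 1 := by
    have h : ω ^ (6 : ℕ) = 1 := by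
      have : ω ^ 6 = (ω ^ 3) ^ 2 := by ring
      rw [this, h3]
      norm_num
    exact_mod_cast h
  have hk6 : k = 6 * (k / 6) + k % 6 := (Int.mul_ediv_add_emod k 6).symm
  have hred : ω ^ (-k) = ω ^ (-(k % 6)) := by
    conv_lhs => rw [hk6]
    rw [neg_add, zpow_add₀ hω0, ← mul_neg, zpow_mul, h6, one_zpow, one_mul]
  rw [hred]
  have hcases : k % 6 = 0 ∨ k % 6 = 2 ∨ k % 6 = 4 := by
    obtain ⟨m, rfl⟩ := hk
    omega
  rcases hcases with h | h | h
  · rw [h, if_pos rfl]
    simp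
  · rw [h, if_neg (by norm_num), if_pos rfl, zpow_neg]
    apply inv_eq_of_mul_eq_one_right
    have : ω ^ (2 : ℤ) = ω ^ 2 := by norm_cast
    rw [this]
    linear_combination (-1 : ℂ) * h3
  · rw [h, if_neg (by norm_num), if_neg (by norm_num), zpow_neg]
    apply inv_eq_of_mul_eq_one_right
    have : ω ^ (4 : ℤ) = ω ^ 4 := by norm_cast
    rw [this]
    linear_combination (ω ^ 2 - ω) * h3 - hω

theorem ell_omega_im_ne_zero (ω : ℂ) (hω : ω ^ 2 - ω + 1 = 0) : ω.im ≠ 0 := by
  intro h0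
  have hre : ω = (ω.re : ℂ) := by
    apply Complex.ext
    · simp
    · simp [h0]
  rw [hre] at hω
  have h1 : ω.re ^ 2 - ω.re + 1 = 0 := by exact_mod_cast hω
  nlinarith [sq_nonneg (ω.re - 1 / 2)]

/-- Class count modulo `6` from a fixed point of `S * T`. -/
theorem elliptic_count_U (N : ℕ) [NeZero N] (B : FreeBasis N) (z₀ : ℍ)
    (hz₀ : (ModularGroup.S * ModularGroup.T) • z₀ = z₀)
    (hli : LinearIndependent ℂ (fun i : B.ι => fun q : QQ N => cj N (B.k i) (B.F i) q z₀))
    (hcard : Fintype.card B.ι = Nat.card (QQ N)) :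
    3 * Fintype.card {i : B.ι // (6 : ℤ) ∣ B.k i} = Nat.card (QQ N) + 2 * fixU N := by
  classical
  have key := ell_trace_identity N B (ModularGroup.S * ModularGroup.T) z₀ hz₀ hli hcard
  have hden : denom ((ModularGroup.S * ModularGroup.T : SL(2, ℤ)) : GL (Fin 2) ℝ) z₀ =
      (z₀ : ℂ) + 1 := by
    rw [ModularGroup.denom_apply]
    simp [ModularGroup.S, ModularGroup.T]
  have hz : (z₀ : ℂ) * ((z₀ : ℂ) + 1) = -1 := by
    have h1 := congrArg (fun z : ℍ => (z : ℂ)) hz₀
    simp only [mul_smul, UpperHalfPlane.modular_S_smul, UpperHalfPlane.modular_T_smul] at h1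
    have h2 : (-(1 + (z₀ : ℂ)))⁻¹ = (z₀ : ℂ) := by simpa using h1
    have hne : (1 + (z₀ : ℂ)) ≠ 0 := by
      intro h0
      rw [h0] at h2
      simp at h2
      exact UpperHalfPlane.ne_zero z₀ h2.symm
    have h3 : (z₀ : ℂ) * (-(1 + (z₀ : ℂ))) = 1 := by
      have h4 := inv_mul_cancel₀ (neg_ne_zero.mpr hne)
      rwa [h2] at h4
    linear_combination (-1 : ℂ) * h3
  have hω : ((z₀ : ℂ) + 1) ^ 2 - ((z₀ : ℂ) + 1) + 1 = 0 := by linear_combination hz
  have hfixU : Nat.card {q : QQ N // (slMem (ModularGroup.S * ModularGroup.T))⁻¹ • q = q} =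
      fixU N := by
    unfold fixU sU
    exact Nat.card_congr (Equiv.subtypeEquivRight (fun q => inv_smul_eq_iff.trans eq_comm))
  rw [hfixU, hden] at key
  set ω : ℂ := (z₀ : ℂ) + 1 with hωdef
  have hterm : ∀ i : B.ι, ω ^ (-B.k i) =
      (if B.k i % 6 = 0 then (1 : ℂ) else 0) + (if B.k i % 6 = 2 then (1 : ℂ) else 0) * (-ω) +
        (if B.k i % 6 = 4 then (1 : ℂ) else 0) * (ω - 1) := by
    intro i
    have hev := ell_even N B _ hli i
    rw [ell_omega_zpow ω hω _ hev]
    have hcases : B.k i % 6 = 0 ∨ B.k i % 6 = 2 ∨ B.k i % 6 = 4 := by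
      obtain ⟨m, hm⟩ := hev
      omega
    rcases hcases with h | h | h <;> rw [h] <;> norm_num
  have hone : ∀ i : B.ι, (1 : ℂ) =
      (if B.k i % 6 = 0 then (1 : ℂ) else 0) + (if B.k i % 6 = 2 then (1 : ℂ) else 0) +
        (if B.k i % 6 = 4 then (1 : ℂ) else 0) := by
    intro i
    have hev := ell_even N B _ hli i
    have hcases : B.k i % 6 = 0 ∨ B.k i % 6 = 2 ∨ B.k i % 6 = 4 := by
      obtain ⟨m, hm⟩ := hev
      omega
    rcases hcases with h | h | h <;> rw [h] <;> norm_num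
  have hsum1 : ∑ _i : B.ι, (1 : ℂ) = (Nat.card (QQ N) : ℂ) := by
    rw [Finset.sum_const, Finset.card_univ, hcard, nsmul_eq_mul, mul_one]
  rw [Finset.sum_congr rfl (fun i _ => hterm i), Finset.sum_add_distrib, Finset.sum_add_distrib,
    ← Finset.sum_mul, ← Finset.sum_mul, Finset.sum_boole, Finset.sum_boole, Finset.sum_boole]
    at key
  rw [Finset.sum_congr rfl (fun i _ => hone i), Finset.sum_add_distrib, Finset.sum_add_distrib,
    Finset.sum_boole, Finset.sum_boole, Finset.sum_boole] at hsum1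
  set a := (Finset.univ.filter (fun i : B.ι => B.k i % 6 = 0)).card with ha
  set b := (Finset.univ.filter (fun i : B.ι => B.k i % 6 = 2)).card with hb
  set c := (Finset.univ.filter (fun i : B.ι => B.k i % 6 = 4)).card with hc
  -- imaginary and real parts
  have him := congrArg Complex.im key
  have hre := congrArg Complex.re key
  simp only [Complex.add_im, Complex.mul_im, Complex.natCast_im, Complex.natCast_re,
    Complex.neg_im, Complex.neg_re, Complex.sub_im, Complex.sub_re, Complex.one_im,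
    Complex.one_re, Complex.add_re, Complex.mul_re, zero_mul, sub_zero, add_zero, zero_add]
    at him hre
  have hωim := ell_omega_im_ne_zero ω hω
  have hbc : (c : ℝ) = (b : ℝ) := by
    have h1 : ((c : ℝ) - (b : ℝ)) * ω.im = 0 := by linarith
    rcases mul_eq_zero.mp h1 with h | h
    · linarith
    · exact absurd h hωim
  have hac : (a : ℝ) - (c : ℝ) = (fixU N : ℝ) := by
    rw [hbc] at hre ⊢
    linarith
  have hsum : (a : ℝ) + (b : ℝ) + (c : ℝ) = (Nat.card (QQ N) : ℝ) := by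
    exact_mod_cast hsum1
  have hfinal : (3 * (a : ℝ)) = ((Nat.card (QQ N) + 2 * fixU N : ℕ) : ℝ) := by
    push_cast
    linarith
  have hfilter : Fintype.card {i : B.ι // (6 : ℤ) ∣ B.k i} = a := by
    rw [Fintype.card_subtype, ha]
    congr 1
    ext i
    simp only [Finset.mem_filter, Finset.mem_univ, true_and]
    exact Int.dvd_iff_emod_eq_zero
  rw [hfilter]
  exact_mod_cast hfinal

/-! ### The counts in the form used by the final assembly -/

/-- `2 * #{i | k_i ≡ 2 mod 4} + fixS N = |QQ N|`. -/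
theorem ell_card_mod_four (N : ℕ) [NeZero N] (B : FreeBasis N)
    (hli : LinearIndependent ℂ
      (fun i : B.ι => fun q : QQ N => cj N (B.k i) (B.F i) q UpperHalfPlane.I))
    (hcard : Fintype.card B.ι = Fintype.card (QQ N)) :
    2 * (Finset.univ.filter (fun i => B.k i % 4 = 2)).card + fixS N = Fintype.card (QQ N) := by
  have hcard' : Fintype.card B.ι = Nat.card (QQ N) := by
    rw [hcard, Nat.card_eq_fintype_card]
  have h1 := elliptic_count_S N B hli hcard'
  rw [Fintype.card_subtype, Nat.card_eq_fintype_card] at h1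
  have hsplit : (Finset.univ.filter (fun i : B.ι => (4 : ℤ) ∣ B.k i)).card +
      (Finset.univ.filter (fun i : B.ι => B.k i % 4 = 2)).card = Fintype.card B.ι := by
    classical
    rw [← Finset.card_univ (α := B.ι), ← Finset.card_union_of_disjoint]
    · congr 1
      ext i
      simp only [Finset.mem_union, Finset.mem_filter, Finset.mem_univ, true_and, iff_true]
      obtain ⟨m, hm⟩ := ell_even N B _ hli i
      omega
    · rw [Finset.disjoint_filter]
      intro i _ h4 h2
      omega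
  omega

/-- `3 * #{i | k_i ≡ 0 mod 6} = |QQ N| + 2 * fixU N`. -/
theorem ell_card_mod_six (N : ℕ) [NeZero N] (B : FreeBasis N) (z₀ : ℍ)
    (hz₀ : (ModularGroup.S * ModularGroup.T) • z₀ = z₀)
    (hli : LinearIndependent ℂ (fun i : B.ι => fun q : QQ N => cj N (B.k i) (B.F i) q z₀))
    (hcard : Fintype.card B.ι = Fintype.card (QQ N)) :
    3 * (Finset.univ.filter (fun i => B.k i % 6 = 0)).card =
      Fintype.card (QQ N) + 2 * fixU N := by
  have hcard' : Fintype.card B.ι = Nat.card (QQ N) := by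
    rw [hcard, Nat.card_eq_fintype_card]
  have h1 := elliptic_count_U N B z₀ hz₀ hli hcard'
  rw [Fintype.card_subtype, Nat.card_eq_fintype_card] at h1
  rw [← h1]
  congr 2
  ext i
  simp only [Finset.mem_filter, Finset.mem_univ, true_and]
  exact Int.dvd_iff_emod_eq_zero.symm

end Fermat.Agent.S20
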