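import Fermat.Agent.S20.Det
import Fermat.Agent.S20.EllipticCore
import Fermat.Agent.S24.JOrder

/-!
# S20 piece (E): evaluation at the elliptic points `i` and `ρ`

`Φ(z)_{q,i} = cj (F i) q z` is an invertible square matrix (Det).  At `z = i`:
`Φ(i)_{S⁻¹ q, j} = i^{-k_j} Φ(i)_{q, j}`, so the permutation matrix of `S` on `QQ N` is similar to
`diag (i^{-k_j})`; compare traces.  Same at `ρ` with `S * T` and the sixth root of unity `ρ + 1`.
(The proofs are in `EllipticCore.lean`.)
-/

set_option autoImplicit false

namespace Fermat.Agent.S20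

open UpperHalfPlane ModularForm CongruenceSubgroup SlashInvariantForm Module
open scoped MatrixGroups Manifold

section Elliptic

variable {N : ℕ} [NeZero N]

theorem FreeBasis.card_mod_four (B : FreeBasis N) :
    2 * (Finset.univ.filter (fun i => B.k i % 4 = 2)).card + fixS N = Fintype.card (QQ N) :=
  ell_card_mod_four N B (B.linearIndependent_eval UpperHalfPlane.I) B.card_eq

theorem FreeBasis.card_mod_six (B : FreeBasis N) :
    3 * (Finset.univ.filter (fun i => B.k i % 6 = 0)).card = Fintype.card (QQ N) + 2 * fixU N :=
  ell_card_mod_six N B Fermat.Agent.S24.rhoPt Fermat.Agent.S24.jord_ST_smul_rho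
    (B.linearIndependent_eval _) B.card_eq

end Elliptic

end Fermat.Agent.S20
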