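import Fermat.Agent.S20.LoDim
import Fermat.Agent.S20.Elliptic
import Fermat.Agent.S20.DualRank
import Fermat.Agent.S20.Eis
import Fermat.Agent.S20.Bridge

/-!
# S20 piece (J): the final count

With a free basis `F i` of weights `k i` of the forms of level `Γ₀(N)` over the level one forms:
`k i ∈ {0, 2, …, 10}`, `dim S₂ = #{k i = 10}`, and the counts of the `k i` modulo `4` and `6`
and the number of cusps give the genus formula.
-/

set_option autoImplicit false

namespace Fermat.Agent.S20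

open UpperHalfPlane ModularForm CongruenceSubgroup SlashInvariantForm Module
open scoped MatrixGroups Manifold

section Main

variable {N : ℕ} [NeZero N]

theorem FreeBasis.k_le_ten (B : FreeBasis N) (i : B.ι) : B.k i ≤ 10 := by
  by_contra hcon
  have hk : 12 ≤ B.k i := by
    obtain ⟨m, hm⟩ := B.k_even i
    omega
  have h1 := B.finrank_CF (12 - B.k i)
  rw [CF_eq_bot_of_nonpos N (by omega), finrank_bot] at h1
  have h2 : loDim (12 - B.k i + B.k i - 12) = 0 :=
    Finset.sum_eq_zero_iff.mp h1.symm i (Finset.mem_univ i)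
  have h3 : (12 - B.k i + B.k i - 12) = 0 := by ring
  rw [h3] at h2
  exact absurd h2 (by decide)

theorem FreeBasis.k_cases (B : FreeBasis N) (i : B.ι) :
    B.k i = 0 ∨ B.k i = 2 ∨ B.k i = 4 ∨ B.k i = 6 ∨ B.k i = 8 ∨ B.k i = 10 := by
  have h1 := B.k_nonneg i
  have h2 := B.k_le_ten i
  obtain ⟨m, hm⟩ := B.k_even i
  omega

/-- number of generators of weight `j`, as a rational number -/
noncomputable def FreeBasis.cnt (B : FreeBasis N) (j : ℤ) : ℚ :=
  ∑ i : B.ι, if B.k i = j then 1 else 0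

theorem FreeBasis.cnt_zero (B : FreeBasis N) : B.cnt 0 = 1 := by
  have h1 := B.finrank_MF 0
  rw [finrank_MF_zero N] at h1
  have h2 : ∀ i : B.ι, (loDim (0 - B.k i) : ℚ) = if B.k i = 0 then 1 else 0 := by
    intro i
    rcases B.k_cases i with h | h | h | h | h | h <;> rw [h] <;> norm_num [loDim_of_neg, loDim_vals.1]
  have h3 : ((1 : ℕ) : ℚ) = ∑ i : B.ι, (loDim (0 - B.k i) : ℚ) := by
    rw [h1]; push_cast; rfl
  rw [FreeBasis.cnt, ← Finset.sum_congr rfl (fun i _ => h2 i), ← h3]; norm_num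

theorem FreeBasis.finrank_CF_two (B : FreeBasis N) : (finrank ℂ (CF (G0 N) 2) : ℚ) = B.cnt 10 := by
  have h1 := B.finrank_CF 2
  have h2 : ∀ i : B.ι, (loDim (2 + B.k i - 12) : ℚ) = if B.k i = 10 then 1 else 0 := by
    intro i
    rcases B.k_cases i with h | h | h | h | h | h <;> rw [h] <;> norm_num [loDim_of_neg, loDim_vals.1]
  rw [h1, FreeBasis.cnt, ← Finset.sum_congr rfl (fun i _ => h2 i)]; push_cast; rfl

theorem FreeBasis.cnt_cusps (B : FreeBasis N) : B.cnt 0 + B.cnt 2 - B.cnt 10 = cuspsQ N := by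
  obtain ⟨W₀, hW₀⟩ := B.finrank_MF_eq_CF_add
  obtain ⟨W, hW⟩ : ∃ W : ℕ, W₀ ≤ W + 1 := ⟨W₀, by omega⟩
  have h := hW₀ (W + 1) hW
  rw [B.finrank_MF, B.finrank_CF] at h
  have h2 : ∀ i : B.ι, (loDim (12 * ((W + 1 : ℕ) : ℤ) - B.k i) : ℚ)
      - loDim (12 * ((W + 1 : ℕ) : ℤ) + B.k i - 12) =
      (if B.k i = 0 then 1 else 0) + (if B.k i = 2 then 1 else 0) - (if B.k i = 10 then 1 else 0) := by
    intro i
    have e1 : 12 * ((W + 1 : ℕ) : ℤ) - B.k i = 12 * (W : ℤ) + (12 - B.k i) := by push_cast; ring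
    have e2 : 12 * ((W + 1 : ℕ) : ℤ) + B.k i - 12 = 12 * (W : ℤ) + B.k i := by push_cast; ring
    rw [e1, e2]
    obtain ⟨v0, v2, v4, v6, v8, v10, v12⟩ := loDim_vals
    rcases B.k_cases i with h | h | h | h | h | h <;> rw [h] <;>
    rw [loDim_twelve_mul_add W _ (by norm_num) (by decide),
      loDim_twelve_mul_add W _ (by norm_num) (by decide)] <;>
    norm_num [v0, v2, v4, v6, v8, v10, v12]
  have h3 : ((∑ i : B.ι, loDim (12 * ((W + 1 : ℕ) : ℤ) - B.k i) : ℕ) : ℚ) =
      ((∑ i : B.ι, loDim (12 * ((W + 1 : ℕ) : ℤ) + B.k i - 12) : ℕ) : ℚ) + cuspsQ N := by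
    rw [h]; push_cast; rfl
  push_cast at h3
  have h4 : (cuspsQ N : ℚ) = ∑ i : B.ι, ((loDim (12 * ((W + 1 : ℕ) : ℤ) - B.k i) : ℚ)
      - loDim (12 * ((W + 1 : ℕ) : ℤ) + B.k i - 12)) := by
    rw [Finset.sum_sub_distrib]; push_cast at h3 ⊢; linarith
  rw [h4, Finset.sum_congr rfl (fun i _ => h2 i), Finset.sum_sub_distrib, Finset.sum_add_distrib]
  rfl

theorem FreeBasis.cnt_four (B : FreeBasis N) :
    2 * (B.cnt 2 + B.cnt 6 + B.cnt 10) + fixS N = Fintype.card (QQ N) := by
  have h := B.card_mod_four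
  have h2 : ((Finset.univ.filter (fun i => B.k i % 4 = 2)).card : ℚ) =
      B.cnt 2 + B.cnt 6 + B.cnt 10 := by
    rw [Finset.card_filter]
    simp only [FreeBasis.cnt, ← Finset.sum_add_distrib]
    push_cast
    refine Finset.sum_congr rfl fun i _ => ?_
    rcases B.k_cases i with h | h | h | h | h | h <;> rw [h] <;> norm_num
  rw [← h2, ← h]; push_cast; ring

theorem FreeBasis.cnt_six (B : FreeBasis N) :
    3 * (B.cnt 0 + B.cnt 6) = Fintype.card (QQ N) + 2 * fixU N := by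
  have h := B.card_mod_six
  have h2 : ((Finset.univ.filter (fun i => B.k i % 6 = 0)).card : ℚ) = B.cnt 0 + B.cnt 6 := by
    rw [Finset.card_filter]
    simp only [FreeBasis.cnt, ← Finset.sum_add_distrib]
    push_cast
    refine Finset.sum_congr rfl fun i _ => ?_
    rcases B.k_cases i with h | h | h | h | h | h <;> rw [h] <;> norm_num
  have h3 : (3 : ℚ) * ((Finset.univ.filter (fun i => B.k i % 6 = 0)).card : ℚ) =
      Fintype.card (QQ N) + 2 * fixU N := by exact_mod_cast h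
  rw [← h2, h3]

end Main

/-- **Dimension of `S₂(Γ₀(N))`** (function-space version). -/
theorem finrank_CF_two (N : ℕ) [NeZero N] :
    (finrank ℂ (CF (G0 N) 2) : ℚ) = ModularCurve.genusFormula N := by
  obtain ⟨B⟩ := exists_freeBasis N
  have h0 := B.cnt_zero
  have h1 := B.finrank_CF_two
  have h2 := B.cnt_cusps
  have h3 := B.cnt_four
  have h4 := B.cnt_six
  rw [h1, ModularCurve.genusFormula, ← card_QQ N, ← fixS_eq N, ← fixU_eq N, ← cuspsQ_eq N,
    Nat.card_eq_fintype_card]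
  linarith

/-- **Dimension of `S₂(Γ₀(N))`**. -/
theorem finrank_cuspForm_two (N : ℕ) [NeZero N] :
    (finrank ℂ (CuspForm (CongruenceSubgroup.Gamma0 N) 2) : ℚ) = ModularCurve.genusFormula N := by
  rw [← finrank_CF_two N, finrank_CF_eq_finrank]

end Fermat.Agent.S20
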