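import Mathlib
import Fermat.Prelude.Def_ModularCurve_GenusNumerics
import Fermat.Agent.S23.Esymm

/-!
# S20 (dimension of `S₂(Γ₀(N))`): common definitions

Function-level set-up for the free-module proof of the genus formula.

* `MF Γ w`, `CF Γ w` : the `ℂ`-subspaces of `ℍ → ℂ` of (functions of) modular / cusp forms.
* `QQ N` : the coset space `SL(2, ℤ) / Γ₀(N)` (inside `GL(2, ℝ)`), with `Fintype` instance.
* `cj N w f q` : the conjugate `f ∣[w] γ_q⁻¹` of `f` along the coset `q`.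
* `trP N w f` : the trace `∑ q, cj N w f q`.
* `jet N w f q n` : `n`-th coefficient of the `q_N`-expansion (period `N`) of `cj N w f q`.
* `sS, sT, sU` : the elements `S`, `T`, `S * T` of `𝒮ℒ`; `fixS`, `fixU`, `cuspsQ` the numbers of
  fixed points of `S`, `S * T` and of `T`-orbits on `QQ N`.
* `loDim v` : the dimension of the space of level one forms of weight `v`.
-/

set_option autoImplicit false

namespace Fermat.Agent.S20

open UpperHalfPlane ModularForm CongruenceSubgroup SlashInvariantForm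
open scoped MatrixGroups Manifold

/-- Coercion of modular forms to functions, as a linear map. -/
noncomputable def mfCoe (Γ : Subgroup (GL (Fin 2) ℝ)) [Γ.HasDetOne] (w : ℤ) :
    ModularForm Γ w →ₗ[ℂ] (ℍ → ℂ) where
  toFun f := ⇑f
  map_add' _ _ := rfl
  map_smul' _ _ := rfl

/-- Coercion of cusp forms to functions, as a linear map. -/
noncomputable def cfCoe (Γ : Subgroup (GL (Fin 2) ℝ)) [Γ.HasDetOne] (w : ℤ) :
    CuspForm Γ w →ₗ[ℂ] (ℍ → ℂ) where
  toFun f := ⇑f
  map_add' _ _ := rfl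
  map_smul' _ _ := rfl

/-- The space of (functions of) modular forms of weight `w` and level `Γ`. -/
noncomputable def MF (Γ : Subgroup (GL (Fin 2) ℝ)) [Γ.HasDetOne] (w : ℤ) : Submodule ℂ (ℍ → ℂ) :=
  LinearMap.range (mfCoe Γ w)

/-- The space of (functions of) cusp forms of weight `w` and level `Γ`. -/
noncomputable def CF (Γ : Subgroup (GL (Fin 2) ℝ)) [Γ.HasDetOne] (w : ℤ) : Submodule ℂ (ℍ → ℂ) :=
  LinearMap.range (cfCoe Γ w)

theorem mem_MF {Γ : Subgroup (GL (Fin 2) ℝ)} [Γ.HasDetOne] {w : ℤ} {f : ℍ → ℂ} :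
    f ∈ MF Γ w ↔ ∃ g : ModularForm Γ w, ⇑g = f := Iff.rfl

theorem mem_CF {Γ : Subgroup (GL (Fin 2) ℝ)} [Γ.HasDetOne] {w : ℤ} {f : ℍ → ℂ} :
    f ∈ CF Γ w ↔ ∃ g : CuspForm Γ w, ⇑g = f := Iff.rfl

/-- `Γ₀(N)` as a subgroup of `GL(2, ℝ)`. -/
abbrev G0 (N : ℕ) : Subgroup (GL (Fin 2) ℝ) := (Gamma0 N : Subgroup (GL (Fin 2) ℝ))

/-- The coset space `SL(2, ℤ) / Γ₀(N)`. -/
abbrev QQ (N : ℕ) : Type := 𝒮ℒ ⧸ (G0 N).subgroupOf 𝒮ℒ

noncomputable instance instFintypeQQ (N : ℕ) [NeZero N] : Fintype (QQ N) := Fintype.ofFinite _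

noncomputable instance instDecEqQQ (N : ℕ) : DecidableEq (QQ N) := Classical.decEq _

/-- The conjugate of `f` (weight `w`) along the coset `q`. -/
noncomputable def cj (N : ℕ) (w : ℤ) (f : ℍ → ℂ) (q : QQ N) : ℍ → ℂ :=
  f ∣[w] ((Quotient.out q : 𝒮ℒ) : GL (Fin 2) ℝ)⁻¹

/-- The trace to level one. -/
noncomputable def trP (N : ℕ) [NeZero N] (w : ℤ) (f : ℍ → ℂ) : ℍ → ℂ := ∑ q : QQ N, cj N w f q

/-- `n`-th coefficient of the expansion of the conjugate `cj N w f q` in `q_N = exp(2πiz/N)`. -/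
noncomputable def jet (N : ℕ) (w : ℤ) (f : ℍ → ℂ) (q : QQ N) (n : ℕ) : ℂ :=
  (qExpansion (N : ℝ) (cj N w f q)).coeff n

/-- The element `S` of `𝒮ℒ`. -/
noncomputable def sS : 𝒮ℒ := Fermat.Agent.S23.slMem ModularGroup.S

/-- The element `T` of `𝒮ℒ`. -/
noncomputable def sT : 𝒮ℒ := Fermat.Agent.S23.slMem ModularGroup.T

/-- The element `S * T` (of order `3` in `PSL(2, ℤ)`) of `𝒮ℒ`. -/
noncomputable def sU : 𝒮ℒ := Fermat.Agent.S23.slMem (ModularGroup.S * ModularGroup.T)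

/-- Number of cosets fixed by `S`. -/
noncomputable def fixS (N : ℕ) : ℕ := Nat.card {q : QQ N // sS • q = q}

/-- Number of cosets fixed by `S * T`. -/
noncomputable def fixU (N : ℕ) : ℕ := Nat.card {q : QQ N // sU • q = q}

/-- Number of orbits of `T` on the coset space (the number of cusps). -/
noncomputable def cuspsQ (N : ℕ) : ℕ :=
  Nat.card (MulAction.orbitRel.Quotient (Subgroup.zpowers sT) (QQ N))

/-- The dimension of the space of level one modular forms of weight `v`. -/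
def loDim (v : ℤ) : ℕ :=
  if v < 0 ∨ Odd v then 0 else if v % 12 = 2 then (v / 12).toNat else (v / 12).toNat + 1

/-- A homogeneous basis of the graded module of modular forms of level `Γ₀(N)` over the graded
ring of level one modular forms. -/
structure FreeBasis (N : ℕ) where
  /-- index type -/
  ι : Type
  /-- finiteness -/
  fin : Fintype ι
  /-- weights of the generators -/
  k : ι → ℤ
  /-- the generators -/
  F : ι → ℍ → ℂ
  mem : ∀ i, F i ∈ MF (G0 N) (k i)
  span : ∀ (w : ℤ) (f : ℍ → ℂ), f ∈ MF (G0 N) w →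
    ∃ A : ι → ℍ → ℂ, (∀ i, A i ∈ MF 𝒮ℒ (w - k i)) ∧ f = ∑ i, A i * F i
  indep : ∀ (w : ℤ) (A : ι → ℍ → ℂ), (∀ i, A i ∈ MF 𝒮ℒ (w - k i)) →
    ∑ i, A i * F i = 0 → ∀ i, A i = 0

attribute [instance] FreeBasis.fin

end Fermat.Agent.S20
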