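import Fermat.Agent.S20.Basic
import Fermat.Agent.S23.Analytic
import Fermat.Agent.S28.LevelOnePoly
import Fermat.Agent.S24.JOrder

/-!
# S20: division of forms of level `Γ₀(N)` by level one forms with simple zeros

* `quot_div_of_vanish` : if `f ∈ MF (G0 N) v` vanishes at the zeros of the level one form `P`
  (simple zeros, nonzero at `i∞`), then `f = P * f'` with `f' ∈ MF (G0 N) (v - a)`.
* `quot_div_E4`, `quot_div_E6` : the cases `P = E₄`, `P = E₆`.
* `quot_div_E4_of_E6_mul` : `E₄, E₆` is a regular sequence on the forms of level `Γ₀(N)`.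
-/

set_option autoImplicit false

namespace Fermat.Agent.S20

open UpperHalfPlane ModularForm CongruenceSubgroup SlashInvariantForm Module Filter
open scoped MatrixGroups Manifold Topology

/-- Division of holomorphic functions on the upper half plane: `g` vanishes at the (simple) zeros
of `c`. -/
theorem quot_exists_quotient {c g : ℍ → ℂ} (hc : MDiff c) (hg : MDiff g)
    (hsimple : ∀ z : ℍ, c z = 0 → deriv (c ∘ ofComplex) z ≠ 0)
    (hz : ∀ z : ℍ, c z = 0 → g z = 0) :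
    ∃ H : ℍ → ℂ, MDiff H ∧ ∀ z, H z * c z = g z := by
  have hcA : AnalyticOnNhd ℂ (c ∘ ofComplex) upperHalfPlaneSet :=
    (UpperHalfPlane.mdifferentiable_iff.mp hc).analyticOnNhd isOpen_upperHalfPlaneSet
  have hgA : AnalyticOnNhd ℂ (g ∘ ofComplex) upperHalfPlaneSet :=
    (UpperHalfPlane.mdifferentiable_iff.mp hg).analyticOnNhd isOpen_upperHalfPlaneSet
  have hval : ∀ (F : ℍ → ℂ) (z₀ : ℂ) (hz₀ : z₀ ∈ upperHalfPlaneSet),
      (F ∘ ofComplex) z₀ = F ⟨z₀, hz₀⟩ := by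
    intro F z₀ hz₀
    simp only [Function.comp_apply]
    rw [ofComplex_apply_of_im_pos hz₀]
  have hkey : ∀ z₀ ∈ upperHalfPlaneSet, analyticOrderAt (c ∘ ofComplex) z₀ ≠ ⊤ ∧
      analyticOrderAt (c ∘ ofComplex) z₀ ≤ analyticOrderAt (g ∘ ofComplex) z₀ := by
    intro z₀ hz₀
    by_cases h0 : c ⟨z₀, hz₀⟩ = 0
    · have h1 : analyticOrderAt (c ∘ ofComplex) z₀ = 1 :=
        (hcA z₀ hz₀).analyticOrderAt_eq_one_of_zero_deriv_ne_zero
          (by rw [hval c z₀ hz₀]; exact h0) (hsimple ⟨z₀, hz₀⟩ h0)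
      have h2 : analyticOrderAt (g ∘ ofComplex) z₀ ≠ 0 :=
        (hgA z₀ hz₀).analyticOrderAt_ne_zero.mpr (by rw [hval g z₀ hz₀]; exact hz _ h0)
      rw [h1]
      exact ⟨by simp, Order.one_le_iff_ne_zero.mpr h2⟩
    · have h1 : analyticOrderAt (c ∘ ofComplex) z₀ = 0 :=
        (hcA z₀ hz₀).analyticOrderAt_eq_zero.mpr (by rw [hval c z₀ hz₀]; exact h0)
      rw [h1]
      exact ⟨by simp, zero_le⟩
  have hspec := fun z₀ hz₀ => Fermat.Agent.S23.quotFun_spec (hcA z₀ hz₀) (hgA z₀ hz₀)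
    (hkey z₀ hz₀).1 (hkey z₀ hz₀).2
  refine ⟨fun τ => Fermat.Agent.S23.quotFun (c ∘ ofComplex) (g ∘ ofComplex) τ, ?_, fun τ => ?_⟩
  · rw [UpperHalfPlane.mdifferentiable_iff]
    have hd : DifferentiableOn ℂ (Fermat.Agent.S23.quotFun (c ∘ ofComplex) (g ∘ ofComplex))
        upperHalfPlaneSet :=
      fun z hz => (hspec z hz).1.differentiableAt.differentiableWithinAt
    refine hd.congr fun z hz => ?_
    simp only [Function.comp_apply]
    rw [ofComplex_apply_of_im_pos hz]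
  · have := (hspec τ τ.im_pos).2
    simpa [ofComplex_apply] using this

/-- Cancellation of a nonzero holomorphic factor. -/
theorem quot_mul_right_cancel {P G H : ℍ → ℂ} (hP : MDiff P) (hG : MDiff G) (hH : MDiff H)
    (hP0 : P ≠ 0) (h : ∀ z, G z * P z = H z * P z) : G = H := by
  have hPA : AnalyticOnNhd ℂ (P ∘ ofComplex) upperHalfPlaneSet :=
    (UpperHalfPlane.mdifferentiable_iff.mp hP).analyticOnNhd isOpen_upperHalfPlaneSet
  have hDA : AnalyticOnNhd ℂ ((G - H) ∘ ofComplex) upperHalfPlaneSet :=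
    (UpperHalfPlane.mdifferentiable_iff.mp (hG.sub hH)).analyticOnNhd isOpen_upperHalfPlaneSet
  obtain ⟨z₁, hz₁⟩ : ∃ z₁ : ℍ, P z₁ ≠ 0 := by
    by_contra hcon
    push Not at hcon
    exact hP0 (funext hcon)
  have hev : (G - H) ∘ ofComplex =ᶠ[𝓝 (z₁ : ℂ)] 0 := by
    have hcont : ContinuousAt (P ∘ ofComplex) (z₁ : ℂ) := (hPA z₁ z₁.im_pos).continuousAt
    have hne : ∀ᶠ z in 𝓝 (z₁ : ℂ), (P ∘ ofComplex) z ≠ 0 :=
      hcont.eventually_ne (by simpa [ofComplex_apply] using hz₁)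
    filter_upwards [hne] with z hz
    have h1 := h (ofComplex z)
    simp only [Function.comp_apply, Pi.sub_apply, Pi.zero_apply] at hz ⊢
    exact sub_eq_zero.mpr (mul_right_cancel₀ hz h1)
  have h0 := hDA.eqOn_zero_of_preconnected_of_eventuallyEq_zero
    Fermat.Agent.S23.isPreconnected_upperHalfPlaneSet z₁.im_pos hev
  funext τ
  have h1 := h0 τ.im_pos
  simp only [Function.comp_apply, Pi.sub_apply, Pi.zero_apply, ofComplex_apply] at h1
  exact sub_eq_zero.mp h1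

section Quot

variable {N : ℕ} [NeZero N]

omit [NeZero N] in
/-- Invariance of forms of level `Γ₀(N)`. -/
theorem quot_slash_eq_of_mem {v : ℤ} {f : ℍ → ℂ} (hf : f ∈ MF (G0 N) v) (γ : SL(2, ℤ))
    (hγ : γ ∈ Gamma0 N) : f ∣[v] γ = f := by
  obtain ⟨g, rfl⟩ := hf
  rw [SL_slash]
  exact g.slash_action_eq' _ (Subgroup.mem_map_of_mem _ hγ)

/-- Invariance of level one forms. -/
theorem quot_slash_eq_levelOne {a : ℤ} {P : ℍ → ℂ} (hP : P ∈ MF 𝒮ℒ a) (γ : SL(2, ℤ)) :
    P ∣[a] γ = P := by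
  obtain ⟨g, rfl⟩ := hP
  exact (Fermat.Agent.S28.lop_WtInv.of_modularForm g).slash_eq γ

/-- Division by a level one form with simple zeros: a form of level `Γ₀(N)` vanishing at all
zeros of `P` is divisible by `P`. -/
theorem quot_div_of_vanish {v a : ℤ} {f P : ℍ → ℂ} (hf : f ∈ MF (G0 N) v) (hP : P ∈ MF 𝒮ℒ a)
    (hPinf : ¬ IsZeroAtImInfty P) (hsimple : ∀ z : ℍ, P z = 0 → deriv (P ∘ ofComplex) z ≠ 0)
    (hfz : ∀ z : ℍ, P z = 0 → f z = 0) :
    ∃ f' ∈ MF (G0 N) (v - a), f = P * f' := by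
  have hPm : MDiff P := mdiff_of_mem_MF hP
  have hfm : MDiff f := mdiff_of_mem_MF hf
  obtain ⟨H, hH, hHP⟩ := quot_exists_quotient hPm hfm hsimple hfz
  have hP0 : P ≠ 0 := by
    intro h
    apply hPinf
    rw [h]
    exact Filter.zero_zeroAtFilter _
  have hslash : ∀ γ : SL(2, ℤ), ∀ z, (H ∣[v - a] γ) z * P z = (f ∣[v] γ) z := by
    intro γ z
    have h1 : (H * P) ∣[(v - a) + a] γ = H ∣[v - a] γ * P ∣[a] γ := mul_slash_SL2 _ _ γ H P
    have h2 : H * P = f := funext hHP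
    rw [h2, quot_slash_eq_levelOne hP, show v - a + a = v by ring] at h1
    have h3 := congrFun h1 z
    simp only [Pi.mul_apply] at h3
    exact h3.symm
  refine ⟨H, ?_, ?_⟩
  · apply mem_MF_of_slash N hH
    · intro γ hγ
      have hHs : MDiff (H ∣[v - a] γ) := hH.slash (v - a) _
      apply quot_mul_right_cancel hPm hHs hH hP0
      intro z
      rw [hslash γ z, quot_slash_eq_of_mem hf γ hγ, hHP]
    · intro γ
      obtain ⟨P', hP'⟩ := hP
      have hPeq : ⇑P' = P := hP'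
      have ht : Tendsto P atImInfty (𝓝 (cuspFunction 1 P' 0)) :=
        hPeq ▸ Fermat.Agent.S28.lop_tendsto P'
      have hc : cuspFunction 1 P' 0 ≠ 0 := by
        intro h0
        apply hPinf
        rw [h0] at ht
        exact ht
      have hbP : BoundedAtFilter atImInfty (fun z : ℍ => (P z)⁻¹) :=
        (ht.inv₀ hc).isBigO_one ℝ
      have hbf : IsBoundedAtImInfty (f ∣[v] γ) := by
        rw [slash_eq_cj N hf γ]
        exact isBoundedAtImInfty_cj N hf _
      have hK : (H ∣[v - a] γ) =ᶠ[atImInfty] fun z => (f ∣[v] γ) z * (P z)⁻¹ := by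
        filter_upwards [ht.eventually_ne hc] with z hz
        rw [← hslash γ z, mul_assoc, mul_inv_cancel₀ hz, mul_one]
      exact (hbf.mul hbP).congr' hK.symm (EventuallyEq.refl _ _)
  · funext z
    rw [Pi.mul_apply, mul_comm, hHP]

/-- `E₄` and `E₆` have no common zero. -/
theorem quot_E4_E6_no_common_zero (z : ℍ) : E₄ z ≠ 0 ∨ E₆ z ≠ 0 := by
  by_contra h
  push Not at h
  have h1 := ModularForm.discriminant_eq_E₄_cube_sub_E₆_sq z
  rw [h.1, h.2] at h1
  exact ModularForm.discriminant_ne_zero z (by simpa using h1)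

theorem quot_not_isZeroAtImInfty_E4 : ¬ IsZeroAtImInfty (⇑E₄) := by
  intro h
  have h1 := tendsto_nhds_unique h Fermat.Agent.S28.lop_E4_tendsto
  norm_num at h1

/-- A form of level `Γ₀(N)` vanishing at all zeros of `E₄` is divisible by `E₄`. -/
theorem quot_div_E4 {w : ℤ} {f : ℍ → ℂ} (hf : f ∈ MF (G0 N) w)
    (hz : ∀ z : ℍ, E₄ z = 0 → f z = 0) : ∃ f' ∈ MF (G0 N) (w - 4), f = ⇑E₄ * f' :=
  quot_div_of_vanish hf ⟨E₄, rfl⟩ quot_not_isZeroAtImInfty_E4
    (fun _ hz0 => Fermat.Agent.S24.jord_deriv_ne_zero (Fermat.Agent.S24.D_E₄_ne_zero hz0)) hz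

/-- `E₄, E₆` is a regular sequence on the forms of level `Γ₀(N)`: if `E₆ * f = E₄ * g` then `f`
is divisible by `E₄`. -/
theorem quot_div_E4_of_E6_mul {w : ℤ} {f g : ℍ → ℂ} (hf : f ∈ MF (G0 N) w)
    (h : ⇑E₆ * f = ⇑E₄ * g) : ∃ f' ∈ MF (G0 N) (w - 4), f = ⇑E₄ * f' := by
  apply quot_div_E4 hf
  intro z hz
  have h1 := congrFun h z
  simp only [Pi.mul_apply, hz, zero_mul] at h1
  rcases quot_E4_E6_no_common_zero z with h4 | h6
  · exact absurd hz h4
  · exact (mul_eq_zero.mp h1).resolve_left h6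

end Quot

end Fermat.Agent.S20
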