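import Fermat.Agent.S20.Basic
import Fermat.Agent.S23.TN

/-!
# S20 piece (D'), `Vand.lean`: a free basis has at least `card (QQ N)` elements

The conjugates of the form `t` of `S23.exists_tN` (weight `4`, stabiliser `Γ₀(N)`) are pairwise
distinct holomorphic functions, hence pairwise distinct at some point `z₀`.  Expressing the
powers `t ^ j` in a free basis `B` shows that the evaluation vectors `(cj (F i) q z₀)_i`,
`q ∈ QQ N`, are linearly independent (Vandermonde), so `card (QQ N) ≤ card B.ι`.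
-/

set_option autoImplicit false

namespace Fermat.Agent.S20

open UpperHalfPlane ModularForm CongruenceSubgroup SlashInvariantForm Module
open scoped MatrixGroups Manifold

/-! ### A common point of non-vanishing -/

theorem vand_isPreconnected : IsPreconnected upperHalfPlaneSet :=
  (Complex.isConnected_of_upperHalfPlane subset_rfl (by grind)).isPreconnected

theorem vand_analyticOnNhd {g : ℍ → ℂ} (hg : MDiff g) :
    AnalyticOnNhd ℂ (g ∘ ofComplex) upperHalfPlaneSet :=
  (UpperHalfPlane.mdifferentiable_iff.mp hg).analyticOnNhd isOpen_upperHalfPlaneSet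

/-- Finitely many holomorphic functions on `ℍ`, none identically zero, have a common point
of non-vanishing. -/
theorem vand_exists_ne {J : Type*} (s : Finset J) (g : J → ℍ → ℂ) (hg : ∀ j ∈ s, MDiff (g j))
    (hne : ∀ j ∈ s, g j ≠ 0) : ∃ z : ℍ, ∀ j ∈ s, g j z ≠ 0 := by
  classical
  have key : ¬ (∀ z ∈ upperHalfPlaneSet, ∏ j ∈ s, (g j ∘ ofComplex) z = 0) := by
    induction s using Finset.induction_on with
    | empty =>
      intro h
      have h1 := h (UpperHalfPlane.I : ℂ) UpperHalfPlane.I.im_pos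
      simp at h1
    | insert a s ha ih =>
      intro h
      have hga : AnalyticOnNhd ℂ (g a ∘ ofComplex) upperHalfPlaneSet :=
        vand_analyticOnNhd (hg a (Finset.mem_insert_self a s))
      have hgs : AnalyticOnNhd ℂ (fun z => ∏ j ∈ s, (g j ∘ ofComplex) z) upperHalfPlaneSet :=
        Finset.analyticOnNhd_fun_prod s
          (fun j hj => vand_analyticOnNhd (hg j (Finset.mem_insert_of_mem hj)))
      have hmul : ∀ z ∈ upperHalfPlaneSet,
          (g a ∘ ofComplex) z * (fun z => ∏ j ∈ s, (g j ∘ ofComplex) z) z = 0 := by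
        intro z hz
        have h1 := h z hz
        rwa [Finset.prod_insert ha] at h1
      rcases hga.eq_zero_or_eq_zero_of_mul_eq_zero hgs hmul vand_isPreconnected with h0 | h0
      · apply hne a (Finset.mem_insert_self a s)
        funext τ
        have h1 := h0 (τ : ℂ) τ.im_pos
        simpa using h1
      · exact ih (fun j hj => hg j (Finset.mem_insert_of_mem hj))
          (fun j hj => hne j (Finset.mem_insert_of_mem hj)) h0
  push Not at key
  obtain ⟨z, hz, hprod⟩ := key
  refine ⟨⟨z, hz⟩, fun j hj => ?_⟩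
  have h1 := (Finset.prod_ne_zero_iff.mp hprod) j hj
  have h2 : ofComplex z = ⟨z, hz⟩ := UpperHalfPlane.ofComplex_apply_of_im_pos hz
  simpa [h2] using h1

/-! ### Distinct conjugates -/

/-- A form of weight `4` and level `Γ₀(N)` with pairwise distinct conjugates. -/
theorem vand_exists_injective (N : ℕ) [NeZero N] :
    ∃ t : ℍ → ℂ, t ∈ MF (G0 N) 4 ∧ Function.Injective (fun q : QQ N => cj N 4 t q) := by
  obtain ⟨t, -, ht⟩ := Fermat.Agent.S23.exists_tN N
  have hmem : (⇑t : ℍ → ℂ) ∈ MF (G0 N) 4 := ⟨t, rfl⟩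
  refine ⟨⇑t, hmem, ?_⟩
  intro q q' h
  obtain ⟨x, rfl⟩ := QuotientGroup.mk_surjective q
  obtain ⟨x', rfl⟩ := QuotientGroup.mk_surjective q'
  have h1 : cj N 4 (⇑t) (QuotientGroup.mk x) = cj N 4 (⇑t) (QuotientGroup.mk x') := h
  rw [cj_mk N hmem, cj_mk N hmem] at h1
  -- slash both sides by `x'`
  have h2 := congrArg (fun F : ℍ → ℂ => F ∣[(4 : ℤ)] (x' : GL (Fin 2) ℝ)) h1
  simp only [← SlashAction.slash_mul, inv_mul_cancel, SlashAction.slash_one] at h2
  obtain ⟨γ, hγ⟩ := exists_SL_eq (x⁻¹ * x')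
  have h3 : (⇑t : ℍ → ℂ) ∣[(4 : ℤ)] γ = ⇑t := by
    have h4 : (⇑t : ℍ → ℂ) ∣[(4 : ℤ)] γ =
        (⇑t : ℍ → ℂ) ∣[(4 : ℤ)] (Matrix.SpecialLinearGroup.mapGL ℝ γ : GL (Fin 2) ℝ) := rfl
    rw [h4, ← hγ]
    exact h2
  have hγmem : γ ∈ Gamma0 N := by
    by_contra hcon
    exact ht γ hcon h3
  rw [QuotientGroup.eq, Subgroup.mem_subgroupOf, hγ]
  exact Subgroup.mem_map_of_mem _ hγmem

/-- A point where the conjugates of `t` take pairwise distinct values. -/
theorem vand_exists_point (N : ℕ) [NeZero N] :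
    ∃ (t : ℍ → ℂ) (z₀ : ℍ), t ∈ MF (G0 N) 4 ∧
      Function.Injective (fun q : QQ N => cj N 4 t q z₀) := by
  classical
  obtain ⟨t, ht, hinj⟩ := vand_exists_injective N
  obtain ⟨z₀, hz₀⟩ := vand_exists_ne
    (Finset.univ.filter (fun p : QQ N × QQ N => p.1 ≠ p.2))
    (fun p => cj N 4 t p.1 - cj N 4 t p.2)
    (fun p _ => (mdiff_cj N ht p.1).sub (mdiff_cj N ht p.2))
    (fun p hp h0 => by
      rw [Finset.mem_filter] at hp
      exact hp.2 (hinj (sub_eq_zero.mp h0)))
  refine ⟨t, z₀, ht, fun q q' h => ?_⟩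
  by_contra hne
  have h1 := hz₀ (q, q') (by simp [hne])
  apply h1
  show cj N 4 t q z₀ - cj N 4 t q' z₀ = 0
  exact sub_eq_zero.mpr h

/-! ### Conjugates of powers -/

theorem vand_cj_mul' (N : ℕ) [NeZero N] {a b w : ℤ} (hw : w = a + b) (f g : ℍ → ℂ) (q : QQ N) :
    cj N w (f * g) q = cj N a f q * cj N b g q := by
  subst hw
  exact cj_mul N f g q

theorem vand_cj_pow (N : ℕ) [NeZero N] (t : ℍ → ℂ) (q : QQ N) (j : ℕ) :
    cj N ((j : ℤ) * 4) (t ^ j) q = (cj N 4 t q) ^ j := by
  induction j with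
  | zero =>
    have h0 : ((0 : ℕ) : ℤ) * 4 = 0 := by norm_num
    rw [h0, pow_zero, pow_zero]
    exact cj_levelOne N MF_one q
  | succ j ih =>
    rw [pow_succ, pow_succ, vand_cj_mul' N (a := (j : ℤ) * 4) (b := 4) (by push_cast; ring), ih]

/-! ### The count -/

theorem FreeBasis.card_ge {N : ℕ} [NeZero N] (B : FreeBasis N) :
    Fintype.card (QQ N) ≤ Fintype.card B.ι := by
  classical
  obtain ⟨t, z₀, ht, hinj⟩ := vand_exists_point N
  -- the rows `q ↦ (cj (F i) q z₀)_i` are linearly independent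
  have hli : LinearIndependent ℂ
      (fun q : QQ N => fun i : B.ι => cj N (B.k i) (B.F i) q z₀) := by
    rw [Fintype.linearIndependent_iff]
    intro lam hlam
    have hlam' : ∀ i : B.ι, ∑ q : QQ N, lam q * cj N (B.k i) (B.F i) q z₀ = 0 := by
      intro i
      have h1 := congrFun hlam i
      simpa [Finset.sum_apply, Pi.smul_apply, smul_eq_mul] using h1
    -- power sums vanish
    have hpow : ∀ j : ℕ, ∑ q : QQ N, lam q * (cj N 4 t q z₀) ^ j = 0 := by
      intro j
      obtain ⟨A, hA, hsum⟩ := B.span ((j : ℤ) * 4) (t ^ j) (MF_pow ht j)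
      have hcj : ∀ q : QQ N, (cj N 4 t q z₀) ^ j =
          ∑ i : B.ι, A i z₀ * cj N (B.k i) (B.F i) q z₀ := by
        intro q
        have h1 : (cj N 4 t q) ^ j = ∑ i : B.ι, A i * cj N (B.k i) (B.F i) q := by
          rw [← vand_cj_pow, hsum, cj_sum]
          refine Finset.sum_congr rfl fun i _ => ?_
          rw [vand_cj_mul' N (a := (j : ℤ) * 4 - B.k i) (b := B.k i) (by ring),
            cj_levelOne N (hA i)]
        have h2 := congrFun h1 z₀
        simpa [Finset.sum_apply] using h2
      calc ∑ q : QQ N, lam q * (cj N 4 t q z₀) ^ j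
          = ∑ q : QQ N, ∑ i : B.ι, A i z₀ * (lam q * cj N (B.k i) (B.F i) q z₀) := by
            refine Finset.sum_congr rfl fun q _ => ?_
            rw [hcj q, Finset.mul_sum]
            refine Finset.sum_congr rfl fun i _ => ?_
            ring
        _ = ∑ i : B.ι, A i z₀ * ∑ q : QQ N, lam q * cj N (B.k i) (B.F i) q z₀ := by
            rw [Finset.sum_comm]
            refine Finset.sum_congr rfl fun i _ => ?_
            rw [Finset.mul_sum]
        _ = 0 := by
            refine Finset.sum_eq_zero fun i _ => ?_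
            rw [hlam' i, mul_zero]
    -- Vandermonde
    let e := Fintype.equivFin (QQ N)
    have hv : (fun j : Fin (Fintype.card (QQ N)) => lam (e.symm j)) = 0 := by
      refine Matrix.eq_zero_of_forall_pow_sum_mul_pow_eq_zero
        (f := fun j : Fin (Fintype.card (QQ N)) => cj N 4 t (e.symm j) z₀)
        (fun a b hab => e.symm.injective (hinj hab)) (fun i => ?_)
      rw [← hpow (i : ℕ)]
      exact Equiv.sum_comp e.symm (fun q : QQ N => lam q * (cj N 4 t q z₀) ^ (i : ℕ))
    intro q
    have h1 := congrFun hv (e q)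
    simpa using h1
  have h := hli.fintype_card_le_finrank
  rwa [Module.finrank_fintype_fun_eq_card] at h

end Fermat.Agent.S20
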