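import Fermat.Agent.S20.Free
import Fermat.Agent.S20.Vand
import Fermat.Agent.S20.Quot

/-!
# S20 piece (D): the trace form of a free basis is nondegenerate at every point of `ℍ`
-/

set_option autoImplicit false

namespace Fermat.Agent.S20

open UpperHalfPlane ModularForm CongruenceSubgroup SlashInvariantForm Module Filter
open scoped MatrixGroups Manifold Topology

/-! ### Vanishing power sums -/

/-- Newton: if all power sums of a finite complex family vanish, so do its elementary symmetric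
functions of positive degree. -/
theorem det_esymm_eq_zero {α : Type*} [Fintype α] (u : α → ℂ)
    (hp : ∀ j : ℕ, 1 ≤ j → ∑ i, u i ^ j = 0) (k : ℕ) (hk : 0 < k) :
    MvPolynomial.aeval u (MvPolynomial.esymm α ℂ k) = 0 := by
  classical
  have h := congrArg (MvPolynomial.aeval u) (MvPolynomial.mul_esymm_eq_sum α ℂ k)
  simp only [map_mul, map_natCast, map_pow, map_neg, map_one, map_sum] at h
  have h0 : (k : ℂ) * MvPolynomial.aeval u (MvPolynomial.esymm α ℂ k) = 0 := by
    rw [h]
    apply mul_eq_zero_of_right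
    apply Finset.sum_eq_zero
    intro a ha
    rw [Finset.mem_filter] at ha
    have ha1 : a.1 + a.2 = k := Finset.HasAntidiagonal.mem_antidiagonal.mp ha.1
    have h2 : MvPolynomial.aeval u (MvPolynomial.psum α ℂ a.2) = ∑ i, u i ^ a.2 := by
      simp [MvPolynomial.psum]
    rw [h2, hp a.2 (by omega), mul_zero]
  exact (mul_eq_zero.mp h0).resolve_left (Nat.cast_ne_zero.mpr hk.ne')

/-- If all power sums `∑ x, u x ^ n` (`n ≥ 1`) of a finite family of complex numbers vanish, the
family is zero. -/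
theorem det_newton {α : Type*} [Fintype α] (u : α → ℂ)
    (hp : ∀ j : ℕ, 1 ≤ j → ∑ i, u i ^ j = 0) : u = 0 := by
  classical
  funext x₀
  have h : (∏ i, (Polynomial.X - Polynomial.C (u i))) = Polynomial.X ^ Fintype.card α := by
    have h1 : (∏ i, (Polynomial.X - Polynomial.C (u i))) =
        ((Finset.univ.val.map u).map fun t => Polynomial.X - Polynomial.C t).prod := by
      rw [Multiset.map_map]
      rfl
    rw [h1, Multiset.prod_X_sub_X_eq_sum_esymm]
    rw [Finset.sum_eq_single 0]
    · simp [Multiset.esymm]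
    · intro j _ hj
      rw [← MvPolynomial.aeval_esymm_eq_multiset_esymm α ℂ j u,
        det_esymm_eq_zero u hp j (Nat.pos_of_ne_zero hj)]
      simp
    · simp
  have h2 := congrArg (Polynomial.eval (u x₀)) h
  rw [Polynomial.eval_prod, Finset.prod_eq_zero (Finset.mem_univ x₀) (by simp)] at h2
  simp only [Polynomial.eval_pow, Polynomial.eval_X] at h2
  have hc : Fintype.card α ≠ 0 := (Fintype.card_pos_iff.mpr ⟨x₀⟩).ne'
  simpa using (pow_eq_zero_iff hc).mp h2.symm

section Det

variable {N : ℕ} [NeZero N]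

theorem det_cj_pow (v : ℤ) (f : ℍ → ℂ) (n : ℕ) (q : QQ N) :
    cj N (n * v) (f ^ n) q = cj N v f q ^ n := by
  induction n with
  | zero =>
    simp only [Nat.cast_zero, zero_mul, pow_zero]
    exact cj_levelOne N MF_one q
  | succ n ih =>
    have h1 : ((n + 1 : ℕ) : ℤ) * v = n * v + v := by push_cast; ring
    rw [h1, pow_succ, cj_mul, ih, pow_succ]

/-- The trace of a level one multiple. -/
theorem det_trP_levelOne_mul {w₁ w₂ : ℤ} {A f : ℍ → ℂ} (hA : A ∈ MF 𝒮ℒ w₁) :
    trP N (w₁ + w₂) (A * f) = A * trP N w₂ f := by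
  unfold trP
  rw [Finset.mul_sum]
  refine Finset.sum_congr rfl fun q _ => ?_
  rw [cj_mul, cj_levelOne N hA]

theorem det_trP_sum {α : Type*} (s : Finset α) (F : α → ℍ → ℂ) (w : ℤ) :
    trP N w (∑ i ∈ s, F i) = ∑ i ∈ s, trP N w (F i) := by
  unfold trP
  rw [Finset.sum_comm]
  refine Finset.sum_congr rfl fun q _ => ?_
  rw [cj_sum]

/-- Division by a level one form with simple zeros, given vanishing of all traces of powers
on its zero set (Newton: all conjugates vanish there; then `f / P` is holomorphic). -/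
theorem div_of_trace_vanish {v a : ℤ} {f P : ℍ → ℂ} (hf : f ∈ MF (G0 N) v) (hP : P ∈ MF 𝒮ℒ a)
    (hPinf : ¬ IsZeroAtImInfty P) (hsimple : ∀ z : ℍ, P z = 0 → deriv (P ∘ ofComplex) z ≠ 0)
    (htr : ∀ (n : ℕ), 0 < n → ∀ z : ℍ, P z = 0 → trP N (n * v) (f ^ n) z = 0) :
    ∃ f' ∈ MF (G0 N) (v - a), f = P * f' := by
  have hfz : ∀ z : ℍ, P z = 0 → f z = 0 := by
    intro z hz
    have hu : (fun q : QQ N => cj N v f q z) = 0 := by
      apply det_newton
      intro n hn
      have h1 := htr n hn z hz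
      unfold trP at h1
      rw [Finset.sum_apply] at h1
      rw [← h1]
      refine Finset.sum_congr rfl fun q _ => ?_
      rw [det_cj_pow]
      rfl
    have h2 := congrFun hu (QuotientGroup.mk 1)
    simp only [Pi.zero_apply] at h2
    rwa [cj_one N hf] at h2
  exact quot_div_of_vanish hf hP hPinf hsimple hfz

/-- The trace form of a free basis is nondegenerate at every point of `ℍ`. -/
theorem FreeBasis.trace_nondegenerate (B : FreeBasis N) (z₀ : ℍ) (c : B.ι → ℂ)
    (h : ∀ j, ∑ i, c i * trP N (B.k j + B.k i) (B.F j * B.F i) z₀ = 0) : c = 0 := by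
  classical
  obtain ⟨m, a, P, hm, hP, hPz, hPinf, hsimple, hdiv, hvan, w₀, hone⟩ := lo_local z₀
  have hTmem : ∀ j i, trP N (B.k j + B.k i) (B.F j * B.F i) ∈ MF 𝒮ℒ (B.k j + B.k i) :=
    fun j i => trP_mem N (MF_mul (B.mem j) (B.mem i))
  have hT0 : ∀ j i, ¬ m ∣ (B.k j + B.k i) →
      trP N (B.k j + B.k i) (B.F j * B.F i) z₀ = 0 :=
    fun j i hji => hvan _ _ (hTmem j i) hji
  funext i₀
  -- the block of `i₀`
  set c' : B.ι → ℂ := fun i => if m ∣ (B.k i - B.k i₀) then c i else 0 with hc'
  have hker : ∀ j, ∑ i, c' i * trP N (B.k j + B.k i) (B.F j * B.F i) z₀ = 0 := by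
    intro j
    by_cases hj : m ∣ (B.k j + B.k i₀)
    · rw [← h j]
      refine Finset.sum_congr rfl fun i _ => ?_
      by_cases hi : m ∣ (B.k i - B.k i₀)
      · simp only [hc', if_pos hi]
      · have hn : ¬ m ∣ (B.k j + B.k i) := by
          intro hd
          apply hi
          have h1 := dvd_sub hd hj
          rwa [show B.k j + B.k i - (B.k j + B.k i₀) = B.k i - B.k i₀ by ring] at h1
        rw [hT0 j i hn, mul_zero, mul_zero]
    · apply Finset.sum_eq_zero
      intro i _
      by_cases hi : m ∣ (B.k i - B.k i₀)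
      · have hn : ¬ m ∣ (B.k j + B.k i) := by
          intro hd
          apply hj
          have h1 := dvd_sub hd hi
          rwa [show B.k j + B.k i - (B.k i - B.k i₀) = B.k j + B.k i₀ by ring] at h1
        rw [hT0 j i hn, mul_zero]
      · simp only [hc', if_neg hi, zero_mul]
  -- homogenise
  set M : ℕ := ∑ i, (w₀ - B.k i₀ + B.k i).toNat with hM
  set K : ℤ := B.k i₀ + m * M with hK
  have hKge : ∀ i, w₀ ≤ K - B.k i := by
    intro i
    have h1 : (w₀ - B.k i₀ + B.k i).toNat ≤ M :=
      Finset.single_le_sum (f := fun i => (w₀ - B.k i₀ + B.k i).toNat)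
        (fun _ _ => Nat.zero_le _) (Finset.mem_univ i)
    have h2 : w₀ - B.k i₀ + B.k i ≤ (w₀ - B.k i₀ + B.k i).toNat := Int.self_le_toNat _
    have h4 : ((w₀ - B.k i₀ + B.k i).toNat : ℤ) ≤ M := by exact_mod_cast h1
    have h5 : (0 : ℤ) ≤ M := Int.natCast_nonneg _
    have h3 : (M : ℤ) ≤ m * M := by nlinarith
    rw [hK]
    linarith
  have hA : ∀ i, ∃ A : ℍ → ℂ, A ∈ MF 𝒮ℒ (K - B.k i) ∧ (m ∣ (B.k i - B.k i₀) → A z₀ = 1) := by
    intro i
    by_cases hi : m ∣ (B.k i - B.k i₀)
    · have hd : m ∣ K - B.k i := by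
        have h1 : K - B.k i = m * M - (B.k i - B.k i₀) := by rw [hK]; ring
        rw [h1]
        exact dvd_sub (dvd_mul_right _ _) hi
      obtain ⟨A, hA1, hA2⟩ := hone (K - B.k i) (hKge i) hd
      exact ⟨A, hA1, fun _ => hA2⟩
    · exact ⟨0, Submodule.zero_mem _, fun h => absurd h hi⟩
  choose A hAmem hAone using hA
  set α : B.ι → ℍ → ℂ := fun i => c' i • A i with hα
  have hαmem : ∀ i, α i ∈ MF 𝒮ℒ (K - B.k i) := fun i => Submodule.smul_mem _ _ (hAmem i)
  set g : ℍ → ℂ := ∑ i, α i * B.F i with hg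
  have hgmem : g ∈ MF (G0 N) K := by
    apply Submodule.sum_mem
    intro i _
    exact MF_congr (by ring) (MF_mul (MF_levelOne_le N (hαmem i)) (B.mem i))
  have htrP : ∀ j, trP N (B.k j + K) (B.F j * g) =
      ∑ i, α i * trP N (B.k j + B.k i) (B.F j * B.F i) := by
    intro j
    have h1 : B.F j * g = ∑ i, α i * (B.F j * B.F i) := by
      rw [hg, Finset.mul_sum]
      exact Finset.sum_congr rfl fun i _ => by ring
    rw [h1, det_trP_sum]
    refine Finset.sum_congr rfl fun i _ => ?_
    rw [show B.k j + K = (K - B.k i) + (B.k j + B.k i) by ring]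
    exact det_trP_levelOne_mul (hαmem i)
  have htr1 : ∀ j, trP N (B.k j + K) (B.F j * g) z₀ = 0 := by
    intro j
    rw [htrP j, Finset.sum_apply, ← hker j]
    refine Finset.sum_congr rfl fun i _ => ?_
    simp only [Pi.mul_apply, hα, Pi.smul_apply, smul_eq_mul]
    by_cases hi : m ∣ (B.k i - B.k i₀)
    · rw [hAone i hi, mul_one]
    · simp only [hc', if_neg hi, zero_mul]
  have htr2 : ∀ (w : ℤ) (h : ℍ → ℂ), h ∈ MF (G0 N) w → ∀ z, P z = 0 →
      trP N (w + K) (h * g) z = 0 := by
    intro w h hh z hz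
    obtain ⟨u, hu, rfl⟩ := B.span w h hh
    have h1 : (∑ j, u j * B.F j) * g = ∑ j, u j * (B.F j * g) := by
      rw [Finset.sum_mul]
      exact Finset.sum_congr rfl fun j _ => by ring
    rw [h1, det_trP_sum, Finset.sum_apply]
    apply Finset.sum_eq_zero
    intro j _
    rw [show w + K = (w - B.k j) + (B.k j + K) by ring, det_trP_levelOne_mul (hu j),
      Pi.mul_apply]
    obtain ⟨t, _, ht⟩ := hdiv _ _ (trP_mem N (MF_mul (B.mem j) hgmem)) (htr1 j)
    rw [ht, Pi.mul_apply, hz]
    ring
  have htr3 : ∀ n : ℕ, 0 < n → ∀ z, P z = 0 → trP N (n * K) (g ^ n) z = 0 := by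
    intro n hn z hz
    obtain ⟨n', rfl⟩ := Nat.exists_eq_succ_of_ne_zero hn.ne'
    have h1 := htr2 (n' * K) (g ^ n') (MF_pow hgmem n') z hz
    rw [pow_succ, show ((n' + 1 : ℕ) : ℤ) * K = n' * K + K by push_cast; ring]
    exact h1
  obtain ⟨g', hg', hgg'⟩ := div_of_trace_vanish hgmem hP hPinf hsimple htr3
  obtain ⟨β, hβ, hβg⟩ := B.span _ _ hg'
  have hind := B.indep K (fun i => α i - P * β i)
    (fun i => Submodule.sub_mem _ (hαmem i) (MF_congr (by ring) (MF_mul hP (hβ i)))) (by
      have h1 : ∑ i, (α i - P * β i) * B.F i = g - P * g' := by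
        rw [hβg, Finset.mul_sum, hg, ← Finset.sum_sub_distrib]
        exact Finset.sum_congr rfl fun i _ => by ring
      rw [h1, ← hgg', sub_self])
  have h1 := congrFun (hind i₀) z₀
  simp only [Pi.sub_apply, Pi.mul_apply, hα, Pi.smul_apply, smul_eq_mul, hPz, zero_mul,
    sub_zero, Pi.zero_apply] at h1
  rw [hAone i₀ (by simp), mul_one] at h1
  simpa [hc'] using h1

theorem FreeBasis.linearIndependent_eval (B : FreeBasis N) (z₀ : ℍ) :
    LinearIndependent ℂ (fun i : B.ι => fun q : QQ N => cj N (B.k i) (B.F i) q z₀) := by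
  rw [Fintype.linearIndependent_iff]
  intro c hc i
  have h0 := B.trace_nondegenerate z₀ c (fun j => by
    have h1 : ∀ i, trP N (B.k j + B.k i) (B.F j * B.F i) z₀ =
        ∑ q : QQ N, cj N (B.k j) (B.F j) q z₀ * cj N (B.k i) (B.F i) q z₀ := by
      intro i
      unfold trP
      rw [Finset.sum_apply]
      refine Finset.sum_congr rfl fun q _ => ?_
      rw [cj_mul]
      rfl
    simp_rw [h1, Finset.mul_sum]
    rw [Finset.sum_comm]
    apply Finset.sum_eq_zero
    intro q _
    have h2 := congrFun hc q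
    simp only [Finset.sum_apply, Pi.smul_apply, smul_eq_mul, Pi.zero_apply] at h2
    calc ∑ i, c i * (cj N (B.k j) (B.F j) q z₀ * cj N (B.k i) (B.F i) q z₀)
        = cj N (B.k j) (B.F j) q z₀ * ∑ i, c i * cj N (B.k i) (B.F i) q z₀ := by
          rw [Finset.mul_sum]
          exact Finset.sum_congr rfl fun i _ => by ring
      _ = 0 := by rw [h2, mul_zero])
  exact congrFun h0 i

/-- The rank is the index (`≤` from `linearIndependent_eval`, `≥` from a Vandermonde
determinant in the conjugates of `S23.exists_tN`, see `Vand.lean`). -/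
theorem FreeBasis.card_eq (B : FreeBasis N) : Fintype.card B.ι = Fintype.card (QQ N) := by
  apply le_antisymm
  · have h := (B.linearIndependent_eval UpperHalfPlane.I).fintype_card_le_finrank
    rwa [Module.finrank_fintype_fun_eq_card] at h
  · exact B.card_ge

end Det

end Fermat.Agent.S20
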