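import Fermat.Agent.S20.DualJet

/-!
# S20 piece (G): the dual basis consists of cusp forms of weight `12 - k i`

`T = (trP (F j * F i))` has `det T = c Δ ^ e` (nonvanishing on `ℍ`, `lo_nonvanishing`), so
`h i = ∑ j, adj(T) j i * F j` satisfies `trP (F l * h i) = c Δ ^ e δ`.  Jet argument
(`FreeBasis.dual_of_trace_div`): if `trP (f * h) ∈ Δ ^ e * (level one)` for all `f`, then
`Δ * h / Δ ^ e` is a cusp form.
-/

set_option autoImplicit false

namespace Fermat.Agent.S20

open UpperHalfPlane ModularForm CongruenceSubgroup SlashInvariantForm Module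
open scoped MatrixGroups Manifold

section Dual

variable {N : ℕ} [NeZero N]

/-- Weight transport for the trace. -/
theorem dual_trP_congr {w w' : ℤ} (h : w = w') (f : ℍ → ℂ) : trP N w f = trP N w' f := by
  rw [h]

/-- The trace is additive. -/
theorem dual_trP_sum {ι : Type*} (s : Finset ι) (w : ℤ) (f : ι → ℍ → ℂ) :
    trP N w (∑ i ∈ s, f i) = ∑ i ∈ s, trP N w (f i) := by
  unfold trP
  rw [Finset.sum_comm]
  exact Finset.sum_congr rfl fun q _ => cj_sum N s f q

/-- The trace commutes with scalars. -/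
theorem dual_trP_smul (w : ℤ) (c : ℂ) (f : ℍ → ℂ) : trP N w (c • f) = c • trP N w f := by
  unfold trP
  rw [Finset.smul_sum]
  exact Finset.sum_congr rfl fun q _ => cj_smul N c f q

/-- The trace is linear over level one forms. -/
theorem dual_trP_mul {a : ℤ} (b : ℤ) {A : ℍ → ℂ} (hA : A ∈ MF 𝒮ℒ a) (f : ℍ → ℂ) :
    trP N (a + b) (A * f) = A * trP N b f := by
  unfold trP
  rw [Finset.mul_sum]
  refine Finset.sum_congr rfl fun q _ => ?_
  rw [cj_mul N A f q, cj_levelOne N hA q]

/-- Finite products of modular forms. -/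
theorem dual_MF_prod {Γ : Subgroup (GL (Fin 2) ℝ)} [Γ.HasDetOne] {ι : Type*} (s : Finset ι)
    (a : ι → ℤ) (f : ι → ℍ → ℂ) (h : ∀ i ∈ s, f i ∈ MF Γ (a i)) :
    ∏ i ∈ s, f i ∈ MF Γ (∑ i ∈ s, a i) := by
  classical
  induction s using Finset.induction_on with
  | empty => simpa using (MF_one : (1 : ℍ → ℂ) ∈ MF Γ 0)
  | insert i s hi ih =>
    rw [Finset.prod_insert hi, Finset.sum_insert hi]
    exact MF_mul (h i (Finset.mem_insert_self i s))
      (ih fun j hj => h j (Finset.mem_insert_of_mem hj))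

/-- The determinant of a matrix of level one forms with entries of weights `a j + b i` is a
level one form of weight `∑ a + ∑ b`. -/
theorem dual_det_mem {ι : Type*} [Fintype ι] [DecidableEq ι] (a b : ι → ℤ)
    (M : ι → ι → ℍ → ℂ) (hM : ∀ j i, M j i ∈ MF 𝒮ℒ (a j + b i)) :
    (fun z : ℍ => Matrix.det (Matrix.of fun j i => M j i z)) ∈
      MF 𝒮ℒ (∑ i, a i + ∑ i, b i) := by
  have h0 : (fun z : ℍ => Matrix.det (Matrix.of fun j i => M j i z)) =
      ∑ σ : Equiv.Perm ι, (((Equiv.Perm.sign σ : ℤˣ) : ℤ) : ℂ) • ∏ i, M (σ i) i := by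
    ext z
    rw [Matrix.det_apply']
    simp [Finset.sum_apply, Finset.prod_apply]
  rw [h0]
  refine Submodule.sum_mem _ fun σ _ => Submodule.smul_mem _ _ ?_
  have h1 := dual_MF_prod (Γ := 𝒮ℒ) Finset.univ (fun i => a (σ i) + b i)
    (fun i => M (σ i) i) (fun i _ => hM (σ i) i)
  refine MF_congr ?_ h1
  rw [Finset.sum_add_distrib, Equiv.sum_comp σ a]

/-- Determinant and adjugate of a pointwise nondegenerate symmetric-weight matrix of level one
forms. -/
theorem dual_exists_adj {ι : Type} [Fintype ι] (k : ι → ℤ) (T : ι → ι → ℍ → ℂ)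
    (hT : ∀ j i, T j i ∈ MF 𝒮ℒ (k j + k i))
    (hnd : ∀ (z : ℍ) (c : ι → ℂ), (∀ j, ∑ i, c i * T j i z = 0) → c = 0) :
    ∃ (D : ℍ → ℂ) (R : ι → ι → ℍ → ℂ), D ∈ MF 𝒮ℒ (2 * ∑ i, k i) ∧ (∀ z, D z ≠ 0) ∧
      (∀ j i, R j i ∈ MF 𝒮ℒ (2 * ∑ l, k l - k j - k i)) ∧
      (∀ l, ∑ j, T l j * R j l = D) ∧ (∀ l i, l ≠ i → ∑ j, T l j * R j i = 0) := by
  classical
  set M : ℍ → Matrix ι ι ℂ := fun z => Matrix.of fun j i => T j i z with hMdef
  refine ⟨fun z => (M z).det, fun j i z => (M z).adjugate j i, ?_, ?_, ?_, ?_, ?_⟩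
  · have := dual_det_mem k k T hT
    rw [← two_mul] at this
    exact this
  · intro z hz
    obtain ⟨v, hv0, hv⟩ := Matrix.exists_mulVec_eq_zero_iff.mpr hz
    refine hv0 (hnd z v fun j => ?_)
    have := congrFun hv j
    simp only [Matrix.mulVec, dotProduct, Pi.zero_apply] at this
    rw [← this]
    refine Finset.sum_congr rfl fun i _ => ?_
    simp [hMdef, mul_comm]
  · intro j i
    set M' : ι → ι → ℍ → ℂ := fun l m => if l = i then (if m = j then 1 else 0) else T l m
      with hM'
    have h0 : (fun z => (M z).adjugate j i) =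
        fun z : ℍ => Matrix.det (Matrix.of fun l m => M' l m z) := by
      ext z
      rw [Matrix.adjugate_apply]
      congr 1
      ext l m
      by_cases hl : l = i
      · subst hl
        by_cases hm : m = j
        · subst hm
          simp [hM']
        · simp [hM', hm]
      · simp [hM', hl, hMdef, Matrix.updateRow_apply]
    change (fun z => (M z).adjugate j i) ∈ _
    rw [h0]
    have h1 := dual_det_mem (Function.update k i (-k j)) k M' (fun l m => by
      by_cases hl : l = i
      · subst hl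
        by_cases hm : m = j
        · subst hm
          simp only [hM', if_true, Function.update_self]
          exact MF_congr (by ring) MF_one
        · simp only [hM', if_true, if_neg hm]
          exact Submodule.zero_mem _
      · simp only [hM', if_neg hl, Function.update_of_ne hl]
        exact hT l m)
    refine MF_congr ?_ h1
    have h2 := Finset.sum_update_of_mem (Finset.mem_univ i) k (-k j)
    have h3 := Finset.add_sum_erase Finset.univ k (Finset.mem_univ i)
    rw [Finset.sdiff_singleton_eq_erase] at h2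
    rw [h2]
    linarith
  · intro l
    ext z
    have h1 := congrFun (congrFun (Matrix.mul_adjugate (M z)) l) l
    simp only [Matrix.mul_apply, Matrix.smul_apply, Matrix.one_apply_eq, smul_eq_mul,
      mul_one] at h1
    simp only [Finset.sum_apply, Pi.mul_apply]
    rw [← h1]
    rfl
  · intro l i hli
    ext z
    have h1 := congrFun (congrFun (Matrix.mul_adjugate (M z)) l) i
    simp only [Matrix.mul_apply, Matrix.smul_apply, Matrix.one_apply_ne hli, smul_eq_mul,
      mul_zero] at h1
    simp only [Finset.sum_apply, Pi.mul_apply, Pi.zero_apply]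
    rw [← h1]
    rfl

/-- The adjugate basis `h i = ∑ j, adj(T) j i * F j`. -/
theorem FreeBasis.exists_predual (B : FreeBasis N) :
    ∃ (c : ℂ) (e : ℕ) (h : B.ι → ℍ → ℂ), c ≠ 0 ∧
      (∀ i, h i ∈ MF (G0 N) (12 * e - B.k i)) ∧
      (∀ i, trP N (B.k i + (12 * e - B.k i)) (B.F i * h i) =
        c • ModularForm.discriminant ^ e) ∧
      (∀ l i, l ≠ i → trP N (B.k l + (12 * e - B.k i)) (B.F l * h i) = 0) := by
  obtain ⟨D, R, hD, hD0, hR, hdiag, hoff⟩ := dual_exists_adj B.k
    (fun j i => trP N (B.k j + B.k i) (B.F j * B.F i))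
    (fun j i => trP_mem N (MF_mul (B.mem j) (B.mem i)))
    (fun z c hc => B.trace_nondegenerate z c hc)
  obtain ⟨c, e, hc, he, hDe⟩ := lo_nonvanishing _ hD hD0
  have key : ∀ l i, trP N (B.k l + (12 * e - B.k i)) (B.F l * ∑ j, R j i * B.F j) =
      ∑ j, trP N (B.k l + B.k j) (B.F l * B.F j) * R j i := by
    intro l i
    rw [Finset.mul_sum, dual_trP_sum]
    refine Finset.sum_congr rfl fun j _ => ?_
    rw [mul_left_comm, dual_trP_congr (show B.k l + (12 * (e : ℤ) - B.k i) =
      (2 * ∑ l, B.k l - B.k j - B.k i) + (B.k l + B.k j) by linarith),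
      dual_trP_mul _ (hR j i), mul_comm]
  refine ⟨c, e, fun i => ∑ j, R j i * B.F j, hc, fun i => ?_, fun i => ?_, fun l i hli => ?_⟩
  · refine Submodule.sum_mem _ fun j _ => ?_
    exact MF_congr (by linarith) (MF_mul (MF_levelOne_le N (hR j i)) (B.mem j))
  · rw [key, hdiag, hDe]
  · rw [key, hoff l i hli]

/-- The adjugate basis pairs every form into `Δ ^ e * (level one)`. -/
theorem FreeBasis.predual_pair (B : FreeBasis N) {c : ℂ} {e : ℕ} {h : B.ι → ℍ → ℂ}
    (hd : ∀ i, trP N (B.k i + (12 * e - B.k i)) (B.F i * h i) =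
      c • ModularForm.discriminant ^ e)
    (ho : ∀ l i, l ≠ i → trP N (B.k l + (12 * e - B.k i)) (B.F l * h i) = 0)
    (i : B.ι) (u : ℤ) (f : ℍ → ℂ) (hf : f ∈ MF (G0 N) u) :
    ∃ A ∈ MF 𝒮ℒ (u + (12 * e - B.k i) - 12 * e),
      trP N (u + (12 * e - B.k i)) (f * h i) = ModularForm.discriminant ^ e * A := by
  classical
  obtain ⟨A, hA, rfl⟩ := B.span u f hf
  refine ⟨c • A i, MF_congr (by ring) (Submodule.smul_mem _ c (hA i)), ?_⟩
  rw [Finset.sum_mul, dual_trP_sum, Finset.sum_eq_single i]
  · rw [mul_assoc, dual_trP_congr (show u + (12 * (e : ℤ) - B.k i) =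
      (u - B.k i) + (B.k i + (12 * e - B.k i)) by ring), dual_trP_mul _ (hA i), hd]
    ext z
    simp only [Pi.mul_apply, Pi.smul_apply, smul_eq_mul, Pi.pow_apply]
    ring
  · intro l _ hli
    rw [mul_assoc, dual_trP_congr (show u + (12 * (e : ℤ) - B.k i) =
      (u - B.k l) + (B.k l + (12 * e - B.k i)) by ring), dual_trP_mul _ (hA l), ho l i hli,
      mul_zero]
  · intro hi
    exact absurd (Finset.mem_univ i) hi

open Classical in
/-- The dual basis: cusp forms `G i` of weight `12 - k i` with `Tr(F j * G i) = Δ δ_{ij}`. -/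
theorem FreeBasis.exists_dual (B : FreeBasis N) :
    ∃ G : B.ι → ℍ → ℂ, (∀ i, G i ∈ CF (G0 N) (12 - B.k i)) ∧
      ∀ i j, trP N (B.k j + (12 - B.k i)) (B.F j * G i) =
        if i = j then ModularForm.discriminant else 0 := by
  obtain ⟨c, e, h, hc, hh, hd, ho⟩ := B.exists_predual
  have hG : ∀ i, ∃ G ∈ CF (G0 N) (12 * (e : ℤ) - B.k i + 12 - 12 * e),
      ModularForm.discriminant ^ e * G = ModularForm.discriminant * h i := fun i =>
    B.dual_of_trace_div e (hh i) (fun u f hf => B.predual_pair hd ho i u f hf)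
  choose G' hG' hGe using hG
  have hΔ : ModularForm.discriminant ∈ MF 𝒮ℒ 12 := CF_le_MF discriminant_mem_CF
  have hΔe : ModularForm.discriminant ^ e ∈ MF 𝒮ℒ (e * 12) := MF_pow hΔ e
  have key : ∀ i j, ModularForm.discriminant ^ e *
      trP N (B.k j + (12 - B.k i)) (B.F j * G' i) =
      ModularForm.discriminant * trP N (B.k j + (12 * e - B.k i)) (B.F j * h i) := by
    intro i j
    rw [← dual_trP_mul _ hΔe, ← dual_trP_mul _ hΔ, mul_left_comm, hGe, mul_left_comm]
    exact dual_trP_congr (by ring) _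
  refine ⟨fun i => c⁻¹ • G' i, fun i => ?_, fun i j => ?_⟩
  · exact CF_congr (by ring) (Submodule.smul_mem _ _ (hG' i))
  · rw [mul_smul_comm, dual_trP_smul]
    ext z
    have hz := congrFun (key i j) z
    have hΔz : ModularForm.discriminant z ≠ 0 := ModularForm.discriminant_ne_zero z
    have hΔez : ModularForm.discriminant z ^ e ≠ 0 := pow_ne_zero _ hΔz
    simp only [Pi.mul_apply, Pi.pow_apply] at hz
    by_cases hij : i = j
    · subst hij
      rw [hd i] at hz
      simp only [Pi.smul_apply, Pi.pow_apply, smul_eq_mul] at hz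
      rw [if_pos rfl]
      simp only [Pi.smul_apply, smul_eq_mul]
      have h1 : trP N (B.k i + (12 - B.k i)) (B.F i * G' i) z =
          c * ModularForm.discriminant z := by
        apply mul_left_cancel₀ hΔez
        rw [hz]
        ring
      rw [h1, ← mul_assoc, inv_mul_cancel₀ hc, one_mul]
    · rw [ho j i (fun h' => hij h'.symm)] at hz
      simp only [Pi.zero_apply, mul_zero] at hz
      rw [if_neg hij]
      simp only [Pi.smul_apply, smul_eq_mul, Pi.zero_apply]
      rw [(mul_eq_zero.mp hz).resolve_left hΔez, mul_zero]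

end Dual

end Fermat.Agent.S20
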