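import Fermat.Agent.S20.LoDim
import Fermat.Agent.S20.Det
import Fermat.Agent.S20.Jets

/-!
# S20 piece (G2): the jet lemma for the dual basis

If `h` is a form of level `Γ₀(N)` such that `trP (f * h)` is divisible by `Δ ^ e` (in level one
forms) for every form `f`, then `h / Δ ^ (e - 1)` is a cusp form.
-/

set_option autoImplicit false

namespace Fermat.Agent.S20

open UpperHalfPlane ModularForm CongruenceSubgroup SlashInvariantForm Module
open scoped MatrixGroups Manifold

local notation "Δ" => ModularForm.discriminant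

section DualJet

variable {N : ℕ} [NeZero N]

/-- In large even weight the dimension jumps by the index when the weight grows by `12`. -/
theorem FreeBasis.dualJet_hdim (B : FreeBasis N) (u : ℤ) (hu : ∀ i, B.k i + 12 ≤ u)
    (hev : Even u) :
    finrank ℂ (MF (G0 N) u) = finrank ℂ (MF (G0 N) (u - 12)) + Fintype.card (QQ N) := by
  rw [B.finrank_MF, B.finrank_MF, ← B.card_eq]
  have h : ∀ i, loDim (u - B.k i) = loDim (u - 12 - B.k i) + 1 := by
    intro i
    have h1 := loDim_add_twelve (u - 12 - B.k i) (by linarith [hu i])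
      ((hev.sub (by decide)).sub (B.k_even i))
    rw [← h1]
    congr 1
    ring
  rw [Finset.sum_congr rfl (fun i _ => h i), Finset.sum_add_distrib]
  simp

theorem dualJet_qnice_discriminant : Fermat.Agent.S23.QNice Δ :=
  Fermat.Agent.S23.qnice_SL CuspForm.discriminant

/-- The coefficients of index `< e` of `Δ ^ e * A` vanish. -/
theorem dualJet_coeff_eq_zero (e : ℕ) {a : ℤ} {A : ℍ → ℂ} (hA : A ∈ MF 𝒮ℒ a) (d : ℕ)
    (hd : d < e) : (qExpansion 1 (Δ ^ e * A)).coeff d = 0 := by
  obtain ⟨F, rfl⟩ := hA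
  have hF : Fermat.Agent.S23.QNice (⇑F) := Fermat.Agent.S23.qnice_SL F
  have hX : (PowerSeries.X : PowerSeries ℂ) ∣ qExpansion 1 Δ := by
    rw [PowerSeries.X_dvd_iff]
    have h1 : (qExpansion 1 Δ).coeff 0 = 0 := by
      apply PowerSeries.coeff_of_lt_order
      rw [ModularForm.discriminant_qExpansion_order]
      norm_num
    simpa using h1
  obtain ⟨c, hc⟩ := hX
  show (qExpansion 1 (Δ ^ e * ⇑F)).coeff d = 0
  rw [(dualJet_qnice_discriminant.pow e).qExpansion_mul hF,
    dualJet_qnice_discriminant.qExpansion_pow, hc, mul_pow, mul_assoc,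
    PowerSeries.coeff_X_pow_mul']
  simp [Nat.not_le.mpr hd]

/-- Key step: all jets of `h` of order `≤ e N` vanish. -/
theorem FreeBasis.dualJet_jets_vanish (B : FreeBasis N) (e : ℕ) {v : ℤ} {h : ℍ → ℂ}
    (hh : h ∈ MF (G0 N) v)
    (htr : ∀ (u : ℤ) (f : ℍ → ℂ), f ∈ MF (G0 N) u →
      ∃ A ∈ MF 𝒮ℒ (u + v - 12 * ((e + 1 : ℕ) : ℤ)), trP N (u + v) (f * h) = Δ ^ (e + 1) * A)
    (q : QQ N) (n : ℕ) (hn : n ≤ e * N) : jet N v h q n = 0 := by
  classical
  by_contra hne
  have hex : ∃ n : ℕ, ∃ q : QQ N, jet N v h q n ≠ 0 := ⟨n, q, hne⟩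
  obtain ⟨q₀, hq₀⟩ := Nat.find_spec hex
  have hmin : ∀ m < Nat.find hex, ∀ q, jet N v h q m = 0 := by
    intro m hm q
    by_contra hc
    exact Nat.find_min hex hm ⟨q, hc⟩
  have hn₀le : Nat.find hex ≤ e * N := (Nat.find_min' hex ⟨q, hne⟩).trans hn
  generalize Nat.find hex = n₀ at hq₀ hmin hn₀le
  have hNpos : 0 < N := NeZero.pos N
  -- `d = ⌈n₀ / N⌉`
  obtain ⟨d, hd1, hd2⟩ : ∃ d : ℕ, n₀ ≤ d * N ∧ d * N < n₀ + N := by
    refine ⟨(n₀ + N - 1) / N, ?_, ?_⟩
    · have := Nat.div_add_mod (n₀ + N - 1) N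
      have hm := Nat.mod_lt (n₀ + N - 1) hNpos
      have : N * ((n₀ + N - 1) / N) = (n₀ + N - 1) / N * N := Nat.mul_comm _ _
      omega
    · have := Nat.div_mul_le_self (n₀ + N - 1) N
      omega
  have hde : d ≤ e := by
    by_contra hcon
    have : (e + 1) * N ≤ d * N := Nat.mul_le_mul_right N (by omega)
    have h2 : (e + 1) * N = e * N + N := by ring
    omega
  obtain ⟨n₁, hn₁⟩ : ∃ n₁ : ℕ, n₁ + n₀ = d * N := ⟨d * N - n₀, by omega⟩
  have hn₁lt : n₁ < N := by omega
  -- the weight `u`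
  have hk0 : ∀ i, 0 ≤ B.k i := B.k_nonneg
  obtain ⟨u, hu1, hu2⟩ : ∃ u : ℤ, (∀ i, B.k i + 12 ≤ u) ∧ Even u := by
    refine ⟨12 + 2 * ∑ i, B.k i, fun i => ?_, ?_⟩
    · have h1 : B.k i ≤ ∑ j, B.k j :=
        Finset.single_le_sum (fun j _ => hk0 j) (Finset.mem_univ i)
      have h2 : 0 ≤ ∑ j, B.k j := Finset.sum_nonneg fun j _ => hk0 j
      linarith
    · exact (show Even (12 : ℤ) by decide).add (even_two_mul _)
  -- the jets of `f`
  let a : QQ N → ℕ → ℂ := fun q n => if n = n₁ then (starRingEnd ℂ) (jet N v h q n₀) else 0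
  have ha : ∀ (q : QQ N) (n : ℕ),
      a (sT⁻¹ • q) n = Complex.exp (2 * Real.pi * Complex.I * n / N) * a q n := by
    intro q n
    by_cases hnn : n = n₁
    · subst hnn
      simp only [a, if_pos rfl]
      rw [jet_sT_inv_smul N hh, map_mul]
      congr 1
      rw [← Complex.exp_conj, Complex.exp_eq_exp_iff_exists_int]
      refine ⟨-(d : ℤ), ?_⟩
      have hN0 : (N : ℂ) ≠ 0 := Nat.cast_ne_zero.mpr hNpos.ne'
      have hcast : (n : ℂ) + (n₀ : ℂ) = (d : ℂ) * (N : ℂ) := by exact_mod_cast hn₁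
      have hn0 : (n₀ : ℂ) = (d : ℂ) * (N : ℂ) - (n : ℂ) := by linear_combination hcast
      simp only [map_div₀, map_mul, map_ofNat, Complex.conj_ofReal, Complex.conj_I,
        map_natCast]
      rw [hn0]
      push_cast
      field_simp
      ring
    · simp [a, hnn]
  obtain ⟨f, hf, hfj⟩ := jets_surjective N (B.dualJet_hdim u hu1 hu2) a ha
  obtain ⟨A, hA, hAeq⟩ := htr u f hf
  have hc0 : (qExpansion 1 (trP N (u + v) (f * h))).coeff d = 0 := by
    rw [hAeq]
    exact dualJet_coeff_eq_zero (e + 1) hA d (by omega)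
  rw [coeff_trP_mul N hf hh] at hc0
  have hinner : ∀ q : QQ N,
      ∑ n ∈ Finset.range (d * N + 1), jet N u f q n * jet N v h q (d * N - n) =
        (Complex.normSq (jet N v h q n₀) : ℂ) := by
    intro q
    rw [Finset.sum_eq_single n₁]
    · rw [hfj q n₁ hn₁lt]
      simp only [a, if_pos rfl]
      have : d * N - n₁ = n₀ := by omega
      rw [this, mul_comm, Complex.mul_conj]
    · intro n hn hnn
      rw [Finset.mem_range] at hn
      by_cases hlt : d * N - n < n₀
      · rw [hmin _ hlt q, mul_zero]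
      · rw [hfj q n (by omega)]
        simp [a, hnn]
    · intro hnot
      exfalso
      apply hnot
      rw [Finset.mem_range]
      omega
  rw [Finset.sum_congr rfl (fun q _ => hinner q)] at hc0
  have hc1 : ∑ q : QQ N, Complex.normSq (jet N v h q n₀) = 0 := by exact_mod_cast hc0
  have hc2 := (Finset.sum_eq_zero_iff_of_nonneg (fun q _ => Complex.normSq_nonneg _)).mp hc1 q₀
    (Finset.mem_univ _)
  exact hq₀ (Complex.normSq_eq_zero.mp hc2)

theorem dualJet_tendsto_exp :
    Filter.Tendsto (fun z : ℍ => Real.exp (-2 * Real.pi * z.im / N)) atImInfty (nhds 0) := by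
  have hNpos : (0 : ℝ) < N := Nat.cast_pos.mpr (NeZero.pos N)
  have h1 : Filter.Tendsto (fun z : ℍ => z.im) atImInfty Filter.atTop := Filter.tendsto_comap
  have h2 : Filter.Tendsto (fun z : ℍ => -(2 * Real.pi / N) * z.im) atImInfty Filter.atBot :=
    Filter.Tendsto.const_mul_atTop_of_neg (by
      have : 0 < 2 * Real.pi / N := by positivity
      linarith) h1
  have h3 := Real.tendsto_exp_atBot.comp h2
  refine h3.congr fun z => ?_
  simp only [Function.comp_apply]
  congr 1
  field_simp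

/-- **Jet lemma.** If `trP (f * h)` is divisible by `Δ ^ e` for all forms `f`, then
`Δ * h = Δ ^ e * G` with a cusp form `G`. -/
theorem FreeBasis.dual_of_trace_div (B : FreeBasis N) (e : ℕ) {v : ℤ} {h : ℍ → ℂ}
    (hh : h ∈ MF (G0 N) v)
    (htr : ∀ (u : ℤ) (f : ℍ → ℂ), f ∈ MF (G0 N) u →
      ∃ A ∈ MF 𝒮ℒ (u + v - 12 * e), trP N (u + v) (f * h) = Δ ^ e * A) :
    ∃ G ∈ CF (G0 N) (v + 12 - 12 * e), Δ ^ e * G = Δ * h := by
  rcases e with _ | e
  · refine ⟨Δ * h, ?_, by simp⟩
    have := CF_mul_MF (CF_levelOne_le N discriminant_mem_CF) hh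
    exact CF_congr (by push_cast; ring) this
  · have hjets : ∀ (q : QQ N) (n : ℕ), n ≤ e * N → jet N v h q n = 0 :=
      fun q n hn => B.dualJet_jets_vanish e hh htr q n hn
    have hΔ0 : ∀ z : ℍ, Δ z ^ e ≠ 0 := fun z => pow_ne_zero _ (discriminant_ne_zero z)
    let G : ℍ → ℂ := fun z => h z / Δ z ^ e
    have hGmul : G * Δ ^ e = h := by
      funext z
      simp only [G, Pi.mul_apply, Pi.pow_apply]
      exact div_mul_cancel₀ _ (hΔ0 z)
    have hΔmem : (Δ ^ e : ℍ → ℂ) ∈ MF 𝒮ℒ (e * 12) :=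
      MF_pow (CF_le_MF discriminant_mem_CF) e
    have hslash : ∀ γ : SL(2, ℤ), (G ∣[v - e * 12] γ) * Δ ^ e = h ∣[v] γ := by
      intro γ
      have h1 := ModularForm.mul_slash_SL2 (v - e * 12) (e * 12) γ G (Δ ^ e)
      have h2 : (Δ ^ e : ℍ → ℂ) ∣[(e * 12 : ℤ)] γ = Δ ^ e := by
        obtain ⟨F, hF⟩ := hΔmem
        rw [← hF]
        exact F.slash_action_eq' _ ⟨γ, rfl⟩
      rw [h2, hGmul] at h1
      rw [← h1]
      congr 1
      ring
    have hslash' : ∀ (γ : SL(2, ℤ)) (z : ℍ), (G ∣[v - e * 12] γ) z = (h ∣[v] γ) z / Δ z ^ e := by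
      intro γ z
      rw [← hslash γ]
      simp only [Pi.mul_apply, Pi.pow_apply]
      exact (mul_div_cancel_right₀ _ (hΔ0 z)).symm
    have hG : G ∈ CF (G0 N) (v - e * 12) := by
      refine mem_CF_of_slash N ?_ ?_ ?_
      · exact (mdiff_of_mem_MF hh).div (mdiff_of_mem_MF hΔmem) hΔ0
      · intro γ hγ
        funext z
        rw [hslash' γ z]
        have h3 : h ∣[v] γ = h := by
          obtain ⟨F, rfl⟩ := hh
          exact F.slash_action_eq' _ ⟨γ, hγ, rfl⟩
        rw [h3]
      · intro γ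
        have hq := isBigO_of_jet_eq_zero N hh
          (QuotientGroup.mk (Fermat.Agent.S23.slMem γ)⁻¹) (e * N + 1)
          (fun n hn => hjets _ n (by omega))
        rw [← slash_eq_cj N hh γ] at hq
        have hinv := (isBigO_inv_discriminant).pow e
        have hprod := hq.mul hinv
        have hNpos : (0 : ℝ) < N := Nat.cast_pos.mpr (NeZero.pos N)
        have hzero : Filter.Tendsto (fun z : ℍ =>
            Real.exp (-2 * Real.pi * ((e * N + 1 : ℕ) : ℝ) * z.im / N) *
              Real.exp (2 * Real.pi * z.im) ^ e) atImInfty (nhds 0) := by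
          refine (dualJet_tendsto_exp (N := N)).congr fun z => ?_
          rw [← Real.exp_nat_mul, ← Real.exp_add]
          congr 1
          push_cast
          field_simp
          ring
        have hfin := hprod.trans_tendsto hzero
        refine hfin.congr fun z => ?_
        rw [hslash' γ z, div_eq_mul_inv, inv_pow]
    refine ⟨G, CF_congr (by push_cast; ring) hG, ?_⟩
    funext z
    simp only [G, Pi.mul_apply, Pi.pow_apply]
    have := hΔ0 z
    field_simp
    ring

end DualJet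

end Fermat.Agent.S20
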