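import Fermat.Agent.S20.LevelOne
import Fermat.Agent.S23.TN

/-!
# S20 piece (C): modular forms of level `Γ₀(N)` are a free graded module over level one forms

`E₄, E₆` is a regular sequence on the graded module `⨁ MF (G0 N) w` (`div_E4_of_E6_mul`), so
homogeneous lifts of a basis of `MF w / (E₄ MF (w-4) + E₆ MF (w-6))` (all `w`) form a free basis
(graded Nakayama; independence by strong induction on the weight; finiteness of the number of
generators from independence + the linear bound `finrank_MF_le`).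
-/

set_option autoImplicit false
set_option linter.unusedSectionVars false

namespace Fermat.Agent.S20

open UpperHalfPlane ModularForm CongruenceSubgroup SlashInvariantForm Module
open scoped MatrixGroups Manifold

section Free

variable (N : ℕ) [NeZero N]

/-- The quotient `f / E₄ = g / E₆` of a pair with `E₆ f = E₄ g`. -/
noncomputable def freeQuot (f g : ℍ → ℂ) : ℍ → ℂ :=
  fun z => if E₄ z ≠ 0 then f z / E₄ z else g z / E₆ z

theorem free_quot_E4 {f g : ℍ → ℂ} (h : ⇑E₆ * f = ⇑E₄ * g) : f = ⇑E₄ * freeQuot f g := by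
  funext z
  have hz := congrFun h z
  simp only [Pi.mul_apply] at hz ⊢
  unfold freeQuot
  split_ifs with h4
  · field_simp
  · have h4' : E₄ z = 0 := by simpa using h4
    have h6 : E₆ z ≠ 0 := (E4_E6_no_common_zero z).resolve_left (by simpa using h4')
    rw [h4', zero_mul] at hz ⊢
    exact (mul_eq_zero.mp hz).resolve_left h6

theorem free_quot_E6 {f g : ℍ → ℂ} (h : ⇑E₆ * f = ⇑E₄ * g) : g = ⇑E₆ * freeQuot f g := by
  funext z
  have hz := congrFun h z
  simp only [Pi.mul_apply] at hz ⊢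
  unfold freeQuot
  split_ifs with h4
  · field_simp
    linear_combination -hz
  · have h4' : E₄ z = 0 := by simpa using h4
    have h6 : E₆ z ≠ 0 := (E4_E6_no_common_zero z).resolve_left (by simpa using h4')
    field_simp

/-- A function which multiplied by `E₄` and by `E₆` gives holomorphic functions is holomorphic. -/
theorem free_mdiff_of_mul {q : ℍ → ℂ} (h4 : MDiff (⇑E₄ * q)) (h6 : MDiff (⇑E₆ * q)) :
    MDiff q := by
  intro z₀
  rw [UpperHalfPlane.mdifferentiableAt_iff]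
  have key : ∀ (E : ℍ → ℂ), MDiff E → MDiff (E * q) → E z₀ ≠ 0 →
      DifferentiableAt ℂ (q ∘ ofComplex) ↑z₀ := by
    intro E hE hEq hne
    have h1 : DifferentiableAt ℂ (E ∘ ofComplex) ↑z₀ :=
      UpperHalfPlane.mdifferentiableAt_iff.mp (hE z₀)
    have h2 : DifferentiableAt ℂ ((E * q) ∘ ofComplex) ↑z₀ :=
      UpperHalfPlane.mdifferentiableAt_iff.mp (hEq z₀)
    have hne' : (E ∘ ofComplex) ↑z₀ ≠ 0 := by
      simpa [Function.comp_apply, ofComplex_apply] using hne
    have h3 := h2.div h1 hne'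
    refine h3.congr_of_eventuallyEq ?_
    filter_upwards [h1.continuousAt.eventually_ne hne'] with x hx
    simp only [Function.comp_apply, Pi.mul_apply, Pi.div_apply] at hx ⊢
    field_simp
  rcases E4_E6_no_common_zero z₀ with h | h
  · exact key _ E₄.holo' h4 h
  · exact key _ E₆.holo' h6 h

theorem free_E4_slash (γ : SL(2, ℤ)) : (⇑E₄ : ℍ → ℂ) ∣[(4 : ℤ)] γ = ⇑E₄ :=
  SlashInvariantFormClass.slash_action_eq E₄ _ ⟨γ, rfl⟩

theorem free_E6_slash (γ : SL(2, ℤ)) : (⇑E₆ : ℍ → ℂ) ∣[(6 : ℤ)] γ = ⇑E₆ :=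
  SlashInvariantFormClass.slash_action_eq E₆ _ ⟨γ, rfl⟩

theorem free_E4_mul_slash (w : ℤ) (q : ℍ → ℂ) (γ : SL(2, ℤ)) :
    (⇑E₄ * q) ∣[w] γ = ⇑E₄ * q ∣[w - 4] γ := by
  have h := mul_slash_SL2 4 (w - 4) γ (⇑E₄) q
  rw [free_E4_slash, show (4 : ℤ) + (w - 4) = w by ring] at h
  exact h

theorem free_E6_mul_slash (w : ℤ) (q : ℍ → ℂ) (γ : SL(2, ℤ)) :
    (⇑E₆ * q) ∣[w + 2] γ = ⇑E₆ * q ∣[w - 4] γ := by
  have h := mul_slash_SL2 6 (w - 4) γ (⇑E₆) q
  rw [free_E6_slash, show (6 : ℤ) + (w - 4) = w + 2 by ring] at h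
  exact h

theorem free_slash_of_mem {w : ℤ} {f : ℍ → ℂ} (hf : f ∈ MF (G0 N) w) (γ : SL(2, ℤ))
    (hγ : γ ∈ Gamma0 N) : f ∣[w] γ = f := by
  obtain ⟨F, rfl⟩ := hf
  exact SlashInvariantFormClass.slash_action_eq F _ (Subgroup.mem_map_of_mem _ hγ)

theorem free_bdd_of_mem {w : ℤ} {f : ℍ → ℂ} (hf : f ∈ MF (G0 N) w) (γ : SL(2, ℤ)) :
    IsBoundedAtImInfty (f ∣[w] γ) := by
  rw [slash_eq_cj N hf γ]
  exact isBoundedAtImInfty_cj N hf _

/-- Division: if `E₆ * f = E₄ * g` then `f` is divisible by `E₄` (in level `Γ₀(N)`). -/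
theorem div_E4_of_E6_mul {w : ℤ} {f g : ℍ → ℂ} (hf : f ∈ MF (G0 N) w)
    (hg : g ∈ MF (G0 N) (w + 2)) (h : ⇑E₆ * f = ⇑E₄ * g) :
    ∃ f' ∈ MF (G0 N) (w - 4), f = ⇑E₄ * f' := by
  have h4 := free_quot_E4 h
  have h6 := free_quot_E6 h
  refine ⟨freeQuot f g, ?_, h4⟩
  apply mem_MF_of_slash N
  · exact free_mdiff_of_mul (h4 ▸ mdiff_of_mem_MF hf) (h6 ▸ mdiff_of_mem_MF hg)
  · intro γ hγ
    have e4 : ⇑E₄ * freeQuot f g ∣[w - 4] γ = ⇑E₄ * freeQuot f g := by
      rw [← free_E4_mul_slash, ← h4]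
      exact free_slash_of_mem N hf γ hγ
    have e6 : ⇑E₆ * freeQuot f g ∣[w - 4] γ = ⇑E₆ * freeQuot f g := by
      rw [← free_E6_mul_slash, ← h6]
      exact free_slash_of_mem N hg γ hγ
    funext z
    have e4z := congrFun e4 z
    have e6z := congrFun e6 z
    simp only [Pi.mul_apply] at e4z e6z
    rcases E4_E6_no_common_zero z with hz | hz
    · exact mul_left_cancel₀ hz e4z
    · exact mul_left_cancel₀ hz e6z
  · intro γ
    have e4 : ⇑E₄ * freeQuot f g ∣[w - 4] γ = f ∣[w] γ := by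
      rw [← free_E4_mul_slash, ← h4]
    obtain ⟨M, A, hMA⟩ := isBoundedAtImInfty_iff.mp (free_bdd_of_mem N hf γ)
    have hE : ∀ᶠ z in atImInfty, (1 / 2 : ℝ) < ‖E₄ z‖ := by
      have h1 : Filter.Tendsto (fun z => ‖E₄ z‖) atImInfty (nhds ‖(1 : ℂ)‖) :=
        (Fermat.Agent.S23.tN_E4_tendsto).norm
      rw [norm_one] at h1
      exact h1.eventually (lt_mem_nhds (by norm_num))
    obtain ⟨A', hA'⟩ := (atImInfty_mem _).mp hE
    rw [isBoundedAtImInfty_iff]
    refine ⟨2 * |M|, max A A', fun z hz => ?_⟩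
    have hz1 : ‖(f ∣[w] γ) z‖ ≤ M := hMA z (le_trans (le_max_left _ _) hz)
    have hz2 : (1 / 2 : ℝ) < ‖E₄ z‖ := hA' z (le_trans (le_max_right _ _) hz)
    have e4z := congrFun e4 z
    simp only [Pi.mul_apply] at e4z
    rw [← e4z, norm_mul] at hz1
    have hM : M ≤ |M| := le_abs_self M
    have hq : 0 ≤ ‖(freeQuot f g ∣[w - 4] γ) z‖ := norm_nonneg _
    nlinarith

/-! ### Cancellation -/

theorem free_mul_cancel {a φ : ℍ → ℂ} (ha : MDiff a) (hφ : MDiff φ) (z₀ : ℍ) (ha0 : a z₀ ≠ 0)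
    (h : a * φ = 0) : φ = 0 := by
  have hA := (UpperHalfPlane.mdifferentiable_iff.mp ha).analyticOnNhd isOpen_upperHalfPlaneSet
  have hP := (UpperHalfPlane.mdifferentiable_iff.mp hφ).analyticOnNhd isOpen_upperHalfPlaneSet
  have hfg : ∀ z ∈ upperHalfPlaneSet, (a ∘ ofComplex) z * (φ ∘ ofComplex) z = 0 := by
    intro z _
    exact congrFun h (ofComplex z)
  have hpre : IsPreconnected upperHalfPlaneSet :=
    (Complex.isConnected_of_upperHalfPlane subset_rfl (by grind)).isPreconnected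
  rcases hA.eq_zero_or_eq_zero_of_mul_eq_zero hP hfg hpre with h1 | h1
  · exfalso
    apply ha0
    have := h1 (z₀ : ℂ) z₀.im_pos
    simpa [Function.comp_apply, ofComplex_apply] using this
  · funext τ
    have := h1 (τ : ℂ) τ.im_pos
    simpa [Function.comp_apply, ofComplex_apply] using this

/-- `E₆` tends to `1` at `i∞`. -/
theorem free_E6_tendsto : Filter.Tendsto (⇑E₆) atImInfty (nhds 1) := by
  have hper : Function.Periodic (⇑E₆ ∘ ofComplex) 1 :=
    SlashInvariantFormClass.periodic_comp_ofComplex E₆ one_mem_strictPeriods_SL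
  have han := ModularFormClass.analyticAt_cuspFunction_zero E₆ one_pos one_mem_strictPeriods_SL
  have h0 : cuspFunction 1 E₆ 0 = 1 := by
    have := EisensteinSeries.E_qExpansion_coeff_zero (k := 6) (by norm_num) ⟨3, rfl⟩
    simpa [qExpansion_coeff] using this
  have hcomp : (cuspFunction 1 E₆ ∘ fun τ : ℍ ↦ Function.Periodic.qParam 1 τ) = ⇑E₆ := by
    funext τ
    simpa using eq_cuspFunction τ one_ne_zero hper
  have h := han.continuousAt.tendsto.comp (qParam_tendsto_atImInfty one_pos)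
  rw [hcomp, h0] at h
  exact h

theorem free_exists_ne_zero_of_tendsto {a : ℍ → ℂ} (h : Filter.Tendsto a atImInfty (nhds 1)) :
    ∃ z : ℍ, a z ≠ 0 := by
  have h1 : ∀ᶠ z in atImInfty, a z ≠ 0 := h.eventually_ne one_ne_zero
  exact h1.exists

theorem free_E4_cancel {φ : ℍ → ℂ} (hφ : MDiff φ) (h : ⇑E₄ * φ = 0) : φ = 0 := by
  obtain ⟨z₀, hz₀⟩ := free_exists_ne_zero_of_tendsto Fermat.Agent.S23.tN_E4_tendsto
  exact free_mul_cancel E₄.holo' hφ z₀ hz₀ h

theorem free_E6_cancel {φ : ℍ → ℂ} (hφ : MDiff φ) (h : ⇑E₆ * φ = 0) : φ = 0 := by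
  obtain ⟨z₀, hz₀⟩ := free_exists_ne_zero_of_tendsto free_E6_tendsto
  exact free_mul_cancel E₆.holo' hφ z₀ hz₀ h

/-! ### The submodule `E₄ M_{w-4} + E₆ M_{w-6}` -/

/-- `E₄ * MF (w - 4) + E₆ * MF (w - 6)`. -/
noncomputable def freeI (w : ℤ) : Submodule ℂ (ℍ → ℂ) :=
  (MF (G0 N) (w - 4)).map (LinearMap.mulLeft ℂ (⇑E₄ : ℍ → ℂ)) ⊔
    (MF (G0 N) (w - 6)).map (LinearMap.mulLeft ℂ (⇑E₆ : ℍ → ℂ))

theorem mem_freeI {w : ℤ} {f : ℍ → ℂ} : f ∈ freeI N w ↔
    ∃ u ∈ MF (G0 N) (w - 4), ∃ v ∈ MF (G0 N) (w - 6), f = ⇑E₄ * u + ⇑E₆ * v := by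
  unfold freeI
  rw [Submodule.mem_sup]
  constructor
  · rintro ⟨x, hx, y, hy, rfl⟩
    obtain ⟨u, hu, rfl⟩ := Submodule.mem_map.mp hx
    obtain ⟨v, hv, rfl⟩ := Submodule.mem_map.mp hy
    exact ⟨u, hu, v, hv, rfl⟩
  · rintro ⟨u, hu, v, hv, rfl⟩
    exact ⟨_, Submodule.mem_map_of_mem hu, _, Submodule.mem_map_of_mem hv, rfl⟩

theorem free_E4_mul_mem {w : ℤ} {u : ℍ → ℂ} (hu : u ∈ MF (G0 N) (w - 4)) :
    ⇑E₄ * u ∈ MF (G0 N) w :=
  MF_congr (by ring) (MF_mul (MF_levelOne_le N E4_mem) hu)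

theorem free_E6_mul_mem {w : ℤ} {v : ℍ → ℂ} (hv : v ∈ MF (G0 N) (w - 6)) :
    ⇑E₆ * v ∈ MF (G0 N) w :=
  MF_congr (by ring) (MF_mul (MF_levelOne_le N E6_mem) hv)

theorem freeI_le (w : ℤ) : freeI N w ≤ MF (G0 N) w := by
  intro f hf
  obtain ⟨u, hu, v, hv, rfl⟩ := (mem_freeI N).mp hf
  exact Submodule.add_mem _ (free_E4_mul_mem N hu) (free_E6_mul_mem N hv)

theorem free_finrank_map_mul (a : ℍ → ℂ) (p : Submodule ℂ (ℍ → ℂ))
    (hcancel : ∀ φ ∈ p, a * φ = 0 → φ = 0) :
    finrank ℂ (p.map (LinearMap.mulLeft ℂ a)) = finrank ℂ p := by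
  rw [← LinearMap.range_domRestrict]
  apply LinearMap.finrank_range_of_inj
  intro x y hxy
  have h1 : a * ((x : ℍ → ℂ) - y) = 0 := by
    have h2 : a * (x : ℍ → ℂ) = a * y := hxy
    rw [mul_sub, h2, sub_self]
  have h3 := hcancel _ (p.sub_mem x.2 y.2) h1
  exact Subtype.ext (sub_eq_zero.mp h3)

/-- Dimension of `E₄ M_{w-4} + E₆ M_{w-6}`. -/
theorem free_finrank_freeI (w : ℤ) :
    finrank ℂ (freeI N w) + finrank ℂ (MF (G0 N) (w - 10)) =
      finrank ℂ (MF (G0 N) (w - 4)) + finrank ℂ (MF (G0 N) (w - 6)) := by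
  set U := (MF (G0 N) (w - 4)).map (LinearMap.mulLeft ℂ (⇑E₄ : ℍ → ℂ)) with hU
  set V := (MF (G0 N) (w - 6)).map (LinearMap.mulLeft ℂ (⇑E₆ : ℍ → ℂ)) with hV
  have hUV : U ⊓ V = (MF (G0 N) (w - 10)).map (LinearMap.mulLeft ℂ (⇑E₄ * ⇑E₆ : ℍ → ℂ)) := by
    apply le_antisymm
    · rintro x ⟨hxU, hxV⟩
      obtain ⟨a, ha, rfl⟩ := Submodule.mem_map.mp hxU
      obtain ⟨b, hb, hab⟩ := Submodule.mem_map.mp hxV
      simp only [LinearMap.mulLeft_apply] at hab ⊢
      have ha' : a ∈ MF (G0 N) (w - 6 + 2) := MF_congr (by ring) ha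
      obtain ⟨h, hh, rfl⟩ := div_E4_of_E6_mul N hb ha' hab
      have hh' : h ∈ MF (G0 N) (w - 10) := MF_congr (by ring) hh
      refine Submodule.mem_map.mpr ⟨h, hh', ?_⟩
      simp only [LinearMap.mulLeft_apply]
      rw [← hab]
      ring
    · intro x hx
      obtain ⟨h, hh, rfl⟩ := Submodule.mem_map.mp hx
      simp only [LinearMap.mulLeft_apply]
      refine ⟨Submodule.mem_map.mpr ⟨⇑E₆ * h, ?_, ?_⟩, Submodule.mem_map.mpr ⟨⇑E₄ * h, ?_, ?_⟩⟩
      · exact free_E6_mul_mem N (MF_congr (by ring) hh)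
      · simp only [LinearMap.mulLeft_apply]; ring
      · exact free_E4_mul_mem N (MF_congr (by ring) hh)
      · simp only [LinearMap.mulLeft_apply]; ring
  have h1 : finrank ℂ U = finrank ℂ (MF (G0 N) (w - 4)) :=
    free_finrank_map_mul _ _ fun φ hφ h => free_E4_cancel (mdiff_of_mem_MF hφ) h
  have h2 : finrank ℂ V = finrank ℂ (MF (G0 N) (w - 6)) :=
    free_finrank_map_mul _ _ fun φ hφ h => free_E6_cancel (mdiff_of_mem_MF hφ) h
  have h3 : finrank ℂ (U ⊓ V : Submodule ℂ (ℍ → ℂ)) = finrank ℂ (MF (G0 N) (w - 10)) := by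
    rw [hUV]
    refine free_finrank_map_mul _ _ fun φ hφ h => ?_
    have h4 : ⇑E₄ * (⇑E₆ * φ) = 0 := by rw [← mul_assoc]; exact h
    have h5 : MDiff (⇑E₆ * φ) := mdiff_of_mem_MF (free_E6_mul_mem N (w := w - 4)
      (MF_congr (by ring) hφ))
    exact free_E6_cancel (mdiff_of_mem_MF hφ) (free_E4_cancel h5 h4)
  have hfdU : FiniteDimensional ℂ U := by
    rw [hU]; infer_instance
  have hfdV : FiniteDimensional ℂ V := by
    rw [hV]; infer_instance
  have h4 := Submodule.finrank_sup_add_finrank_inf_eq U V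
  have h5 : freeI N w = U ⊔ V := rfl
  rw [h5, ← h3, h4, h1, h2]

end Free

/-! ### The counting argument -/

section FreeCount

open Finset

/-- A nonnegative integer sequence with bounded partial sums is eventually zero. -/
theorem free_eventually_zero (B : ℕ) : ∀ (a : ℕ → ℤ), (∀ x, 0 ≤ a x) →
    (∀ m, ∑ x ∈ range m, a x ≤ B) → ∃ W : ℕ, ∀ x, W ≤ x → a x = 0 := by
  induction B with
  | zero =>
    intro a ha hB
    refine ⟨0, fun x _ => ?_⟩
    have h1 : a x ≤ ∑ y ∈ range (x + 1), a y :=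
      Finset.single_le_sum (fun y _ => ha y) (Finset.self_mem_range_succ x)
    have h2 := hB (x + 1)
    have h3 := ha x
    push_cast at h2
    omega
  | succ B ih =>
    intro a ha hB
    by_cases h : ∀ x, a x = 0
    · exact ⟨0, fun x _ => h x⟩
    · push Not at h
      obtain ⟨x₀, hx₀⟩ := h
      have hx₀' : 1 ≤ a x₀ := by
        have := ha x₀
        omega
      obtain ⟨W, hW⟩ := ih (fun x => a (x₀ + 1 + x)) (fun x => ha _) (by
        intro m
        have h1 := hB (x₀ + 1 + m)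
        rw [Finset.sum_range_add] at h1
        have h2 : a x₀ ≤ ∑ y ∈ range (x₀ + 1), a y :=
          Finset.single_le_sum (fun y _ => ha y) (Finset.self_mem_range_succ x₀)
        push_cast at h1 ⊢
        linarith)
      refine ⟨x₀ + 1 + W, fun x hx => ?_⟩
      have := hW (x - (x₀ + 1)) (by omega)
      rwa [show x₀ + 1 + (x - (x₀ + 1)) = x by omega] at this

/-- The counting argument: a "Hilbert function" `D` with linear growth whose second difference
`n w = D w - D (w-4) - D (w-6) + D (w-10)` is nonnegative has `n w = 0` for large `w`. -/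
theorem free_count (D : ℤ → ℤ) (μ : ℤ) (hμ : 1 ≤ μ) (hD : ∀ w, 0 ≤ D w)
    (h0 : ∀ w, w < 0 → D w = 0)
    (hub : ∀ w, 0 ≤ w → D w ≤ w * μ + 1) (he : ∀ w, D (w - 4) ≤ D w)
    (hn : ∀ w, 0 ≤ D w - D (w - 4) - D (w - 6) + D (w - 10)) :
    ∃ W : ℤ, ∀ w, W < w → D w - D (w - 4) - D (w - 6) + D (w - 10) = 0 := by
  -- `e w = D w - D (w - 4)`
  have e_nonneg : ∀ w, 0 ≤ D w - D (w - 4) := fun w => by linarith [he w]
  have e_mono6 : ∀ w, D w - D (w - 4) ≤ D (w + 6) - D (w + 6 - 4) := by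
    intro w
    have := hn (w + 6)
    have h1 : w + 6 - 6 = w := by ring
    have h2 : w + 6 - 10 = w - 4 := by ring
    rw [h1, h2] at this
    linarith
  have e_mono : ∀ (j : ℕ) (w : ℤ), D w - D (w - 4) ≤ D (w + 6 * j) - D (w + 6 * j - 4) := by
    intro j
    induction j with
    | zero => intro w; simp
    | succ j ih =>
      intro w
      have h1 := ih w
      have h2 := e_mono6 (w + 6 * j)
      have h3 : w + 6 * ((j + 1 : ℕ) : ℤ) = w + 6 * j + 6 := by push_cast; ring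
      rw [h3]
      linarith
  have step2 : ∀ (m : ℕ) (w : ℤ), (m + 1) * (D w - D (w - 4)) ≤ D (w + 12 * m) - D (w - 4) := by
    intro m
    induction m with
    | zero => intro w; simp
    | succ m ih =>
      intro w
      have h1 := ih w
      have h2 := e_mono (2 * m + 2) w
      have h3 : w + 6 * ((2 * m + 2 : ℕ) : ℤ) = w + 12 * m + 12 := by push_cast; ring
      rw [h3] at h2
      have h4 := e_nonneg (w + 12 * m + 4)
      have h5 := e_nonneg (w + 12 * m + 8)
      have h6 : w + 12 * m + 4 - 4 = w + 12 * m := by ring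
      have h7 : w + 12 * m + 8 - 4 = w + 12 * m + 4 := by ring
      have h8 : w + 12 * m + 12 - 4 = w + 12 * m + 8 := by ring
      rw [h6] at h4
      rw [h7] at h5
      rw [h8] at h2
      have h9 : w + 12 * ((m + 1 : ℕ) : ℤ) = w + 12 * m + 12 := by push_cast; ring
      rw [h9]
      push_cast
      nlinarith
  have e_bound : ∀ w, D w - D (w - 4) ≤ 12 * μ := by
    intro w
    rcases lt_or_ge w 0 with hw | hw
    · rw [h0 w hw, h0 (w - 4) (by linarith)]
      linarith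
    · by_contra hcon
      push Not at hcon
      have hm : 0 ≤ w * μ := mul_nonneg hw (by linarith)
      obtain ⟨m, hm'⟩ := Int.eq_ofNat_of_zero_le hm
      have h1 := step2 m w
      have h2 := hub (w + 12 * m) (by positivity)
      have h3 := hD (w - 4)
      have h4 : ((m : ℤ) + 1) * (12 * μ + 1) ≤ (m + 1) * (D w - D (w - 4)) := by
        apply mul_le_mul_of_nonneg_left (by linarith) (by positivity)
      nlinarith
  -- telescoping
  have e_neg : ∀ w, w < 0 → D w - D (w - 4) = 0 := by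
    intro w hw
    rw [h0 w hw, h0 (w - 4) (by linarith)]
    ring
  have tele : ∀ m : ℕ, ∑ x ∈ range (m + 1), (D x - D (x - 4) - D (x - 6) + D (x - 10)) =
      ∑ i ∈ range 6, (D (m - i) - D (m - i - 4)) := by
    intro m
    induction m with
    | zero =>
      simp only [Finset.sum_range_succ, Finset.sum_range_zero]
      have := e_neg (-1) (by norm_num)
      have := e_neg (-2) (by norm_num)
      have := e_neg (-3) (by norm_num)
      have := e_neg (-4) (by norm_num)
      have := e_neg (-5) (by norm_num)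
      have := e_neg (-6) (by norm_num)
      norm_num at *
      linarith
    | succ m ih =>
      rw [Finset.sum_range_succ, ih]
      simp only [Finset.sum_range_succ, Finset.sum_range_zero]
      push_cast
      ring_nf
  obtain ⟨W, hW⟩ := free_eventually_zero (72 * μ).toNat
    (fun x => D x - D (x - 4) - D (x - 6) + D (x - 10)) (fun x => hn x) (by
      intro m
      rcases Nat.eq_zero_or_pos m with rfl | hm
      · simp
      · obtain ⟨m', rfl⟩ : ∃ m', m = m' + 1 := ⟨m - 1, by omega⟩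
        rw [tele m']
        have h1 : ∑ i ∈ range 6, (D (m' - i) - D (m' - i - 4)) ≤ ∑ i ∈ range 6, 12 * μ :=
          Finset.sum_le_sum fun i _ => e_bound _
        simp only [Finset.sum_const, Finset.card_range, nsmul_eq_mul] at h1
        have h2 : ((72 * μ).toNat : ℤ) = 72 * μ := Int.toNat_of_nonneg (by linarith)
        rw [h2]
        push_cast at h1
        linarith)
  refine ⟨W, fun w hw => ?_⟩
  have hw0 : 0 ≤ w := by
    have : (0 : ℤ) ≤ W := by positivity
    linarith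
  obtain ⟨x, rfl⟩ := Int.eq_ofNat_of_zero_le hw0
  exact hW x (by exact_mod_cast hw.le)

end FreeCount

section Free2

variable (N : ℕ) [NeZero N]

/-! ### Generators in a fixed weight -/

/-- Number of generators needed in weight `w`. -/
noncomputable def freeRank (w : ℤ) : ℕ := finrank ℂ (MF (G0 N) w) - finrank ℂ (freeI N w)

theorem freeRank_add (w : ℤ) :
    freeRank N w + finrank ℂ (freeI N w) = finrank ℂ (MF (G0 N) w) := by
  unfold freeRank
  exact Nat.sub_add_cancel (Submodule.finrank_mono (freeI_le N w))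

theorem free_exists_gen (w : ℤ) : ∃ b : Fin (freeRank N w) → ℍ → ℂ,
    (∀ j, b j ∈ MF (G0 N) w) ∧
    (∀ f ∈ MF (G0 N) w, ∃ c : Fin (freeRank N w) → ℂ, f - ∑ j, c j • b j ∈ freeI N w) ∧
    (∀ c : Fin (freeRank N w) → ℂ, ∑ j, c j • b j ∈ freeI N w → c = 0) := by
  obtain ⟨J, hJ⟩ : ∃ J : Submodule ℂ (MF (G0 N) w), J = (freeI N w).comap (MF (G0 N) w).subtype :=
    ⟨_, rfl⟩
  have hJrank : finrank ℂ J = finrank ℂ (freeI N w) := by
    rw [hJ]
    exact (Submodule.comapSubtypeEquivOfLe (freeI_le N w)).finrank_eq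
  have hQ : finrank ℂ (MF (G0 N) w ⧸ J) = freeRank N w := by
    have h1 := Submodule.finrank_quotient_add_finrank J
    have h2 := freeRank_add N w
    omega
  have hJmem : ∀ x : MF (G0 N) w, x ∈ J ↔ (x : ℍ → ℂ) ∈ freeI N w := by
    intro x
    rw [hJ]
    rfl
  let bQ := Module.finBasisOfFinrankEq ℂ (MF (G0 N) w ⧸ J) hQ
  have lift : ∀ j, ∃ v : MF (G0 N) w, J.mkQ v = bQ j := fun j => J.mkQ_surjective (bQ j)
  choose ℓ hℓ using lift
  refine ⟨fun j => (ℓ j : ℍ → ℂ), fun j => (ℓ j).2, ?_, ?_⟩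
  · intro f hf
    refine ⟨fun j => bQ.repr (J.mkQ ⟨f, hf⟩) j, ?_⟩
    have h1 : J.mkQ (⟨f, hf⟩ - ∑ j, bQ.repr (J.mkQ ⟨f, hf⟩) j • ℓ j) = 0 := by
      rw [map_sub, map_sum]
      simp only [map_smul, hℓ]
      rw [bQ.sum_repr, sub_self]
    have h2 : (⟨f, hf⟩ - ∑ j, bQ.repr (J.mkQ ⟨f, hf⟩) j • ℓ j : MF (G0 N) w) ∈ J := by
      rwa [Submodule.mkQ_apply, Submodule.Quotient.mk_eq_zero] at h1
    have h3 := (hJmem _).mp h2
    simpa using h3
  · intro c hc
    have h2 : (∑ j, c j • ℓ j : MF (G0 N) w) ∈ J := by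
      rw [hJmem]
      simpa using hc
    have h1 : J.mkQ (∑ j, c j • ℓ j) = 0 := by
      rw [Submodule.mkQ_apply, Submodule.Quotient.mk_eq_zero]
      exact h2
    rw [map_sum] at h1
    simp only [map_smul, hℓ] at h1
    funext j
    exact Fintype.linearIndependent_iff.mp bQ.linearIndependent c h1 j

theorem free_finrank_sub4_le (w : ℤ) :
    finrank ℂ (MF (G0 N) (w - 4)) ≤ finrank ℂ (MF (G0 N) w) := by
  rw [← free_finrank_map_mul (⇑E₄) (MF (G0 N) (w - 4))
    fun φ hφ h => free_E4_cancel (mdiff_of_mem_MF hφ) h]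
  apply Submodule.finrank_mono
  intro x hx
  obtain ⟨u, hu, rfl⟩ := Submodule.mem_map.mp hx
  exact free_E4_mul_mem N hu

theorem freeRank_cast (w : ℤ) : (freeRank N w : ℤ) =
    (finrank ℂ (MF (G0 N) w) : ℤ) - finrank ℂ (MF (G0 N) (w - 4))
      - finrank ℂ (MF (G0 N) (w - 6)) + finrank ℂ (MF (G0 N) (w - 10)) := by
  have h1 := freeRank_add N w
  have h2 := free_finrank_freeI N w
  omega

theorem freeRank_of_neg {w : ℤ} (hw : w < 0) : freeRank N w = 0 := by
  have h1 := freeRank_add N w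
  have h2 : finrank ℂ (MF (G0 N) w) = 0 := by
    rw [MF_eq_bot_of_neg N hw]
    exact finrank_bot ℂ _
  omega

theorem free_exists_bound : ∃ W : ℤ, ∀ w, W < w → freeRank N w = 0 := by
  have hμ : (1 : ℤ) ≤ ((Gamma0 N).index : ℤ) := by
    have : (Gamma0 N).index ≠ 0 := Subgroup.FiniteIndex.index_ne_zero
    omega
  obtain ⟨W, hW⟩ := free_count (fun w => (finrank ℂ (MF (G0 N) w) : ℤ)) ((Gamma0 N).index : ℤ) hμ
    (fun w => by positivity)
    (fun w hw => by
      rw [MF_eq_bot_of_neg N hw]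
      simp)
    (fun w hw => by
      have h1 := finrank_MF_le N (w := w)
      have h2 : (w * ((Gamma0 N).index : ℤ)).toNat / 12 ≤ (w * ((Gamma0 N).index : ℤ)).toNat :=
        Nat.div_le_self _ _
      have h3 : ((w * ((Gamma0 N).index : ℤ)).toNat : ℤ) = w * ((Gamma0 N).index : ℤ) :=
        Int.toNat_of_nonneg (mul_nonneg hw (by positivity))
      have h4 : (finrank ℂ (MF (G0 N) w) : ℤ) ≤ ((w * ((Gamma0 N).index : ℤ)).toNat : ℤ) + 1 := by
        exact_mod_cast h1.trans (by omega)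
      rw [h3] at h4
      exact h4)
    (fun w => by exact_mod_cast free_finrank_sub4_le N w)
    (fun w => by
      have := freeRank_cast N w
      have h0 : (0 : ℤ) ≤ freeRank N w := by positivity
      linarith)
  refine ⟨W, fun w hw => ?_⟩
  have h1 := hW w hw
  have h2 := freeRank_cast N w
  have h3 : (freeRank N w : ℤ) = 0 := by
    rw [h2]
    exact h1
  exact_mod_cast h3

/-! ### Span and independence for a minimal generating family -/

section Family

variable {ι : Type} [Fintype ι] (k : ι → ℤ) (F : ι → ℍ → ℂ)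

theorem free_span_aux
    (hs : ∀ w, ∀ f ∈ MF (G0 N) w, ∃ c : ι → ℂ, (∀ i, k i ≠ w → c i = 0) ∧
      f - ∑ i, c i • F i ∈ freeI N w) :
    ∀ n : ℕ, ∀ w : ℤ, w < n → ∀ f ∈ MF (G0 N) w,
      ∃ A : ι → ℍ → ℂ, (∀ i, A i ∈ MF 𝒮ℒ (w - k i)) ∧ f = ∑ i, A i * F i := by
  intro n
  induction n with
  | zero =>
    intro w hw f hf
    have hw' : w < 0 := by exact_mod_cast hw
    rw [MF_eq_bot_of_neg N hw', Submodule.mem_bot] at hf
    exact ⟨fun _ => 0, fun i => Submodule.zero_mem _, by simp [hf]⟩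
  | succ n ih =>
    intro w hw f hf
    have hw' : w < n + 1 := by exact_mod_cast hw
    obtain ⟨c, hc0, hc⟩ := hs w f hf
    obtain ⟨u, hu, v, hv, huv⟩ := (mem_freeI N).mp hc
    obtain ⟨A1, hA1, rfl⟩ := ih (w - 4) (by linarith) u hu
    obtain ⟨A2, hA2, rfl⟩ := ih (w - 6) (by linarith) v hv
    refine ⟨fun i => c i • (1 : ℍ → ℂ) + ⇑E₄ * A1 i + ⇑E₆ * A2 i, fun i => ?_, ?_⟩
    · refine Submodule.add_mem _ (Submodule.add_mem _ ?_ ?_) ?_
      · by_cases hki : k i = w
        · exact Submodule.smul_mem _ _ (MF_congr (by rw [hki, sub_self]) MF_one)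
        · rw [hc0 i hki, zero_smul]
          exact Submodule.zero_mem _
      · exact MF_congr (by ring) (MF_mul E4_mem (hA1 i))
      · exact MF_congr (by ring) (MF_mul E6_mem (hA2 i))
    · have h1 : f = ∑ i, c i • F i + (⇑E₄ * ∑ i, A1 i * F i + ⇑E₆ * ∑ i, A2 i * F i) := by
        rw [← huv]
        ring
      rw [h1, Finset.mul_sum, Finset.mul_sum, ← Finset.sum_add_distrib, ← Finset.sum_add_distrib]
      refine Finset.sum_congr rfl fun i _ => ?_
      rw [add_mul, add_mul, smul_mul_assoc, one_mul, mul_assoc, mul_assoc]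
      ring

theorem free_lo_weight_zero {a : ℍ → ℂ} (ha : a ∈ MF 𝒮ℒ 0) : ∃ c : ℂ, a = c • (1 : ℍ → ℂ) := by
  obtain ⟨G, hG⟩ := ha
  obtain ⟨c, hc⟩ := ModularFormClass.levelOne_weight_zero_const G
  refine ⟨c, ?_⟩
  rw [← hG]
  show ⇑G = _
  rw [hc]
  funext z
  simp

theorem free_indep_aux (hk0 : ∀ i, 0 ≤ k i) (hF : ∀ i, F i ∈ MF (G0 N) (k i))
    (hs : ∀ w, ∀ f ∈ MF (G0 N) w, ∃ c : ι → ℂ, (∀ i, k i ≠ w → c i = 0) ∧
      f - ∑ i, c i • F i ∈ freeI N w)
    (hi : ∀ w (c : ι → ℂ), (∀ i, k i ≠ w → c i = 0) → ∑ i, c i • F i ∈ freeI N w → c = 0) :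
    ∀ n : ℕ, ∀ w : ℤ, w < n → ∀ A : ι → ℍ → ℂ, (∀ i, A i ∈ MF 𝒮ℒ (w - k i)) →
      ∑ i, A i * F i = 0 → ∀ i, A i = 0 := by
  intro n
  induction n with
  | zero =>
    intro w hw A hA _ i
    have hw' : w < 0 := by exact_mod_cast hw
    have h1 := MF_levelOne_le N (hA i)
    rw [MF_eq_bot_of_neg N (by linarith [hk0 i]), Submodule.mem_bot] at h1
    exact h1
  | succ n ih =>
    intro w hw A hA hsum
    have hw' : w < n + 1 := by exact_mod_cast hw
    have hdec : ∀ i, ∃ (c : ℂ) (P Q : ℍ → ℂ), (k i ≠ w → c = 0) ∧ P ∈ MF 𝒮ℒ (w - 4 - k i) ∧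
        Q ∈ MF 𝒮ℒ (w - 6 - k i) ∧ A i = c • (1 : ℍ → ℂ) + ⇑E₄ * P + ⇑E₆ * Q := by
      intro i
      by_cases hki : k i = w
      · obtain ⟨c, hc⟩ := free_lo_weight_zero (MF_congr (by rw [hki, sub_self]) (hA i))
        exact ⟨c, 0, 0, fun h => absurd hki h, Submodule.zero_mem _, Submodule.zero_mem _,
          by rw [hc]; simp⟩
      · obtain ⟨a, b, ha, hb, hab⟩ := lo_generate (w - k i) (sub_ne_zero.mpr (Ne.symm hki)) (hA i)
        exact ⟨0, a, b, fun _ => rfl, MF_congr (by ring) ha, MF_congr (by ring) hb,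
          by rw [hab]; simp⟩
    choose c P Q hc0 hP hQ hAeq using hdec
    have hu : ∑ i, P i * F i ∈ MF (G0 N) (w - 4) :=
      Submodule.sum_mem _ fun i _ => MF_congr (by ring) (MF_mul (MF_levelOne_le N (hP i)) (hF i))
    have hv : ∑ i, Q i * F i ∈ MF (G0 N) (w - 6) :=
      Submodule.sum_mem _ fun i _ => MF_congr (by ring) (MF_mul (MF_levelOne_le N (hQ i)) (hF i))
    have hkey : ∑ i, c i • F i + (⇑E₄ * ∑ i, P i * F i + ⇑E₆ * ∑ i, Q i * F i) = 0 := by
      rw [← hsum, Finset.mul_sum, Finset.mul_sum, ← Finset.sum_add_distrib,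
        ← Finset.sum_add_distrib]
      refine Finset.sum_congr rfl fun i _ => ?_
      rw [hAeq i, add_mul, add_mul, smul_mul_assoc, one_mul, mul_assoc, mul_assoc]
      ring
    have hcmem : ∑ i, c i • F i ∈ freeI N w := by
      rw [mem_freeI]
      refine ⟨-∑ i, P i * F i, Submodule.neg_mem _ hu, -∑ i, Q i * F i, Submodule.neg_mem _ hv, ?_⟩
      linear_combination hkey
    have hc : c = 0 := hi w c hc0 hcmem
    have hkey2 : ⇑E₆ * ∑ i, Q i * F i = ⇑E₄ * -∑ i, P i * F i := by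
      have : ∑ i, c i • F i = 0 := by simp [hc]
      rw [this, zero_add] at hkey
      linear_combination hkey
    obtain ⟨h, hh, hvh⟩ := div_E4_of_E6_mul N hv
      (MF_congr (by ring) (Submodule.neg_mem _ hu)) hkey2
    have hh10 : h ∈ MF (G0 N) (w - 10) := MF_congr (by ring) hh
    have huh : ∑ i, P i * F i + ⇑E₆ * h = 0 := by
      apply free_E4_cancel
      · exact mdiff_of_mem_MF (Submodule.add_mem _ hu (free_E6_mul_mem N (MF_congr (by ring) hh10)))
      · rw [hvh] at hkey2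
        linear_combination hkey2
    obtain ⟨H, hH, hHeq⟩ := free_span_aux N k F hs ((w - 10).toNat + 1) (w - 10)
      (by push_cast; omega) h hh10
    have hPi := ih (w - 4) (by linarith) (fun i => P i + ⇑E₆ * H i)
      (fun i => Submodule.add_mem _ (hP i) (MF_congr (by ring) (MF_mul E6_mem (hH i))))
      (by
        rw [← huh, hHeq, Finset.mul_sum, ← Finset.sum_add_distrib]
        refine Finset.sum_congr rfl fun i _ => ?_
        ring)
    have hQi := ih (w - 6) (by linarith) (fun i => Q i - ⇑E₄ * H i)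
      (fun i => Submodule.sub_mem _ (hQ i) (MF_congr (by ring) (MF_mul E4_mem (hH i))))
      (by
        have : ∑ i, Q i * F i - ⇑E₄ * h = 0 := by rw [hvh]; ring
        rw [← this, hHeq, Finset.mul_sum, ← Finset.sum_sub_distrib]
        refine Finset.sum_congr rfl fun i _ => ?_
        ring)
    intro i
    have h1 : P i = -(⇑E₆ * H i) := eq_neg_of_add_eq_zero_left (hPi i)
    have h2 : Q i = ⇑E₄ * H i := sub_eq_zero.mp (hQi i)
    rw [hAeq i, hc, h1, h2]
    simp only [Pi.zero_apply, zero_smul, zero_add]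
    ring

end Family

/-! ### The free basis -/

theorem exists_freeBasis : Nonempty (FreeBasis N) := by
  classical
  obtain ⟨W, hW⟩ := free_exists_bound N
  choose gen hgen_mem hgen_span hgen_indep using free_exists_gen N
  have hrank0 : ∀ w : ℤ, w ∉ Finset.Icc (0 : ℤ) W → freeRank N w = 0 := by
    intro w hw
    rw [Finset.mem_Icc, not_and_or, not_le, not_le] at hw
    rcases hw with hw | hw
    · exact freeRank_of_neg N hw
    · exact hW w hw
  -- the index type, weights and generators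
  obtain ⟨k, hk⟩ : ∃ k : (Σ w : (Finset.Icc (0 : ℤ) W), Fin (freeRank N w.1)) → ℤ,
      k = fun i => i.1.1 := ⟨_, rfl⟩
  obtain ⟨F, hFdef⟩ : ∃ F : (Σ w : (Finset.Icc (0 : ℤ) W), Fin (freeRank N w.1)) → ℍ → ℂ,
      F = fun i => gen i.1.1 i.2 := ⟨_, rfl⟩
  have hk0 : ∀ i, 0 ≤ k i := fun i => by
    rw [hk]
    exact (Finset.mem_Icc.mp i.1.2).1
  have hF : ∀ i, F i ∈ MF (G0 N) (k i) := fun i => by
    rw [hk, hFdef]
    exact hgen_mem _ _
  -- sums over the index type supported in a single weight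
  have hsum : ∀ (w : ℤ) (hw : w ∈ Finset.Icc (0 : ℤ) W)
      (c : (Σ w : (Finset.Icc (0 : ℤ) W), Fin (freeRank N w.1)) → ℂ),
      (∀ i, k i ≠ w → c i = 0) →
      ∑ i, c i • F i = ∑ j : Fin (freeRank N w), c ⟨⟨w, hw⟩, j⟩ • gen w j := by
    intro w hw c hc
    rw [Fintype.sum_sigma, Finset.sum_eq_single (⟨w, hw⟩ : (Finset.Icc (0 : ℤ) W))]
    · rw [hFdef]
    · intro a _ ha
      refine Finset.sum_eq_zero fun j _ => ?_
      rw [hc ⟨a, j⟩ (by
        rw [hk]
        exact fun h => ha (Subtype.ext h)), zero_smul]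
    · intro h
      exact absurd (Finset.mem_univ _) h
  have hs : ∀ w, ∀ f ∈ MF (G0 N) w, ∃ c : (Σ w : (Finset.Icc (0 : ℤ) W), Fin (freeRank N w.1)) → ℂ,
      (∀ i, k i ≠ w → c i = 0) ∧ f - ∑ i, c i • F i ∈ freeI N w := by
    intro w f hf
    obtain ⟨cw, hcw⟩ := hgen_span w f hf
    by_cases hwW : w ∈ Finset.Icc (0 : ℤ) W
    · have hc0 : ∀ i : (Σ w : (Finset.Icc (0 : ℤ) W), Fin (freeRank N w.1)), k i ≠ w →
          (if h : i.1.1 = w then cw (Fin.cast (by rw [h]) i.2) else 0) = 0 := by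
        intro i hi
        rw [dif_neg]
        rw [hk] at hi
        exact hi
      refine ⟨fun i => if h : i.1.1 = w then cw (Fin.cast (by rw [h]) i.2) else 0, hc0, ?_⟩
      rw [hsum w hwW _ hc0]
      simpa using hcw
    · have hempty : IsEmpty (Fin (freeRank N w)) := by
        rw [hrank0 w hwW]
        infer_instance
      refine ⟨fun _ => 0, fun _ _ => rfl, ?_⟩
      simpa using hcw
  have hi : ∀ w (c : (Σ w : (Finset.Icc (0 : ℤ) W), Fin (freeRank N w.1)) → ℂ),
      (∀ i, k i ≠ w → c i = 0) → ∑ i, c i • F i ∈ freeI N w → c = 0 := by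
    intro w c hc hmem
    by_cases hwW : w ∈ Finset.Icc (0 : ℤ) W
    · rw [hsum w hwW c hc] at hmem
      have h0 := hgen_indep w (fun j => c ⟨⟨w, hwW⟩, j⟩) hmem
      funext i
      by_cases hki : k i = w
      · obtain ⟨⟨w', hw'⟩, j⟩ := i
        rw [hk] at hki
        simp only at hki
        subst hki
        exact congrFun h0 j
      · exact hc i hki
    · funext i
      apply hc i
      rw [hk]
      intro h
      apply hwW
      rw [← h]
      exact i.1.2
  exact ⟨{ ι := Σ w : (Finset.Icc (0 : ℤ) W), Fin (freeRank N w.1)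
           fin := inferInstance
           k := k
           F := F
           mem := hF
           span := fun w f hf => free_span_aux N k F hs (w.toNat + 1) w (by push_cast; omega) f hf
           indep := fun w A hA h0 =>
             free_indep_aux N k F hk0 hF hs hi (w.toNat + 1) w (by push_cast; omega) A hA h0 }⟩

variable {N}

theorem FreeBasis.free_F_ne_zero (B : FreeBasis N) (i : B.ι) : B.F i ≠ 0 := by
  classical
  intro h
  have h1 := B.indep (B.k i) (fun j => if j = i then (1 : ℍ → ℂ) else 0)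
    (fun j => by
      by_cases hj : j = i
      · subst hj
        rw [if_pos rfl]
        exact MF_congr (by rw [sub_self]) MF_one
      · rw [if_neg hj]
        exact Submodule.zero_mem _)
    (by
      rw [Finset.sum_eq_single i]
      · rw [if_pos rfl, one_mul, h]
      · intro j _ hj
        rw [if_neg hj, zero_mul]
      · intro hi
        exact absurd (Finset.mem_univ _) hi) i
  rw [if_pos rfl] at h1
  have h2 := congrFun h1 UpperHalfPlane.I
  simp at h2

theorem FreeBasis.k_nonneg (B : FreeBasis N) (i : B.ι) : 0 ≤ B.k i := by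
  by_contra hneg
  rw [not_le] at hneg
  have h1 := B.mem i
  rw [MF_eq_bot_of_neg N hneg, Submodule.mem_bot] at h1
  exact B.free_F_ne_zero i h1

theorem FreeBasis.k_even (B : FreeBasis N) (i : B.ι) : Even (B.k i) := by
  by_contra hodd
  rw [Int.not_even_iff_odd] at hodd
  have h1 := B.mem i
  rw [MF_eq_bot_of_odd N hodd, Submodule.mem_bot] at h1
  exact B.free_F_ne_zero i h1

theorem FreeBasis.finrank_MF (B : FreeBasis N) (w : ℤ) :
    finrank ℂ (MF (G0 N) w) = ∑ i, loDim (w - B.k i) := by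
  have : ∀ i, Module.Finite ℂ (MF 𝒮ℒ (w - B.k i)) := fun i =>
    Submodule.finiteDimensional_of_le (MF_levelOne_le N)
  have hmem : ∀ A : (∀ i, MF 𝒮ℒ (w - B.k i)), ∑ i, (A i : ℍ → ℂ) * B.F i ∈ MF (G0 N) w :=
    fun A => Submodule.sum_mem _ fun i _ =>
      MF_congr (by ring) (MF_mul (MF_levelOne_le N (A i).2) (B.mem i))
  let Φ : (∀ i, MF 𝒮ℒ (w - B.k i)) →ₗ[ℂ] MF (G0 N) w :=
    { toFun := fun A => ⟨∑ i, (A i : ℍ → ℂ) * B.F i, hmem A⟩
      map_add' := fun A A' => by
        apply Subtype.ext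
        simp only [Pi.add_apply, Submodule.coe_add, add_mul, Finset.sum_add_distrib]
      map_smul' := fun c A => by
        apply Subtype.ext
        simp only [Pi.smul_apply, Submodule.coe_smul, smul_mul_assoc, Finset.smul_sum,
          RingHom.id_apply] }
  have hinj : Function.Injective Φ := by
    rw [← LinearMap.ker_eq_bot, LinearMap.ker_eq_bot']
    intro A hA
    have h1 : ∑ i, (A i : ℍ → ℂ) * B.F i = 0 := congrArg Subtype.val hA
    have h2 := B.indep w (fun i => (A i : ℍ → ℂ)) (fun i => (A i).2) h1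
    funext i
    exact Subtype.ext (h2 i)
  have hsurj : Function.Surjective Φ := by
    rintro ⟨f, hf⟩
    obtain ⟨A, hA, rfl⟩ := B.span w f hf
    exact ⟨fun i => ⟨A i, hA i⟩, rfl⟩
  have h1 := (LinearEquiv.ofBijective Φ ⟨hinj, hsurj⟩).finrank_eq
  rw [← h1, Module.finrank_pi_fintype]
  exact Finset.sum_congr rfl fun i _ => finrank_MF_levelOne _

end Free2

end Fermat.Agent.S20
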