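import Fermat.Agent.S20.Basic

/-!
# S20 piece (F), part: surjectivity of the jet map onto equivariant jets

Explicit-hypothesis version of `jets_surjective`: given linearity and `T`-equivariance of the
jets, and that forms with vanishing jets of order `< N` are divisible by `Δ`, the jet map is
surjective onto the `T`-equivariant jets in any weight where the dimension jumps by the index.
The space of equivariant jets has dimension at most `card (QQ N)` by finite Fourier inversion
(a Vandermonde argument in the `N`-th roots of unity).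
-/

set_option autoImplicit false

namespace Fermat.Agent.S20

open UpperHalfPlane ModularForm CongruenceSubgroup SlashInvariantForm Module
open scoped MatrixGroups Manifold

/-- The space of `T`-equivariant jets of order `< N`. -/
def eqJets (N : ℕ) [NeZero N] : Submodule ℂ (QQ N → Fin N → ℂ) where
  carrier := {a | ∀ (q : QQ N) (n : Fin N),
    a (sT⁻¹ • q) n = Complex.exp (2 * Real.pi * Complex.I * (n : ℕ) / N) * a q n}
  add_mem' := by
    intro a b ha hb q n
    simp only [Pi.add_apply]
    rw [ha q n, hb q n, mul_add]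
  zero_mem' := by
    intro q n
    simp
  smul_mem' := by
    intro c a ha q n
    simp only [Pi.smul_apply, smul_eq_mul]
    rw [ha q n]
    ring

theorem mem_eqJets (N : ℕ) [NeZero N] (a : QQ N → Fin N → ℂ) :
    a ∈ eqJets N ↔ ∀ (q : QQ N) (n : Fin N),
      a (sT⁻¹ • q) n = Complex.exp (2 * Real.pi * Complex.I * (n : ℕ) / N) * a q n := Iff.rfl

theorem jsurj_exp_eq_pow (N : ℕ) [NeZero N] (n : ℕ) :
    Complex.exp (2 * Real.pi * Complex.I * (n : ℕ) / N) =
      Complex.exp (2 * Real.pi * Complex.I / N) ^ n := by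
  rw [← Complex.exp_nat_mul]
  congr 1
  ring

theorem jsurj_iterate (N : ℕ) [NeZero N] {a : QQ N → Fin N → ℂ} (ha : a ∈ eqJets N)
    (j : ℕ) (q : QQ N) (n : Fin N) :
    a ((sT⁻¹) ^ j • q) n = (Complex.exp (2 * Real.pi * Complex.I / N) ^ j) ^ (n : ℕ) * a q n := by
  induction j with
  | zero => simp
  | succ j ih =>
    rw [pow_succ', mul_smul, ha _ n, ih, jsurj_exp_eq_pow]
    ring

/-- Finite Fourier inversion: an equivariant jet is determined by its "values at `t = 1`". -/
theorem jsurj_eq_zero_of_sum (N : ℕ) [NeZero N] {a : QQ N → Fin N → ℂ} (ha : a ∈ eqJets N)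
    (h0 : ∀ q : QQ N, ∑ n : Fin N, a q n = 0) : a = 0 := by
  funext q
  have hN : N ≠ 0 := NeZero.ne N
  have hprim := Complex.isPrimitiveRoot_exp N hN
  set ζ : ℂ := Complex.exp (2 * Real.pi * Complex.I / N) with hζ
  have hinj : Function.Injective (fun j : Fin N => ζ ^ (j : ℕ)) := by
    intro i j hij
    exact Fin.ext (hprim.pow_inj i.2 j.2 hij)
  have hdet : (Matrix.vandermonde (fun j : Fin N => ζ ^ (j : ℕ))).det ≠ 0 :=
    Matrix.det_vandermonde_ne_zero_iff.mpr hinj
  have hmul : (Matrix.vandermonde (fun j : Fin N => ζ ^ (j : ℕ))).mulVec (a q) = 0 := by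
    funext j
    rw [Matrix.mulVec, dotProduct, Pi.zero_apply, ← h0 ((sT⁻¹) ^ (j : ℕ) • q)]
    refine Finset.sum_congr rfl fun n _ => ?_
    rw [Matrix.vandermonde_apply, jsurj_iterate N ha]
  exact Matrix.eq_zero_of_mulVec_eq_zero hdet hmul

theorem finrank_eqJets_le (N : ℕ) [NeZero N] :
    finrank ℂ (eqJets N) ≤ Fintype.card (QQ N) := by
  let S : (QQ N → Fin N → ℂ) →ₗ[ℂ] (QQ N → ℂ) :=
    { toFun := fun a q => ∑ n : Fin N, a q n
      map_add' := by
        intro a b
        funext q
        simp [Finset.sum_add_distrib]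
      map_smul' := by
        intro c a
        funext q
        simp [Finset.mul_sum] }
  have hinj : Function.Injective (S.comp (eqJets N).subtype) := by
    rw [← LinearMap.ker_eq_bot, LinearMap.ker_eq_bot']
    intro a ha
    apply Subtype.ext
    exact jsurj_eq_zero_of_sum N a.2 (fun q => congrFun ha q)
  have h := LinearMap.finrank_le_finrank_of_injective hinj
  rwa [Module.finrank_fintype_fun_eq_card] at h

/-- Surjectivity of the jet map onto `T`-equivariant jets (explicit hypotheses). -/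
theorem jets_surjective_of (N : ℕ) [NeZero N] {w : ℤ}
    (hdim : finrank ℂ (MF (G0 N) w) =
      finrank ℂ (MF (G0 N) (w - 12)) + Fintype.card (QQ N))
    (hadd : ∀ f h : ℍ → ℂ, f ∈ MF (G0 N) w → h ∈ MF (G0 N) w → ∀ (q : QQ N) (n : ℕ),
      jet N w (f + h) q n = jet N w f q n + jet N w h q n)
    (hsmul : ∀ (c : ℂ) (f : ℍ → ℂ), f ∈ MF (G0 N) w → ∀ (q : QQ N) (n : ℕ),
      jet N w (c • f) q n = c * jet N w f q n)
    (hequiv : ∀ f : ℍ → ℂ, f ∈ MF (G0 N) w → ∀ (q : QQ N) (n : ℕ),
      jet N w f (sT⁻¹ • q) n = Complex.exp (2 * Real.pi * Complex.I * n / N) * jet N w f q n)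
    (hker : ∀ f : ℍ → ℂ, f ∈ MF (G0 N) w →
      (∀ (q : QQ N) (n : ℕ), n < N → jet N w f q n = 0) →
      ∃ g ∈ MF (G0 N) (w - 12), f = ModularForm.discriminant * g)
    (a : QQ N → ℕ → ℂ)
    (ha : ∀ (q : QQ N) (n : ℕ),
      a (sT⁻¹ • q) n = Complex.exp (2 * Real.pi * Complex.I * n / N) * a q n) :
    ∃ f ∈ MF (G0 N) w, ∀ (q : QQ N) (n : ℕ), n < N → jet N w f q n = a q n := by
  -- the jet map
  let J : ↥(MF (G0 N) w) →ₗ[ℂ] (QQ N → Fin N → ℂ) :=
    { toFun := fun f q n => jet N w (f : ℍ → ℂ) q n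
      map_add' := by
        intro f h
        funext q n
        exact hadd f h f.2 h.2 q n
      map_smul' := by
        intro c f
        funext q n
        exact hsmul c f f.2 q n }
  have hJ : ∀ (f : ↥(MF (G0 N) w)) (q : QQ N) (n : Fin N),
      J f q n = jet N w (f : ℍ → ℂ) q n := fun _ _ _ => rfl
  -- the range consists of equivariant jets
  have hrange : LinearMap.range J ≤ eqJets N := by
    rintro _ ⟨f, rfl⟩
    intro q n
    rw [hJ, hJ]
    exact hequiv f f.2 q n
  -- multiplication by `Δ`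
  let M : ↥(MF (G0 N) (w - 12)) →ₗ[ℂ] (ℍ → ℂ) :=
    (LinearMap.mulLeft ℂ (ModularForm.discriminant : ℍ → ℂ)).comp (MF (G0 N) (w - 12)).subtype
  have hkerle : (LinearMap.ker J).map (MF (G0 N) w).subtype ≤ LinearMap.range M := by
    rintro _ ⟨f, hf, rfl⟩
    have hf0 : ∀ (q : QQ N) (n : ℕ), n < N → jet N w (f : ℍ → ℂ) q n = 0 := by
      intro q n hn
      have h1 := congrFun (congrFun (LinearMap.mem_ker.mp hf) q) ⟨n, hn⟩
      exact h1
    obtain ⟨g, hg, hfg⟩ := hker f f.2 hf0
    exact ⟨⟨g, hg⟩, hfg.symm⟩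
  have hker_le : finrank ℂ (LinearMap.ker J) ≤ finrank ℂ (MF (G0 N) (w - 12)) := by
    have h1 : finrank ℂ ((LinearMap.ker J).map (MF (G0 N) w).subtype) =
        finrank ℂ (LinearMap.ker J) :=
      (Submodule.equivMapOfInjective _ (Submodule.injective_subtype _) _).symm.finrank_eq
    have h2 : finrank ℂ ((LinearMap.ker J).map (MF (G0 N) w).subtype) ≤
        finrank ℂ (LinearMap.range M) := Submodule.finrank_mono hkerle
    have h3 : finrank ℂ (LinearMap.range M) ≤ finrank ℂ (MF (G0 N) (w - 12)) :=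
      LinearMap.finrank_range_le M
    omega
  have hrn := LinearMap.finrank_range_add_finrank_ker J
  have hE := finrank_eqJets_le N
  have heq : LinearMap.range J = eqJets N :=
    Submodule.eq_of_le_of_finrank_le hrange (by omega)
  have hamem : (fun (q : QQ N) (n : Fin N) => a q (n : ℕ)) ∈ eqJets N := fun q n => ha q n
  rw [← heq] at hamem
  obtain ⟨f, hf⟩ := hamem
  refine ⟨f, f.2, fun q n hn => ?_⟩
  have h1 := congrFun (congrFun hf q) ⟨n, hn⟩
  exact h1

end Fermat.Agent.S20
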