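import Fermat.Agent.S20.Defs

/-!
# S20: arithmetic of `loDim` (the dimension of the space of level one forms)
-/

set_option autoImplicit false

namespace Fermat.Agent.S20


theorem loDim_add_twelve (v : ℤ) (hv : 0 ≤ v) (he : Even v) : loDim (v + 12) = loDim v + 1 := by
  have hno : ¬ Odd v := by simpa [Int.not_odd_iff_even] using he
  have hno' : ¬ Odd (v + 12) := by
    rw [Int.not_odd_iff_even]; exact he.add (by decide)
  have h1 : ¬ (v < 0) := by omega
  have h2 : ¬ (v + 12 < 0) := by omega
  simp only [loDim, h1, h2, hno, hno', or_self, if_false]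
  have h3 : (v + 12) % 12 = v % 12 := by omega
  have h4 : (v + 12) / 12 = v / 12 + 1 := by omega
  have h5 : 0 ≤ v / 12 := by omega
  rw [h3, h4]
  have h6 : (v / 12 + 1).toNat = (v / 12).toNat + 1 := by omega
  rw [h6]
  split_ifs <;> rfl

theorem loDim_twelve_mul_add (W : ℕ) (r : ℤ) (hr : 0 ≤ r) (he : Even r) :
    loDim (12 * W + r) = W + loDim r := by
  induction W with
  | zero => simp
  | succ n ih =>
    have : (12 * ((n + 1 : ℕ) : ℤ) + r) = (12 * (n : ℤ) + r) + 12 := by push_cast; ring
    rw [this, loDim_add_twelve _ (by positivity) (by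
      refine Even.add ?_ he
      exact (show Even (12 : ℤ) by decide).mul_right _), ih]
    ring

theorem loDim_of_neg (v : ℤ) (hv : v < 0) : loDim v = 0 := by
  simp [loDim, hv]


/-- values of `loDim` used below -/
theorem loDim_vals : loDim 0 = 1 ∧ loDim 2 = 0 ∧ loDim 4 = 1 ∧ loDim 6 = 1 ∧ loDim 8 = 1 ∧
    loDim 10 = 1 ∧ loDim 12 = 2 := by
  refine ⟨?_, ?_, ?_, ?_, ?_, ?_, ?_⟩ <;> decide

end Fermat.Agent.S20
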