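import Fermat.Agent.S20.Defs
import Fermat.Agent.S24.JOrder
import Fermat.Agent.S24.JSurj

/-!
# S20 piece (B), part: normal form of level one forms, `lo_generate` and `lo_local`

Every level one modular form of weight `4a + 6b + 12n` (`a ≤ 2`, `b ≤ 1`) is
`E₄^a E₆^b H_n(p)(E₄³, E₆²)` for a polynomial `p` of degree `≤ n`, where `H_n(p)` is the
homogenization of `p`.  All other weights carry no nonzero form.  From this normal form we get
* `lol_generate` : forms of nonzero weight lie in the ideal `(E₄, E₆)`;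
* `lol_local` : the local structure of the graded ring at a point `z₀`.
-/

set_option autoImplicit false

open UpperHalfPlane ModularForm SlashInvariantForm SlashInvariantFormClass ModularFormClass
  CuspFormClass MatrixGroups OnePoint Filter EisensteinSeries Asymptotics ModularGroup

open scoped Topology Manifold Real

noncomputable section

namespace Fermat.Agent.S20

open Fermat.Agent.S24 (jsurj_tendsto_coeff_zero jord_slash_eq jordW exists_jordW_eq_ne_zero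
  D_E₄_ne_zero D_E₆_ne_zero jord_deriv_ne_zero)

local notation "Δ" => ModularForm.discriminant

/-! ### Membership in the spaces of level one forms -/

theorem lol_congr {a b : ℤ} {f : ℍ → ℂ} (h : a = b) (hf : f ∈ MF 𝒮ℒ a) : f ∈ MF 𝒮ℒ b := h ▸ hf

theorem lol_mul {a b : ℤ} {f g : ℍ → ℂ} (hf : f ∈ MF 𝒮ℒ a) (hg : g ∈ MF 𝒮ℒ b) :
    f * g ∈ MF 𝒮ℒ (a + b) := by
  obtain ⟨F, rfl⟩ := hf
  obtain ⟨G, rfl⟩ := hg
  exact ⟨F.mul G, rfl⟩

theorem lol_one : (1 : ℍ → ℂ) ∈ MF 𝒮ℒ 0 := ⟨1, rfl⟩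

theorem lol_pow {a : ℤ} {f : ℍ → ℂ} (hf : f ∈ MF 𝒮ℒ a) (n : ℕ) : f ^ n ∈ MF 𝒮ℒ (n * a) := by
  induction n with
  | zero =>
    rw [pow_zero]
    exact lol_congr (by simp) lol_one
  | succ n ih =>
    rw [pow_succ]
    exact lol_congr (by push_cast; ring) (lol_mul ih hf)

theorem lol_E4 : (⇑E₄ : ℍ → ℂ) ∈ MF 𝒮ℒ 4 := ⟨E₄, rfl⟩

theorem lol_E6 : (⇑E₆ : ℍ → ℂ) ∈ MF 𝒮ℒ 6 := ⟨E₆, rfl⟩

theorem lol_monomial (i j : ℕ) : ((⇑E₄ : ℍ → ℂ) ^ i * (⇑E₆ : ℍ → ℂ) ^ j) ∈ MF 𝒮ℒ (4 * i + 6 * j) :=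
  lol_congr (by ring) (lol_mul (lol_pow lol_E4 i) (lol_pow lol_E6 j))

theorem lol_E4_tendsto : Tendsto (fun τ : ℍ => E₄ τ) atImInfty (𝓝 1) := by
  have := jsurj_tendsto_coeff_zero E₄
  rwa [E_qExpansion_coeff_zero _ ⟨2, rfl⟩] at this

theorem lol_E6_tendsto : Tendsto (fun τ : ℍ => E₆ τ) atImInfty (𝓝 1) := by
  have := jsurj_tendsto_coeff_zero E₆
  rwa [E_qExpansion_coeff_zero _ ⟨3, rfl⟩] at this

theorem lol_no_common_zero (z : ℍ) : E₄ z ≠ 0 ∨ E₆ z ≠ 0 := by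
  by_contra h
  push Not at h
  have := discriminant_eq_E₄_cube_sub_E₆_sq z
  rw [h.1, h.2] at this
  exact discriminant_ne_zero z (by rw [this]; norm_num)

/-! ### Homogenization of polynomials -/

/-- Homogenization of a polynomial to degree `n`: `∑_{t ≤ n} p_t x^(n-t) y^t`. -/
def lolH (n : ℕ) (p : Polynomial ℂ) (x y : ℂ) : ℂ :=
  ∑ t ∈ Finset.range (n + 1), p.coeff t * x ^ (n - t) * y ^ t

theorem lolH_add (n : ℕ) (p q : Polynomial ℂ) (x y : ℂ) :
    lolH n (p + q) x y = lolH n p x y + lolH n q x y := by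
  simp only [lolH, Polynomial.coeff_add, add_mul, Finset.sum_add_distrib]

theorem lolH_C_mul (n : ℕ) (c : ℂ) (p : Polynomial ℂ) (x y : ℂ) :
    lolH n (Polynomial.C c * p) x y = c * lolH n p x y := by
  simp only [lolH, Polynomial.coeff_C_mul, Finset.mul_sum, mul_assoc]

theorem lolH_one (n : ℕ) (x y : ℂ) : lolH n 1 x y = x ^ n := by
  simp only [lolH, Polynomial.coeff_one]
  rw [Finset.sum_eq_single 0]
  · simp
  · intro t _ ht
    simp [ht]
  · simp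

theorem lolH_zero_left (p : Polynomial ℂ) (x y : ℂ) : lolH 0 p x y = p.coeff 0 := by
  simp [lolH]

theorem lolH_succ' (n : ℕ) (p : Polynomial ℂ) (x y : ℂ) :
    lolH (n + 1) p x y = x * lolH n p x y + p.coeff (n + 1) * y ^ (n + 1) := by
  simp only [lolH]
  rw [Finset.sum_range_succ, Nat.sub_self, pow_zero, mul_one, Finset.mul_sum]
  congr 1
  refine Finset.sum_congr rfl fun t ht => ?_
  have htn : t ≤ n := Nat.lt_succ_iff.mp (Finset.mem_range.mp ht)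
  rw [show n + 1 - t = (n - t) + 1 by omega, pow_succ]
  ring

theorem lolH_succ (n : ℕ) (p : Polynomial ℂ) (hp : p.natDegree ≤ n) (x y : ℂ) :
    lolH (n + 1) p x y = x * lolH n p x y := by
  rw [lolH_succ', Polynomial.coeff_eq_zero_of_natDegree_lt (by omega), zero_mul, add_zero]

theorem lolH_X_mul (n : ℕ) (p : Polynomial ℂ) (x y : ℂ) :
    lolH (n + 1) (Polynomial.X * p) x y = y * lolH n p x y := by
  simp only [lolH]
  rw [Finset.sum_range_succ', Polynomial.coeff_X_mul_zero, zero_mul, zero_mul, add_zero,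
    Finset.mul_sum]
  refine Finset.sum_congr rfl fun t _ => ?_
  rw [Polynomial.coeff_X_mul, Nat.add_sub_add_right, pow_succ]
  ring

theorem lolH_root (m : ℕ) (r : ℂ) (p : Polynomial ℂ) (hp : p.natDegree ≤ m) (x y : ℂ) :
    lolH (m + 1) ((Polynomial.X - Polynomial.C r) * p) x y = (y - r * x) * lolH m p x y := by
  have h : (Polynomial.X - Polynomial.C r) * p = Polynomial.X * p + Polynomial.C (-r) * p := by
    rw [Polynomial.C_neg]
    ring
  rw [h, lolH_add, lolH_X_mul, lolH_C_mul, lolH_succ m p hp]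
  ring

theorem lolH_eval (n : ℕ) (p : Polynomial ℂ) (hp : p.natDegree ≤ n) {x : ℂ} (hx : x ≠ 0) (y : ℂ) :
    lolH n p x y = x ^ n * p.eval (y / x) := by
  rw [Polynomial.eval_eq_sum_range' (Nat.lt_succ_of_le hp), lolH, Finset.mul_sum]
  refine Finset.sum_congr rfl fun t ht => ?_
  have htn : t ≤ n := Nat.lt_succ_iff.mp (Finset.mem_range.mp ht)
  have e : x ^ n = x ^ (n - t) * x ^ t := by
    rw [← pow_add]
    congr 1
    omega
  rw [e, div_pow]
  field_simp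

theorem lolH_zero_x (n : ℕ) (p : Polynomial ℂ) (y : ℂ) : lolH n p 0 y = p.coeff n * y ^ n := by
  rw [lolH, Finset.sum_eq_single n]
  · simp
  · intro t ht htn
    have : t < n := lt_of_le_of_ne (Nat.lt_succ_iff.mp (Finset.mem_range.mp ht)) htn
    rw [zero_pow (by omega), mul_zero, zero_mul]
  · intro h
    exact absurd (Finset.mem_range.mpr (Nat.lt_succ_self n)) h

theorem lolH_zero_y (n : ℕ) (p : Polynomial ℂ) (x : ℂ) : lolH n p x 0 = p.coeff 0 * x ^ n := by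
  rw [lolH, Finset.sum_eq_single 0]
  · simp
  · intro t _ ht
    rw [zero_pow ht, mul_zero]
  · intro h
    exact absurd (Finset.mem_range.mpr (Nat.succ_pos n)) h

/-! ### The normal form -/

/-- The level one form `E₄^a E₆^b H_n(p)(E₄³, E₆²)`. -/
def lolF (a b n : ℕ) (p : Polynomial ℂ) : ℍ → ℂ :=
  fun z => E₄ z ^ a * E₆ z ^ b * lolH n p (E₄ z ^ 3) (E₆ z ^ 2)

theorem lolF_apply (a b n : ℕ) (p : Polynomial ℂ) (z : ℍ) :
    lolF a b n p z = E₄ z ^ a * E₆ z ^ b * lolH n p (E₄ z ^ 3) (E₆ z ^ 2) := rfl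

theorem lolF_mem (a b n : ℕ) (p : Polynomial ℂ) :
    lolF a b n p ∈ MF 𝒮ℒ (4 * a + 6 * b + 12 * n) := by
  have h : lolF a b n p = ∑ t ∈ Finset.range (n + 1),
      p.coeff t • ((⇑E₄ : ℍ → ℂ) ^ (a + 3 * (n - t)) * (⇑E₆ : ℍ → ℂ) ^ (b + 2 * t)) := by
    funext z
    simp only [lolF, lolH, Finset.mul_sum, Finset.sum_apply, Pi.smul_apply, Pi.mul_apply,
      Pi.pow_apply, smul_eq_mul]
    refine Finset.sum_congr rfl fun t _ => ?_
    rw [pow_add, pow_add, pow_mul, pow_mul]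
    ring
  rw [h]
  refine Submodule.sum_mem _ fun t ht => Submodule.smul_mem _ _ ?_
  have htn : t ≤ n := Nat.lt_succ_iff.mp (Finset.mem_range.mp ht)
  refine lol_congr ?_ (lol_monomial _ _)
  push_cast [Nat.cast_sub htn]
  ring

theorem lolF_tendsto_one (a b n : ℕ) : Tendsto (lolF a b n 1) atImInfty (𝓝 1) := by
  have h : lolF a b n 1 = fun z : ℍ => E₄ z ^ a * E₆ z ^ b * (E₄ z ^ 3) ^ n := by
    funext z
    rw [lolF_apply, lolH_one]
  rw [h]
  have := ((lol_E4_tendsto.pow a).mul (lol_E6_tendsto.pow b)).mul ((lol_E4_tendsto.pow 3).pow n)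
  simpa using this

/-- Splitting off the value at infinity: `g = L • M + Δ g'`. -/
theorem lol_split {w : ℤ} {g M : ℍ → ℂ} (hg : g ∈ MF 𝒮ℒ w) (hM : M ∈ MF 𝒮ℒ w)
    (hM1 : Tendsto M atImInfty (𝓝 1)) :
    ∃ (L : ℂ) (g' : ℍ → ℂ), g' ∈ MF 𝒮ℒ (w - 12) ∧ g = L • M + (Δ : ℍ → ℂ) * g' := by
  obtain ⟨G, rfl⟩ := hg
  obtain ⟨M', rfl⟩ := hM
  set L : ℂ := (qExpansion 1 G).coeff 0 with hL
  have hGL : Tendsto (fun τ : ℍ => G τ) atImInfty (𝓝 L) := jsurj_tendsto_coeff_zero G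
  set F : ModularForm 𝒮ℒ w := G - L • M' with hF
  have hF0 : Tendsto (fun τ : ℍ => F τ) atImInfty (𝓝 0) := by
    have h1 : Tendsto (fun τ : ℍ => G τ - L * M' τ) atImInfty (𝓝 (L - L * 1)) :=
      hGL.sub (hM1.const_mul L)
    rw [mul_one, sub_self] at h1
    exact h1
  let C : CuspForm 𝒮ℒ w :=
    { toFun := F
      slash_action_eq' := F.slash_action_eq'
      holo' := F.holo'
      zero_at_cusps' := fun {c} hc => by
        rw [Subgroup.IsArithmetic.isCusp_iff_isCusp_SL2Z] at hc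
        rw [OnePoint.isZeroAt_iff_forall_SL2Z hc]
        intro γ _
        rw [jord_slash_eq F γ]
        exact hF0 }
  refine ⟨L, ⇑(CuspForm.discriminantEquiv C), ⟨CuspForm.discriminantEquiv C, rfl⟩, ?_⟩
  funext z
  have h := discriminant_mul_discriminantEquiv_apply C z
  have hC : C z = G z - L * M' z := rfl
  rw [hC] at h
  show G z = L * M' z + Δ z * (CuspForm.discriminantEquiv C) z
  rw [h]
  ring

theorem lol_eq_zero_of_neg {w : ℤ} (hw : w < 0) {g : ℍ → ℂ} (hg : g ∈ MF 𝒮ℒ w) : g = 0 := by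
  obtain ⟨G, rfl⟩ := hg
  exact levelOne_neg_weight_eq_zero hw G

theorem lol_eq_zero_of_odd {w : ℤ} (hw : Odd w) {g : ℍ → ℂ} (hg : g ∈ MF 𝒮ℒ w) : g = 0 := by
  obtain ⟨G, rfl⟩ := hg
  have := ModularForm.levelOne_odd_weight_eq_zero hw G
  rw [this]
  rfl

theorem lol_eq_zero_of_two {g : ℍ → ℂ} (hg : g ∈ MF 𝒮ℒ 2) : g = 0 := by
  obtain ⟨G, rfl⟩ := hg
  have := rank_zero_iff_forall_zero.mp ModularForm.levelOne_weight_two_rank_zero G
  rw [this]
  rfl

theorem lolF_C_mul (a b n : ℕ) (c : ℂ) (p : Polynomial ℂ) :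
    lolF a b n (Polynomial.C c * p) = c • lolF a b n p := by
  funext z
  simp only [lolF_apply, lolH_C_mul, Pi.smul_apply, smul_eq_mul]
  ring

theorem lolF_add (a b n : ℕ) (p q : Polynomial ℂ) :
    lolF a b n (p + q) = lolF a b n p + lolF a b n q := by
  funext z
  simp only [lolF_apply, lolH_add, Pi.add_apply]
  ring

theorem lolF_zero (a b n : ℕ) : lolF a b n 0 = 0 := by
  funext z
  simp [lolF_apply, lolH]

theorem lolF_discriminant_mul (a b n : ℕ) (p : Polynomial ℂ) (hp : p.natDegree ≤ n) :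
    (Δ : ℍ → ℂ) * lolF a b n p
      = lolF a b (n + 1) (Polynomial.C (1 / 1728) * ((1 - Polynomial.X) * p)) := by
  funext z
  have h : (1 - Polynomial.X) * p = p + Polynomial.C (-1) * (Polynomial.X * p) := by
    rw [Polynomial.C_neg, Polynomial.C_1]
    ring
  rw [Pi.mul_apply, lolF_apply, lolF_apply, lolH_C_mul, h, lolH_add, lolH_C_mul, lolH_X_mul,
    lolH_succ n p hp, discriminant_eq_E₄_cube_sub_E₆_sq z]
  ring

/-- **Normal form** of level one forms of weight `4a + 6b + 12n`, `a ≤ 2`, `b ≤ 1`. -/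
theorem lol_repr (a b : ℕ) (ha : a ≤ 2) (hb : b ≤ 1) (n : ℕ) :
    ∀ {g : ℍ → ℂ}, g ∈ MF 𝒮ℒ (4 * a + 6 * b + 12 * n) →
      ∃ p : Polynomial ℂ, p.natDegree ≤ n ∧ g = lolF a b n p := by
  induction n with
  | zero =>
    intro g hg
    obtain ⟨L, g', hg', hgL⟩ := lol_split hg (lolF_mem a b 0 1) (lolF_tendsto_one a b 0)
    have hg0 : g' = 0 := by
      interval_cases a <;> interval_cases b
      · exact lol_eq_zero_of_neg (by norm_num) hg'
      · exact lol_eq_zero_of_neg (by norm_num) hg'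
      · exact lol_eq_zero_of_neg (by norm_num) hg'
      · exact lol_eq_zero_of_neg (by norm_num) hg'
      · exact lol_eq_zero_of_neg (by norm_num) hg'
      · exact lol_eq_zero_of_two (lol_congr (by norm_num) hg')
    refine ⟨Polynomial.C L, by simp, ?_⟩
    rw [hgL, hg0, mul_zero, add_zero]
    have := lolF_C_mul a b 0 L 1
    rw [mul_one] at this
    rw [this]
  | succ n ih =>
    intro g hg
    obtain ⟨L, g', hg', hgL⟩ := lol_split hg (lolF_mem a b (n + 1) 1) (lolF_tendsto_one a b (n + 1))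
    obtain ⟨p', hp', hgp'⟩ := ih (lol_congr (by push_cast; ring) hg')
    refine ⟨Polynomial.C L + Polynomial.C (1 / 1728) * ((1 - Polynomial.X) * p'), ?_, ?_⟩
    · refine (Polynomial.natDegree_add_le _ _).trans (max_le (by simp) ?_)
      refine (Polynomial.natDegree_C_mul_le _ _).trans ?_
      refine Polynomial.natDegree_mul_le.trans ?_
      have h1 : (1 - Polynomial.X : Polynomial ℂ).natDegree ≤ 1 := by
        refine (Polynomial.natDegree_sub_le _ _).trans ?_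
        simp
      omega
    · rw [hgL, hgp', lolF_discriminant_mul a b n p' hp', lolF_add]
      have := lolF_C_mul a b (n + 1) L 1
      rw [mul_one] at this
      rw [this]

/-- Weights carrying level one forms. -/
theorem lol_cases (w : ℤ) : (∀ g ∈ MF 𝒮ℒ w, g = 0) ∨
    ∃ a b n : ℕ, a ≤ 2 ∧ b ≤ 1 ∧ w = 4 * a + 6 * b + 12 * n := by
  rcases lt_or_ge w 0 with hw | hw
  · exact Or.inl fun g hg => lol_eq_zero_of_neg hw hg
  rcases Int.even_or_odd w with hev | hodd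
  swap
  · exact Or.inl fun g hg => lol_eq_zero_of_odd hodd hg
  by_cases h2 : w = 2
  · subst h2
    exact Or.inl fun g hg => lol_eq_zero_of_two hg
  right
  obtain ⟨k, hk⟩ : ∃ k : ℕ, w = 2 * k := by
    obtain ⟨r, hr⟩ := hev
    exact ⟨r.toNat, by omega⟩
  have hk1 : k ≠ 1 := by
    rintro rfl
    exact h2 (by simpa using hk)
  have hlt : k % 6 < 6 := Nat.mod_lt _ (by norm_num)
  interval_cases hr : k % 6
  · exact ⟨0, 0, k / 6, by norm_num, by norm_num, by omega⟩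
  · exact ⟨2, 1, (k - 7) / 6, by norm_num, by norm_num, by omega⟩
  · exact ⟨1, 0, (k - 2) / 6, by norm_num, by norm_num, by omega⟩
  · exact ⟨0, 1, (k - 3) / 6, by norm_num, by norm_num, by omega⟩
  · exact ⟨2, 0, (k - 4) / 6, by norm_num, by norm_num, by omega⟩
  · exact ⟨1, 1, (k - 5) / 6, by norm_num, by norm_num, by omega⟩

/-! ### `lo_generate` -/

/-- Level one forms of nonzero weight lie in the ideal generated by `E₄` and `E₆`. -/
theorem lol_generate (w : ℤ) (hw : w ≠ 0) {g : ℍ → ℂ} (hg : g ∈ MF 𝒮ℒ w) :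
    ∃ a b : ℍ → ℂ, a ∈ MF 𝒮ℒ (w - 4) ∧ b ∈ MF 𝒮ℒ (w - 6) ∧ g = ⇑E₄ * a + ⇑E₆ * b := by
  rcases lol_cases w with h0 | ⟨a, b, n, ha, hb, rfl⟩
  · refine ⟨0, 0, Submodule.zero_mem _, Submodule.zero_mem _, ?_⟩
    rw [h0 g hg]
    simp
  obtain ⟨p, hp, rfl⟩ := lol_repr a b ha hb n hg
  rcases Nat.eq_zero_or_pos a with rfl | ha0
  · rcases Nat.eq_zero_or_pos b with rfl | hb0
    · obtain ⟨m, rfl⟩ : ∃ m, n = m + 1 :=
        Nat.exists_eq_succ_of_ne_zero (by rintro rfl; exact hw (by simp))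
      refine ⟨lolF 2 0 m p,
        p.coeff (m + 1) • ((⇑E₄ : ℍ → ℂ) ^ 0 * (⇑E₆ : ℍ → ℂ) ^ (2 * m + 1)),
        lol_congr (by push_cast; ring) (lolF_mem 2 0 m p),
        Submodule.smul_mem _ _ (lol_congr (by push_cast; ring) (lol_monomial 0 (2 * m + 1))), ?_⟩
      funext z
      simp only [lolF_apply, lolH_succ', Pi.add_apply, Pi.mul_apply, Pi.smul_apply, Pi.pow_apply,
        smul_eq_mul]
      ring
    · obtain ⟨b', rfl⟩ : ∃ b', b = b' + 1 := ⟨b - 1, by omega⟩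
      refine ⟨0, lolF 0 b' n p, Submodule.zero_mem _,
        lol_congr (by push_cast; ring) (lolF_mem 0 b' n p), ?_⟩
      funext z
      simp only [lolF_apply, Pi.add_apply, Pi.mul_apply, Pi.zero_apply]
      ring
  · obtain ⟨a', rfl⟩ : ∃ a', a = a' + 1 := ⟨a - 1, by omega⟩
    refine ⟨lolF a' b n p, 0, lol_congr (by push_cast; ring) (lolF_mem a' b n p),
      Submodule.zero_mem _, ?_⟩
    funext z
    simp only [lolF_apply, Pi.add_apply, Pi.mul_apply, Pi.zero_apply]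
    ring

/-! ### `lo_local` -/

theorem lol_not_zero_of_tendsto {P : ℍ → ℂ} {c : ℂ} (hc : c ≠ 0)
    (h : Tendsto P atImInfty (𝓝 c)) : ¬ IsZeroAtImInfty P := by
  intro h0
  exact hc (tendsto_nhds_unique h h0)

/-- The statement of `lo_local`. -/
def LolLocal (z₀ : ℍ) : Prop :=
  ∃ (m a : ℤ) (P : ℍ → ℂ), 0 < m ∧ P ∈ MF 𝒮ℒ a ∧ P z₀ = 0 ∧
    ¬ IsZeroAtImInfty P ∧
    (∀ z : ℍ, P z = 0 → deriv (P ∘ ofComplex) z ≠ 0) ∧
    (∀ (w : ℤ) (g : ℍ → ℂ), g ∈ MF 𝒮ℒ w → g z₀ = 0 → ∃ g' ∈ MF 𝒮ℒ (w - a), g = P * g') ∧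
    (∀ (w : ℤ) (g : ℍ → ℂ), g ∈ MF 𝒮ℒ w → ¬ m ∣ w → g z₀ = 0) ∧
    (∃ w₀ : ℤ, ∀ w : ℤ, w₀ ≤ w → m ∣ w → ∃ g ∈ MF 𝒮ℒ w, g z₀ = 1)

theorem lol_local_E4 (z₀ : ℍ) (h4 : E₄ z₀ = 0) : LolLocal z₀ := by
  have h6 : E₆ z₀ ≠ 0 := (lol_no_common_zero z₀).resolve_left (not_not.mpr h4)
  refine ⟨6, 4, ⇑E₄, by norm_num, lol_E4, h4, lol_not_zero_of_tendsto one_ne_zero lol_E4_tendsto,
    fun z hz => jord_deriv_ne_zero (D_E₄_ne_zero hz), ?_, ?_, ?_⟩
  · intro w g hg hgz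
    rcases lol_cases w with h0 | ⟨a, b, n, ha, hb, rfl⟩
    · exact ⟨0, Submodule.zero_mem _, by rw [h0 g hg]; simp⟩
    obtain ⟨p, hp, rfl⟩ := lol_repr a b ha hb n hg
    rcases Nat.eq_zero_or_pos a with rfl | ha0
    · rw [lolF_apply, pow_zero, one_mul, h4, zero_pow three_ne_zero, lolH_zero_x] at hgz
      have hc : p.coeff n = 0 := by
        have h6' : E₆ z₀ ^ b ≠ 0 := pow_ne_zero _ h6
        have h6'' : (E₆ z₀ ^ 2) ^ n ≠ 0 := pow_ne_zero _ (pow_ne_zero _ h6)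
        rcases mul_eq_zero.mp hgz with h | h
        · exact absurd h h6'
        · exact (mul_eq_zero.mp h).resolve_right h6''
      rcases Nat.eq_zero_or_pos n with rfl | hn
      · refine ⟨0, Submodule.zero_mem _, ?_⟩
        funext z
        simp [lolF_apply, lolH_zero_left, hc]
      · obtain ⟨m, rfl⟩ : ∃ m, n = m + 1 := ⟨n - 1, by omega⟩
        refine ⟨lolF 2 b m p, lol_congr (by push_cast; ring) (lolF_mem 2 b m p), ?_⟩
        funext z
        simp only [lolF_apply, lolH_succ', hc, Pi.mul_apply]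
        ring
    · obtain ⟨a', rfl⟩ : ∃ a', a = a' + 1 := ⟨a - 1, by omega⟩
      refine ⟨lolF a' b n p, lol_congr (by push_cast; ring) (lolF_mem a' b n p), ?_⟩
      funext z
      simp only [lolF_apply, Pi.mul_apply]
      ring
  · intro w g hg hdiv
    rcases lol_cases w with h0 | ⟨a, b, n, ha, hb, rfl⟩
    · rw [h0 g hg]
      rfl
    obtain ⟨p, hp, rfl⟩ := lol_repr a b ha hb n hg
    have ha0 : a ≠ 0 := by
      rintro rfl
      exact hdiv ⟨b + 2 * n, by push_cast; ring⟩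
    rw [lolF_apply, h4, zero_pow ha0, zero_mul, zero_mul]
  · refine ⟨0, fun w hw hdiv => ?_⟩
    obtain ⟨j, rfl⟩ : ∃ j : ℕ, w = 6 * j := by
      obtain ⟨c, rfl⟩ := hdiv
      exact ⟨c.toNat, by omega⟩
    refine ⟨(E₆ z₀ ^ j)⁻¹ • ((⇑E₄ : ℍ → ℂ) ^ 0 * (⇑E₆ : ℍ → ℂ) ^ j),
      Submodule.smul_mem _ _ (lol_congr (by push_cast; ring) (lol_monomial 0 j)), ?_⟩
    simp only [Pi.smul_apply, Pi.pow_apply, pow_zero, one_mul, smul_eq_mul]
    exact inv_mul_cancel₀ (pow_ne_zero _ h6)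

theorem lol_local_E6 (z₀ : ℍ) (h6 : E₆ z₀ = 0) : LolLocal z₀ := by
  have h4 : E₄ z₀ ≠ 0 := (lol_no_common_zero z₀).resolve_right (not_not.mpr h6)
  refine ⟨4, 6, ⇑E₆, by norm_num, lol_E6, h6, lol_not_zero_of_tendsto one_ne_zero lol_E6_tendsto,
    fun z hz => jord_deriv_ne_zero (D_E₆_ne_zero hz), ?_, ?_, ?_⟩
  · intro w g hg hgz
    rcases lol_cases w with h0 | ⟨a, b, n, ha, hb, rfl⟩
    · exact ⟨0, Submodule.zero_mem _, by rw [h0 g hg]; simp⟩
    obtain ⟨p, hp, rfl⟩ := lol_repr a b ha hb n hg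
    rcases Nat.eq_zero_or_pos b with rfl | hb0
    · rw [lolF_apply, pow_zero, mul_one, h6, zero_pow two_ne_zero, lolH_zero_y] at hgz
      have hc : p.coeff 0 = 0 := by
        have h4' : E₄ z₀ ^ a ≠ 0 := pow_ne_zero _ h4
        have h4'' : (E₄ z₀ ^ 3) ^ n ≠ 0 := pow_ne_zero _ (pow_ne_zero _ h4)
        rcases mul_eq_zero.mp hgz with h | h
        · exact absurd h h4'
        · exact (mul_eq_zero.mp h).resolve_right h4''
      rcases Nat.eq_zero_or_pos n with rfl | hn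
      · refine ⟨0, Submodule.zero_mem _, ?_⟩
        funext z
        simp [lolF_apply, lolH_zero_left, hc]
      · obtain ⟨m, rfl⟩ : ∃ m, n = m + 1 := ⟨n - 1, by omega⟩
        obtain ⟨q, hq⟩ : ∃ q, p = Polynomial.X * q := by
          refine ⟨p.divX, ?_⟩
          have := Polynomial.divX_mul_X_add p
          rw [hc, Polynomial.C_0, add_zero] at this
          rw [mul_comm]
          exact this.symm
        subst hq
        refine ⟨lolF a 1 m q, lol_congr (by push_cast; ring) (lolF_mem a 1 m q), ?_⟩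
        funext z
        simp only [lolF_apply, lolH_X_mul, Pi.mul_apply]
        ring
    · obtain ⟨b', rfl⟩ : ∃ b', b = b' + 1 := ⟨b - 1, by omega⟩
      refine ⟨lolF a b' n p, lol_congr (by push_cast; ring) (lolF_mem a b' n p), ?_⟩
      funext z
      simp only [lolF_apply, Pi.mul_apply]
      ring
  · intro w g hg hdiv
    rcases lol_cases w with h0 | ⟨a, b, n, ha, hb, rfl⟩
    · rw [h0 g hg]
      rfl
    obtain ⟨p, hp, rfl⟩ := lol_repr a b ha hb n hg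
    have hb0 : b ≠ 0 := by
      rintro rfl
      exact hdiv ⟨a + 3 * n, by push_cast; ring⟩
    rw [lolF_apply, h6, zero_pow hb0, mul_zero, zero_mul]
  · refine ⟨0, fun w hw hdiv => ?_⟩
    obtain ⟨i, rfl⟩ : ∃ i : ℕ, w = 4 * i := by
      obtain ⟨c, rfl⟩ := hdiv
      exact ⟨c.toNat, by omega⟩
    refine ⟨(E₄ z₀ ^ i)⁻¹ • ((⇑E₄ : ℍ → ℂ) ^ i * (⇑E₆ : ℍ → ℂ) ^ 0),
      Submodule.smul_mem _ _ (lol_congr (by push_cast; ring) (lol_monomial i 0)), ?_⟩
    simp only [Pi.smul_apply, Pi.pow_apply, pow_zero, mul_one, smul_eq_mul]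
    exact inv_mul_cancel₀ (pow_ne_zero _ h4)

open Derivative in
theorem lol_local_generic (z₀ : ℍ) (h4 : E₄ z₀ ≠ 0) (h6 : E₆ z₀ ≠ 0) : LolLocal z₀ := by
  obtain ⟨x₀, hx₀⟩ : ∃ x : ℂ, x = E₄ z₀ ^ 3 := ⟨_, rfl⟩
  obtain ⟨y₀, hy₀⟩ : ∃ y : ℂ, y = E₆ z₀ ^ 2 := ⟨_, rfl⟩
  have hx : x₀ ≠ 0 := by
    rw [hx₀]
    exact pow_ne_zero _ h4
  have hy : y₀ ≠ 0 := by
    rw [hy₀]
    exact pow_ne_zero _ h6
  have hxy : x₀ - y₀ ≠ 0 := by
    have hΔ := discriminant_eq_E₄_cube_sub_E₆_sq z₀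
    rw [← hx₀, ← hy₀] at hΔ
    intro h
    apply discriminant_ne_zero z₀
    rw [hΔ, h]
    simp
  obtain ⟨P, hP⟩ : ∃ P : ℍ → ℂ, P = fun z => x₀ * E₆ z ^ 2 - y₀ * E₄ z ^ 3 := ⟨_, rfl⟩
  have hPz : ∀ z, P z = x₀ * E₆ z ^ 2 - y₀ * E₄ z ^ 3 := fun z => by rw [hP]
  have hPeq : P = x₀ • ((⇑E₄ : ℍ → ℂ) ^ 0 * (⇑E₆ : ℍ → ℂ) ^ 2)
      - y₀ • ((⇑E₄ : ℍ → ℂ) ^ 3 * (⇑E₆ : ℍ → ℂ) ^ 0) := by
    funext z
    rw [hPz]
    simp only [Pi.sub_apply, Pi.smul_apply, Pi.pow_apply, pow_zero, one_mul, mul_one, smul_eq_mul]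
  have hPmem : P ∈ MF 𝒮ℒ 12 := by
    rw [hPeq]
    exact Submodule.sub_mem _
      (Submodule.smul_mem _ _ (lol_congr (by norm_num) (lol_monomial 0 2)))
      (Submodule.smul_mem _ _ (lol_congr (by norm_num) (lol_monomial 3 0)))
  have hPlim : Tendsto P atImInfty (𝓝 (x₀ - y₀)) := by
    have := ((lol_E6_tendsto.pow 2).const_mul x₀).sub ((lol_E4_tendsto.pow 3).const_mul y₀)
    simp only [one_pow, mul_one] at this
    rw [hP]
    exact this
  have hPz₀ : P z₀ = 0 := by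
    rw [hPz, ← hx₀, ← hy₀]
    ring
  refine ⟨2, 12, P, by norm_num, hPmem, hPz₀, lol_not_zero_of_tendsto hxy hPlim, ?_, ?_, ?_, ?_⟩
  · intro z hz
    have hz' : x₀ * E₆ z ^ 2 = y₀ * E₄ z ^ 3 := by
      rw [hPz] at hz
      exact sub_eq_zero.mp hz
    have hz6 : E₆ z ≠ 0 := by
      intro h
      have h3 : y₀ * E₄ z ^ 3 = 0 := by
        rw [← hz', h]
        ring
      have h4z : E₄ z = 0 :=
        (pow_eq_zero_iff three_ne_zero).mp ((mul_eq_zero.mp h3).resolve_left hy)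
      exact (lol_no_common_zero z).elim (fun h' => h' h4z) (fun h' => h' h)
    obtain ⟨c, hc0, hc⟩ := exists_jordW_eq_ne_zero
    apply jord_deriv_ne_zero (F := P)
    intro hD
    have hDP : D P z = x₀ * (2 * E₆ z * D (⇑E₆) z) - y₀ * (3 * E₄ z ^ 2 * D (⇑E₄) z) := by
      have m4 : MDiff (⇑E₄ : ℍ → ℂ) := E₄.holo'
      have m6 : MDiff (⇑E₆ : ℍ → ℂ) := E₆.holo'
      have h1 : P = x₀ • ((⇑E₆ : ℍ → ℂ) ^ 2) - y₀ • ((⇑E₄ : ℍ → ℂ) ^ 3) := by
        funext z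
        rw [hPz]
        simp
      rw [h1, normalizedDerivOfComplex_sub _ _ ((m6.pow 2).const_smul x₀)
          ((m4.pow 3).const_smul y₀),
        normalizedDerivOfComplex_smul _ _ (m6.pow 2),
        normalizedDerivOfComplex_smul _ _ (m4.pow 3),
        normalizedDerivOfComplex_pow _ _ m6, normalizedDerivOfComplex_pow _ _ m4]
      simp only [Pi.sub_apply, Pi.smul_apply, Pi.mul_apply, Pi.pow_apply, smul_eq_mul]
      norm_num
    rw [hDP] at hD
    have hW : x₀ * E₆ z * jordW z = 0 := by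
      simp only [jordW]
      linear_combination E₄ z * hD - 3 * D (⇑E₄) z * hz'
    rw [hc z] at hW
    exact mul_ne_zero (mul_ne_zero hx hz6) (mul_ne_zero hc0 (discriminant_ne_zero z)) hW
  · intro w g hg hgz
    rcases lol_cases w with h0 | ⟨a, b, n, ha, hb, rfl⟩
    · exact ⟨0, Submodule.zero_mem _, by rw [h0 g hg]; simp⟩
    obtain ⟨p, hp, rfl⟩ := lol_repr a b ha hb n hg
    rw [lolF_apply, ← hx₀, ← hy₀] at hgz
    have hH : lolH n p x₀ y₀ = 0 := by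
      have h4' : E₄ z₀ ^ a ≠ 0 := pow_ne_zero _ h4
      have h6' : E₆ z₀ ^ b ≠ 0 := pow_ne_zero _ h6
      exact (mul_eq_zero.mp hgz).resolve_left (mul_ne_zero h4' h6')
    rcases Nat.eq_zero_or_pos n with rfl | hn
    · rw [lolH_zero_left] at hH
      refine ⟨0, Submodule.zero_mem _, ?_⟩
      funext z
      simp [lolF_apply, lolH_zero_left, hH]
    · obtain ⟨m, rfl⟩ : ∃ m, n = m + 1 := ⟨n - 1, by omega⟩
      rw [lolH_eval _ p hp hx] at hH
      have hroot : p.IsRoot (y₀ / x₀) := (mul_eq_zero.mp hH).resolve_left (pow_ne_zero _ hx)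
      obtain ⟨q, hq⟩ : ∃ q, p = (Polynomial.X - Polynomial.C (y₀ / x₀)) * q :=
        ⟨p /ₘ (Polynomial.X - Polynomial.C (y₀ / x₀)),
          (Polynomial.mul_divByMonic_eq_iff_isRoot.mpr hroot).symm⟩
      have hqdeg : q.natDegree ≤ m := by
        by_cases hq0 : q = 0
        · simp [hq0]
        · have := Polynomial.natDegree_mul (Polynomial.X_sub_C_ne_zero (y₀ / x₀)) hq0
          rw [← hq, Polynomial.natDegree_X_sub_C] at this
          omega
      subst hq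
      refine ⟨x₀⁻¹ • lolF a b m q,
        Submodule.smul_mem _ _ (lol_congr (by push_cast; ring) (lolF_mem a b m q)), ?_⟩
      funext z
      simp only [lolF_apply, lolH_root m _ q hqdeg, Pi.mul_apply, Pi.smul_apply, smul_eq_mul, hPz]
      field_simp
  · intro w g hg hdiv
    rcases lol_cases w with h0 | ⟨a, b, n, ha, hb, rfl⟩
    · rw [h0 g hg]
      rfl
    · exact absurd ⟨2 * a + 3 * b + 6 * n, by ring⟩ hdiv
  · refine ⟨4, fun w hw hdiv => ?_⟩
    obtain ⟨i, j, rfl⟩ : ∃ i j : ℕ, w = 4 * i + 6 * j := by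
      obtain ⟨c, rfl⟩ := hdiv
      by_cases h : 2 ∣ c
      · obtain ⟨d, rfl⟩ := h
        exact ⟨d.toNat, 0, by omega⟩
      · exact ⟨((c - 3) / 2).toNat, 1, by omega⟩
    refine ⟨(E₄ z₀ ^ i * E₆ z₀ ^ j)⁻¹ • ((⇑E₄ : ℍ → ℂ) ^ i * (⇑E₆ : ℍ → ℂ) ^ j),
      Submodule.smul_mem _ _ (lol_monomial i j), ?_⟩
    simp only [Pi.smul_apply, Pi.mul_apply, Pi.pow_apply, smul_eq_mul]
    exact inv_mul_cancel₀ (mul_ne_zero (pow_ne_zero _ h4) (pow_ne_zero _ h6))

theorem lol_local_aux (z₀ : ℍ) : LolLocal z₀ := by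
  by_cases h4 : E₄ z₀ = 0
  · exact lol_local_E4 z₀ h4
  by_cases h6 : E₆ z₀ = 0
  · exact lol_local_E6 z₀ h6
  exact lol_local_generic z₀ h4 h6

/-- Local structure of the graded ring of level one forms at a point `z₀` (the statement of
`lo_local` in the S20 skeleton). -/
theorem lol_local (z₀ : ℍ) : ∃ (m a : ℤ) (P : ℍ → ℂ), 0 < m ∧ P ∈ MF 𝒮ℒ a ∧ P z₀ = 0 ∧
    ¬ IsZeroAtImInfty P ∧
    (∀ z : ℍ, P z = 0 → deriv (P ∘ ofComplex) z ≠ 0) ∧
    (∀ (w : ℤ) (g : ℍ → ℂ), g ∈ MF 𝒮ℒ w → g z₀ = 0 → ∃ g' ∈ MF 𝒮ℒ (w - a), g = P * g') ∧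
    (∀ (w : ℤ) (g : ℍ → ℂ), g ∈ MF 𝒮ℒ w → ¬ m ∣ w → g z₀ = 0) ∧
    (∃ w₀ : ℤ, ∀ w : ℤ, w₀ ≤ w → m ∣ w → ∃ g ∈ MF 𝒮ℒ w, g z₀ = 1) :=
  lol_local_aux z₀

end Fermat.Agent.S20
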